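import Fermat.Agent.MLT.BettiLevelIdent

/-!
# Trace and Atkin–Lehner commute with the Hecke operators away from `q`
-/

set_option autoImplicit false

noncomputable section

open scoped MatrixGroups
open CongruenceSubgroup

namespace FermatLib.MLT

local notation "M2Z" => Matrix (Fin 2) (Fin 2) ℤ

open Modular (HeckeIdx heckeRepInt heckeRepInt_one_zero mem_Gamma0_iff_dvd dvd_apply_one_zero
  exists_eq_mul_rep)

variable {A : Type} [CommRing A]

namespace CosetSystem

variable {Γ'' Γ' Γ₁ Γ : Subgroup SL(2, ℤ)} {ι κ ι' κ' : Type}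
  [Fintype ι] [Fintype κ] [Fintype ι'] [Fintype κ']
  {χ'' : Γ'' →* Aˣ} {χ' : Γ' →* Aˣ} {χ₁ : Γ₁ →* Aˣ} {χ : Γ →* Aˣ}

/-- Two composites of transfers agree if their products of representatives match bijectively. -/
theorem transfer_swap {V : Type} [AddCommGroup V] [Module A V]
    (D : CosetSystem Γ' Γ ι) (E : CosetSystem Γ'' Γ' κ)
    (D' : CosetSystem Γ₁ Γ ι') (E' : CosetSystem Γ'' Γ₁ κ')
    (hinj : ∀ x y : κ' × ι', ∀ h : SL(2, ℤ), (h ∈ Γ ∨ -h ∈ Γ) →
      (h : M2Z) * (D'.rep x.2 * E'.rep x.1) = D'.rep y.2 * E'.rep y.1 → x = y)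
    (π : κ × ι → κ' × ι') (hπ : Function.Bijective π) (u : κ × ι → Γ)
    (hu : ∀ x, D.rep x.2 * E.rep x.1 =
      ((u x : SL(2, ℤ)) : M2Z) * (D'.rep (π x).2 * E'.rep (π x).1))
    {w : ι → A} {v : κ → A} {w' : ι' → A} {v' : κ' → A}
    (hw : D.IsWeight χ' χ w) (hv : E.IsWeight χ'' χ' v)
    (hw' : D'.IsWeight χ₁ χ w') (hv' : E'.IsWeight χ'' χ₁ v')
    (hm : ∀ x, v x.1 * w x.2 * (χ (u x) : A) = v' (π x).1 * w' (π x).2) (x : bettiH1 Γ χ V) :
    E.transfer V hv (D.transfer V hw x) = E'.transfer V hv' (D'.transfer V hw' x) := by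
  classical
  let F : CosetSystem Γ'' Γ (κ' × ι') :=
    { rep := fun x => D'.rep x.2 * E'.rep x.1
      det_ne_zero := fun x => by
        rw [Matrix.det_mul]
        exact mul_ne_zero (D'.det_ne_zero _) (E'.det_ne_zero _)
      eq_of_mul_rep := hinj
      exists_mul_eq := fun x γ =>
        ⟨(E'.next γ x.1, D'.next (E'.elt γ x.1) x.2), D'.elt (E'.elt γ x.1) x.2, by
          rw [Matrix.mul_assoc, E'.rep_mul, ← Matrix.mul_assoc, D'.rep_mul, Matrix.mul_assoc]⟩ }
  have hF : F.IsWeight χ'' χ (fun x => v' x.1 * w' x.2) := by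
    intro γ x
    obtain ⟨h1, h2⟩ := F.next_elt_eq_of_eq (γ := γ) (i := x)
      (j := (E'.next γ x.1, D'.next (E'.elt γ x.1) x.2)) (h := D'.elt (E'.elt γ x.1) x.2) (by
        show D'.rep x.2 * E'.rep x.1 * _ = _ * (D'.rep _ * E'.rep _)
        rw [Matrix.mul_assoc, E'.rep_mul, ← Matrix.mul_assoc, D'.rep_mul, Matrix.mul_assoc])
    rw [h1, h2, mul_assoc, hw', ← mul_assoc, hv']
    ring
  obtain ⟨π', hl, hr⟩ := Function.bijective_iff_has_inverse.1 hπ
  rw [transfer_transfer_eq D E F π u hu hv hw hF fun m => by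
      rw [show Finset.univ.filter (fun x => π x = m) = {π' m} from by
        ext x
        simp only [Finset.mem_filter, Finset.mem_univ, true_and, Finset.mem_singleton]
        exact ⟨fun h => by rw [← h, hl], fun h => by rw [h, hr]⟩, Finset.sum_singleton, hm, hr],
    transfer_transfer_eq D' E' F id (fun _ => 1) (fun x => by simp [F]) hv' hw' hF fun m => by
      simp [Finset.sum_filter]]

end CosetSystem

variable {L : ℕ} {q l : Nat.Primes} {χ : (ZMod L)ˣ →* Aˣ} {V : Type} [AddCommGroup V] [Module A V]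

/-- A factor of determinant prime to `l` on the left does not move the representatives. -/
theorem heckeRep_eq_of_smul_mul_eq (hl : l ≠ q) {M : ℕ} {Z : M2Z} {x y : HeckeIdx M l}
    (e : ((q : ℕ) : ℤ) • heckeRepInt l y.1 = Z * heckeRepInt l x.1) : x = y := by
  have e' : ∀ i j, (((q : ℕ) : ℤ) • heckeRepInt l y.1) i j = (Z * heckeRepInt l x.1) i j :=
    fun i j => by rw [e]
  have hlq : ¬ ((l : ℕ) : ℤ) ∣ ((q : ℕ) : ℤ) := fun h => hl (Subtype.ext
    ((Nat.prime_dvd_prime_iff_eq l.2 q.2).1 (Int.natCast_dvd_natCast.1 h)))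
  have e00 := e' 0 0
  have e01 := e' 0 1
  have e11 := e' 1 1
  have e10 := e' 1 0
  obtain ⟨_ | b, hx⟩ := x <;> obtain ⟨_ | b', hy⟩ := y
  · rfl
  · simp [heckeRepInt, Matrix.mul_apply, Fin.sum_univ_two] at e00
    exact absurd (e00 ▸ dvd_mul_left _ _) hlq
  · have hl0 : ((l : ℕ) : ℤ) ≠ 0 := by exact_mod_cast l.2.ne_zero
    simp [heckeRepInt, Matrix.mul_apply, Fin.sum_univ_two] at e10 e11
    rw [← e10, zero_mul, zero_add] at e11
    exact absurd (e11 ▸ dvd_mul_left _ _) hlq
  · simp [heckeRepInt, Matrix.mul_apply, Fin.sum_univ_two] at e00 e01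
    have hd : ((l : ℕ) : ℤ) ∣ ((q : ℕ) : ℤ) * ((b' : ℤ) - b) := ⟨Z 0 1, by
      rw [← e00] at e01
      linear_combination e01⟩
    have hd' := ((Nat.prime_iff_prime_int.1 l.2).dvd_or_dvd hd).resolve_left hlq
    have := b.isLt
    have := b'.isLt
    have : (b' : ℤ) - b = 0 :=
      Int.eq_zero_of_abs_lt_dvd hd' (by rw [abs_lt]; constructor <;> omega)
    exact Subtype.ext (congrArg some (Fin.ext (by omega)))

/-- The units of the representatives at level `L q`, read modulo `L`. -/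
theorem upperUnits_heckeRaise (L : ℕ) (q l : Nat.Primes) :
    UpperUnits L (bettiHeckeSystem (L * (q : ℕ)) l).rep
      (fun x => ZMod.unitsMap (Nat.dvd_mul_right L q) (heckeUnit (L * (q : ℕ)) l x)) := by
  intro x
  obtain ⟨h1, h2⟩ := upperUnits_heckeUnit (L * (q : ℕ)) l x
  refine ⟨(Int.natCast_dvd_natCast.2 (Nat.dvd_mul_right L q)).trans h1, ?_⟩
  rw [ZMod.unitsMap_val, ← h2, ZMod.cast_intCast (Nat.dvd_mul_right L q)]

theorem heckeRepInt_not_dvd_zero_zero {M : ℕ} (x : HeckeIdx M l) (h : (l : ℕ) ∣ M) :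
    ¬ ((l : ℕ) : ℤ) ∣ heckeRepInt l x.1 0 0 := by
  obtain ⟨_ | b, hx⟩ := x
  · exact absurd h (hx rfl)
  · simp only [heckeRepInt, Matrix.of_apply, Matrix.cons_val', Matrix.cons_val_zero,
      Matrix.cons_val_fin_one]
    exact fun h1 => l.2.not_dvd_one (Int.natCast_dvd_natCast.1 (by exact_mod_cast h1))

/-- The trace commutes with `T l`, `l ≠ q`. -/
theorem levelTrace_hecke_swap (hq : ¬ (q : ℕ) ∣ L) (hl : l ≠ q)
    (m : BettiMod (L * (q : ℕ)) (raiseChar q χ) V) :
    levelTrace hq χ V (bettiHeckeOp (L * (q : ℕ)) V (raiseChar q χ) l m) =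
      bettiHeckeOp L V χ l (levelTrace hq χ V m) := by
  classical
  have hex : ∀ x : Option (Fin (q : ℕ)) × HeckeIdx (L * (q : ℕ)) l,
      ∃ (y : HeckeIdx L l × Option (Fin (q : ℕ))) (u : Gamma0 (L * (q : ℕ))),
        heckeRepInt l x.2.1 * ((traceRep hq x.1 : SL(2, ℤ)) : M2Z) =
          ((u : SL(2, ℤ)) : M2Z) * (((traceRep hq y.2 : SL(2, ℤ)) : M2Z) * heckeRepInt l y.1.1) := by
    intro x
    set R : Gamma0 L := traceRep hq x.1
    have h10 : heckeRepInt l x.2.1 1 0 = 0 := heckeRepInt_one_zero _ _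
    obtain ⟨y, g, hy⟩ := exists_eq_mul_rep (N := L) l.2
      (heckeRepInt l x.2.1 * ((R : SL(2, ℤ)) : M2Z))
      (by rw [Matrix.det_mul, Modular.det_heckeRepInt, Matrix.SpecialLinearGroup.det_coe, mul_one])
      (by
        simp only [Matrix.mul_apply, Fin.sum_univ_two, h10, zero_mul, zero_add]
        exact (dvd_apply_one_zero R).mul_left _)
      fun h => by
        simp only [Matrix.mul_apply, Fin.sum_univ_two]
        intro h'
        have h2 := ((Int.natCast_dvd_natCast.2 h).trans (dvd_apply_one_zero R)).mul_left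
          (heckeRepInt l x.2.1 0 1)
        rcases (Nat.prime_iff_prime_int.1 l.2).dvd_or_dvd ((dvd_add_left h2).1 h') with h3 | h3
        · exact heckeRepInt_not_dvd_zero_zero x.2 (h.mul_right _) h3
        · exact Modular.not_dvd_zero_zero_of_mem l.2 h R h3
    obtain ⟨j, hj⟩ := exists_traceRep hq g
    refine ⟨(y, j), ⟨_, hj⟩, ?_⟩
    rw [hy, ← Matrix.mul_assoc, ← Matrix.SpecialLinearGroup.coe_mul, inv_mul_cancel_right]
  choose π u hu using hex
  have hπ : Function.Injective π := fun x y h => by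
    set U : Gamma0 (L * (q : ℕ)) := u y * (u x)⁻¹
    set g : Gamma0 L := traceRep hq y.1 * (traceRep hq x.1)⁻¹
    have e : heckeRepInt l y.2.1 * ((g : SL(2, ℤ)) : M2Z) =
        ((U : SL(2, ℤ)) : M2Z) * heckeRepInt l x.2.1 := by
      refine Modular.matMul_right_cancel (δ := ((traceRep hq x.1 : SL(2, ℤ)) : M2Z)) (by simp) ?_
      rw [Matrix.mul_assoc, Matrix.mul_assoc, hu x, ← Matrix.SpecialLinearGroup.coe_mul,
        ← Subgroup.coe_mul, inv_mul_cancel_right, hu y, h, ← Matrix.mul_assoc ((U : SL(2, ℤ)) : M2Z),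
        ← Matrix.SpecialLinearGroup.coe_mul, ← Subgroup.coe_mul, inv_mul_cancel_right]
    have e10 := congrFun (congrFun e 1) 0
    simp only [Matrix.mul_apply, Fin.sum_univ_two, heckeRepInt_one_zero, zero_mul, zero_add,
      mul_zero, add_zero] at e10
    have hlq : ¬ ((q : ℕ) : ℤ) ∣ heckeRepInt l y.2.1 1 1 := by
      rcases y.2.1 with _ | b
      · simp only [heckeRepInt, Matrix.of_apply, Matrix.cons_val', Matrix.cons_val_one,
          Matrix.cons_val_fin_one]
        exact fun h1 => q.2.not_dvd_one (Int.natCast_dvd_natCast.1 (by exact_mod_cast h1))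
      · simpa [heckeRepInt, Int.natCast_dvd_natCast] using fun h' : (q : ℕ) ∣ (l : ℕ) =>
          hl (Subtype.ext ((Nat.prime_dvd_prime_iff_eq q.2 l.2).1 h').symm)
    have hqU : ((q : ℕ) : ℤ) ∣ (U : SL(2, ℤ)) 1 0 :=
      (Int.natCast_dvd_natCast.2 (Nat.dvd_mul_left _ _)).trans (dvd_apply_one_zero U)
    have hqg : ((q : ℕ) : ℤ) ∣ (g : SL(2, ℤ)) 1 0 :=
      ((Nat.prime_iff_prime_int.1 q.2).dvd_or_dvd (e10 ▸ hqU.mul_right _)).resolve_left hlq
    have hg : (g : SL(2, ℤ)) ∈ Gamma0 (L * (q : ℕ)) := by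
      rw [mem_Gamma0_iff_dvd]
      push_cast
      exact (Nat.isCoprime_iff_coprime.2 ((q.2.coprime_iff_not_dvd.2 hq).symm)).mul_dvd
        (dvd_apply_one_zero g) hqg
    have hk : x.1 = y.1 := traceRep_unique hq _ _ hg
    have hg1 : g = 1 := by simp [g, hk]
    rw [hg1, Subgroup.coe_one, Matrix.SpecialLinearGroup.coe_one, mul_one] at e
    exact Prod.ext hk (Subtype.ext
      (Modular.heckeRepInt_eq_of_mul_eq l.2.one_lt _ _ (U : SL(2, ℤ)) e.symm))
  have hbij : Function.Bijective π :=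
    (Fintype.bijective_iff_injective_and_card _).2 ⟨hπ, by
      simp [Fintype.card_prod, Fintype.card_congr (heckeIdxRaise (L := L) hl), mul_comm]⟩
  refine CosetSystem.transfer_swap (bettiHeckeSystem (L * (q : ℕ)) l) (traceSystem hq)
    (traceSystem hq) (bettiHeckeSystem L l) (fun x y h hh e => ?_) π hbij u (fun x => ?_)
    (isWeight_heckeWeight _ l) (isWeight_trace hq χ) (isWeight_trace hq χ)
    (isWeight_heckeWeight χ l) (fun x => ?_) m
  · change (h : M2Z) * (((traceRep hq x.2 : SL(2, ℤ)) : M2Z) * heckeRepInt l x.1.1) =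
      ((traceRep hq y.2 : SL(2, ℤ)) : M2Z) * heckeRepInt l y.1.1 at e
    have h' : ((((traceRep hq y.2 : SL(2, ℤ)))⁻¹ * h * (traceRep hq x.2 : SL(2, ℤ)) : SL(2, ℤ)) :
        M2Z) * heckeRepInt l x.1.1 = heckeRepInt l y.1.1 := by
      rw [Matrix.SpecialLinearGroup.coe_mul, Matrix.SpecialLinearGroup.coe_mul, Matrix.mul_assoc,
        Matrix.mul_assoc, e, ← Matrix.mul_assoc, ← Matrix.SpecialLinearGroup.coe_mul, inv_mul_cancel,
        Matrix.SpecialLinearGroup.coe_one, one_mul]
    have hxy : x.1 = y.1 :=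
      Subtype.ext (Modular.heckeRepInt_eq_of_mul_eq l.2.one_lt _ _ _ h')
    refine Prod.ext hxy ((traceSystem hq).eq_of_mul_rep _ _ h hh
      (Modular.matMul_right_cancel ((bettiHeckeSystem L l).det_ne_zero y.1) ?_))
    rw [Matrix.mul_assoc]
    exact hxy ▸ e
  · exact hu x
  · have hR : UpperUnits L (traceSystem hq).rep (traceUnit hq) := upperUnits_traceUnit hq
    have := upperUnits_match (A := A) (upperUnits_comp (upperUnits_heckeRaise L q l) hR)
      (upperUnits_comp hR (upperUnits_heckeUnit L l)) π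
      (fun x => gamma0Incl (Nat.dvd_mul_right L q) (u x)) hu χ x
    simp only [map_mul, Units.val_mul] at this
    rw [nebenChar_comp_unitsMap]
    simp only [heckeWeight, MonoidHom.comp_apply]
    linear_combination this

/-- The Atkin–Lehner operator commutes with `T l`, `l ≠ q`. -/
theorem levelAtkin_hecke_swap (hq : ¬ (q : ℕ) ∣ L) (hl : l ≠ q)
    (m : BettiMod (L * (q : ℕ)) (raiseChar q χ) V) :
    levelAtkin hq χ V (bettiHeckeOp (L * (q : ℕ)) V (raiseChar q χ) l m) =
      bettiHeckeOp (L * (q : ℕ)) V (raiseChar q χ) l (levelAtkin hq χ V m) := by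
  classical
  set β : M2Z := atkinMatrix hq with hβ
  set bx := bezoutX hq with hbx
  set by' := bezoutY hq with hby
  have hxy : ((q : ℕ) : ℤ) * bx - (L : ℤ) * by' = 1 := bezout_level hq
  have hex : ∀ x : HeckeIdx (L * (q : ℕ)) l × Unit,
      ∃ (y : HeckeIdx (L * (q : ℕ)) l) (u : Gamma0 (L * (q : ℕ))),
        β * heckeRepInt l x.1.1 = ((u : SL(2, ℤ)) : M2Z) * (heckeRepInt l y.1 * β) := by
    intro x
    set r := heckeRepInt l x.1.1
    have h10 : r 1 0 = 0 := heckeRepInt_one_zero _ _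
    set a := r 0 0
    set b := r 0 1
    set d := r 1 1
    set M' : M2Z := !![((q : ℕ) : ℤ) * bx * a - (L : ℤ) * (((q : ℕ) : ℤ) * bx * b + by' * d),
      -(bx * a * by') + bx * (((q : ℕ) : ℤ) * bx * b + by' * d);
      ((L * (q : ℕ) : ℕ) : ℤ) * (a - (L : ℤ) * b - d),
      -((L : ℤ) * a * by') + bx * ((L : ℤ) * q * b + ((q : ℕ) : ℤ) * d)]
    have hmul : β * r = M' * β := by
      ext i j
      fin_cases i <;> fin_cases j <;>
        simp [β, atkinMatrix, M', h10, a, b, d, ← hbx, ← hby, Matrix.mul_apply, Fin.sum_univ_two]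
      · linear_combination -(((q : ℕ) : ℤ) * bx * a) * hxy
      · linear_combination -(((q : ℕ) : ℤ) * bx * b + by' * d) * hxy
      · linear_combination -((L : ℤ) * q * a) * hxy
      · linear_combination -((L : ℤ) * q * b + ((q : ℕ) : ℤ) * d) * hxy
    obtain ⟨y, u, hy⟩ := exists_eq_mul_rep (N := L * (q : ℕ)) l.2 M' (by
        have h := congrArg Matrix.det hmul
        rw [Matrix.det_mul, Matrix.det_mul, hβ, det_atkinMatrix, Modular.det_heckeRepInt] at h
        exact mul_right_cancel₀ (Nat.cast_ne_zero.2 q.2.ne_zero) (h.symm.trans (mul_comm _ _)))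
      (by simp [M']) fun h hd => by
        have hlL : ((l : ℕ) : ℤ) ∣ (L : ℤ) := Int.natCast_dvd_natCast.2
          ((l.2.dvd_mul.1 h).resolve_right fun h' =>
            hl (Subtype.ext ((Nat.prime_dvd_prime_iff_eq l.2 q.2).1 h')))
        refine heckeRepInt_not_dvd_zero_zero x.1 h ?_
        simp [M'] at hd
        have h3 := (dvd_sub_left (hlL.mul_right _)).1 hd
        have h4 : ((l : ℕ) : ℤ) ∣ a * ((L : ℤ) * by') := (hlL.mul_right _).mul_left _
        have h5 := dvd_sub h3 h4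
        rwa [show ((q : ℕ) : ℤ) * bx * a - a * ((L : ℤ) * by') = a by
          linear_combination a * hxy] at h5
    exact ⟨y, u, by rw [hmul, hy, Matrix.mul_assoc]⟩
  choose τ u hu using hex
  have hτ : Function.Injective τ := fun x y h => by
    refine Prod.ext (heckeRep_eq_of_smul_mul_eq hl (Z := β.adjugate *
      (((u y * (u x)⁻¹ : Gamma0 (L * (q : ℕ))) : SL(2, ℤ)) : M2Z) * β) ?_) rfl
    rw [← one_mul (heckeRepInt l y.1.1), ← Matrix.smul_mul, ← det_atkinMatrix hq,
      ← Matrix.adjugate_mul, ← hβ, Matrix.mul_assoc, hu y, ← h, Matrix.mul_assoc _ β, hu x,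
      Matrix.mul_assoc β.adjugate]
    congr 1
    rw [← Matrix.mul_assoc _ ((u x : SL(2, ℤ)) : M2Z), ← Matrix.SpecialLinearGroup.coe_mul,
      ← Subgroup.coe_mul, inv_mul_cancel_right]
  have hbij : Function.Bijective (fun x => (((), τ x) : Unit × HeckeIdx (L * (q : ℕ)) l)) :=
    (Fintype.bijective_iff_injective_and_card _).2
      ⟨fun x y h => hτ (Prod.ext_iff.1 h).2, by simp [Fintype.card_prod]⟩
  refine ((CosetSystem.transfer_swap (atkinSystem hq) (bettiHeckeSystem (L * (q : ℕ)) l)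
    (bettiHeckeSystem (L * (q : ℕ)) l) (atkinSystem hq) (fun x y h hh e => ?_) _ hbij u
    (fun x => ?_) (isWeight_atkin hq χ) (isWeight_heckeWeight _ l) (isWeight_heckeWeight _ l)
    (isWeight_atkin hq χ) (fun x => ?_) m)).symm
  · refine Prod.ext rfl ((bettiHeckeSystem (L * (q : ℕ)) l).eq_of_mul_rep _ _ h hh
      (Modular.matMul_right_cancel ((atkinSystem hq).det_ne_zero ()) ?_))
    rw [Matrix.mul_assoc]
    exact e
  · exact hu x
  · have hB : UpperUnits L (atkinSystem hq).rep (fun _ => (1 : (ZMod L)ˣ)) := fun _ => by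
      have := congrArg (Int.cast : ℤ → ZMod L) hxy
      push_cast at this
      rw [ZMod.natCast_self, zero_mul, sub_zero] at this
      simpa [atkinSystem, CosetSystem.single, atkinMatrix] using this
    have := upperUnits_match (A := A) (upperUnits_comp hB (upperUnits_heckeRaise L q l))
      (upperUnits_comp (upperUnits_heckeRaise L q l) hB)
      (fun x => (((), τ x) : Unit × HeckeIdx (L * (q : ℕ)) l))
      (fun x => gamma0Incl (Nat.dvd_mul_right L q) (u x)) hu χ x
    simp only [map_mul, map_one, Units.val_mul, Units.val_one] at this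
    rw [nebenChar_comp_unitsMap]
    simp only [heckeWeight, MonoidHom.comp_apply]
    linear_combination this

end FermatLib.MLT

end
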