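import Fermat.Agent.MLT.BettiLevelIdent

/-!
# The second degeneracy map commutes with the Hecke operators away from `q`
-/

set_option autoImplicit false

noncomputable section

open scoped MatrixGroups
open CongruenceSubgroup

namespace FermatLib.MLT

local notation "M2Z" => Matrix (Fin 2) (Fin 2) ℤ

open Modular (HeckeIdx heckeRepInt mem_Gamma0_iff_dvd heckeSystem)

variable {A : Type} [CommRing A] {L : ℕ} {χ : (ZMod L)ˣ →* Aˣ} {V : Type} [AddCommGroup V]
  [Module A V] {q l : Nat.Primes}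

/-- `j ↦ q j mod l`. -/
def degenMulIdx (q l : Nat.Primes) (j : Fin (l : ℕ)) : Fin (l : ℕ) :=
  ⟨((q : ℕ) * (j : ℕ)) % (l : ℕ), Nat.mod_lt _ l.2.pos⟩

theorem degenMulIdx_injective (hl : l ≠ q) : Function.Injective (degenMulIdx q l) := by
  intro i j h
  have hm : (q : ℕ) * (i : ℕ) ≡ (q : ℕ) * (j : ℕ) [MOD (l : ℕ)] := congrArg Fin.val h
  have := Nat.ModEq.cancel_left_of_coprime
    ((Nat.coprime_primes l.2 q.2).2 fun h => hl (Subtype.ext h)) hm
  exact Fin.ext (Nat.ModEq.eq_of_lt_of_lt this i.isLt j.isLt)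

/-- The bijection of representatives induced by conjugation with `diag (q, 1)`. -/
def degenHeckeIdx (hl : l ≠ q) (x : HeckeIdx (L * (q : ℕ)) l) : HeckeIdx L l :=
  ⟨x.1.map (degenMulIdx q l), fun h hL => x.2 (Option.map_eq_none_iff.1 h) (hL.mul_right _)⟩

theorem degenHeckeIdx_bijective (hl : l ≠ q) :
    Function.Bijective (degenHeckeIdx (L := L) hl) := by
  have hinj : Function.Injective (degenHeckeIdx (L := L) hl) := fun x y h =>
    Subtype.ext (Option.map_injective (degenMulIdx_injective hl) (congrArg Subtype.val h))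
  refine ⟨hinj, fun y => ?_⟩
  obtain ⟨x, hx⟩ := (Finite.injective_iff_surjective.1
    (hinj.comp (heckeIdxRaise (L := L) hl).symm.injective)) y
  exact ⟨_, hx⟩

/-- The unipotent factor: `diag(q,1) α_x = u_x α_{π x} diag(q,1)`. -/
def degenHeckeFactor (L : ℕ) (q l : Nat.Primes) : Option (Fin (l : ℕ)) → Gamma0 L
  | none => 1
  | some j => ⟨⟨!![1, ((((q : ℕ) * (j : ℕ)) / (l : ℕ) : ℕ) : ℤ); 0, 1],
      by simp [Matrix.det_fin_two_of]⟩, mem_Gamma0_iff_dvd.2 (by simp)⟩

theorem degenHeckeFactor_spec (x : Option (Fin (l : ℕ))) :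
    (!![((q : ℕ) : ℤ), 0; 0, 1] : M2Z) * heckeRepInt l x =
      ((degenHeckeFactor L q l x : SL(2, ℤ)) : M2Z) *
        (heckeRepInt l (x.map (degenMulIdx q l)) * !![((q : ℕ) : ℤ), 0; 0, 1]) := by
  cases x with
  | none =>
    ext i j
    fin_cases i <;> fin_cases j <;>
      simp [degenHeckeFactor, heckeRepInt, Matrix.mul_apply, Fin.sum_univ_two] <;> ring
  | some j =>
    have h := Nat.mod_add_div ((q : ℕ) * (j : ℕ)) (l : ℕ)
    have h' : ((((q : ℕ) * (j : ℕ)) % (l : ℕ) : ℕ) : ℤ) +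
        ((l : ℕ) : ℤ) * ((((q : ℕ) * (j : ℕ)) / (l : ℕ) : ℕ) : ℤ) = ((q : ℕ) : ℤ) * (j : ℕ) := by
      exact_mod_cast h
    ext i k
    fin_cases i <;> fin_cases k <;>
      simp [degenHeckeFactor, degenMulIdx, heckeRepInt, Matrix.mul_apply, Fin.sum_univ_two,
        Option.map] <;>
      push_cast at h' ⊢ <;> linear_combination -h'

theorem gamma0UnitsHom_degenHeckeFactor (x : Option (Fin (l : ℕ))) :
    gamma0UnitsHom L (degenHeckeFactor L q l x) = 1 := by
  refine Units.ext ?_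
  cases x <;> simp [degenHeckeFactor]

/-- The second degeneracy map commutes with `T l` for `l ≠ q`. -/
theorem levelDegen₂_X_smul (hq : ¬ (q : ℕ) ∣ L) (hl : l ≠ q) (m : BettiMod L χ V) :
    levelDegen₂ hq χ V ((MvPolynomial.X l : BettiHeckeAlg A) • m) =
      (MvPolynomial.X l : BettiHeckeAlg A) • levelDegen₂ hq χ V m := by
  rw [BettiMod.X_smul, BettiMod.X_smul]
  set D := bettiHeckeSystem L l
  set E := degenSystem₂ L q
  have hδ : (!![((q : ℕ) : ℤ), 0; 0, 1] : M2Z).det ≠ 0 := by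
    rw [Matrix.det_fin_two_of]; simpa using q.2.ne_zero
  have hinj : ∀ (x y : Unit × HeckeIdx L l) (h : SL(2, ℤ)),
      (h : M2Z) * (D.rep x.2 * E.rep x.1) = D.rep y.2 * E.rep y.1 → x = y := by
    intro x y h e
    rw [← Matrix.mul_assoc] at e
    exact Prod.ext (Subsingleton.elim _ _)
      ((heckeSystem L l).eq_of_mul_rep x.2 y.2 h (Modular.matMul_right_cancel hδ e))
  show E.transfer V (isWeight_degen₂ hq χ) (D.transfer V (isWeight_heckeWeight χ l) m) =
    (bettiHeckeSystem (L * (q : ℕ)) l).transfer V (isWeight_heckeWeight (raiseChar q χ) l)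
      (E.transfer V (isWeight_degen₂ hq χ) m)
  rw [D.transfer_comp E hinj (isWeight_degen₂ hq χ) (isWeight_heckeWeight χ l)]
  symm
  refine CosetSystem.transfer_transfer_eq E (bettiHeckeSystem (L * (q : ℕ)) l) (D.comp E hinj)
    (fun z => ((), degenHeckeIdx hl z.1)) (fun z => degenHeckeFactor L q l z.1.1)
    (fun z => degenHeckeFactor_spec z.1.1) _ _ _ (fun k => ?_) m
  obtain ⟨z, hz⟩ := (degenHeckeIdx_bijective hl).2 k.2
  rw [show Finset.univ.filter (fun w : HeckeIdx (L * (q : ℕ)) l × Unit =>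
      (((), degenHeckeIdx hl w.1) : Unit × HeckeIdx L l) = k) = {(z, ())} from ?_,
    Finset.sum_singleton]
  · obtain ⟨z, hz'⟩ := z
    simp only [nebenChar, MonoidHom.comp_apply, gamma0UnitsHom_degenHeckeFactor, map_one,
      Units.val_one, mul_one]
    rw [mul_comm]
    congr 1
    rw [← hz]
    cases z with
    | none =>
      rw [heckeWeight_raise (χ := χ) ⟨none, hz'⟩ (degenHeckeIdx hl ⟨none, hz'⟩) rfl]
    | some j =>
      simp [heckeWeight, heckeUnit, degenHeckeIdx]
  · ext ⟨w, ⟨⟩⟩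
    simp only [Finset.mem_filter, Finset.mem_univ, true_and, Finset.mem_singleton, Prod.ext_iff,
      and_true]
    rw [← hz]
    exact (degenHeckeIdx_bijective hl).1.eq_iff

end FermatLib.MLT

end
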