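import Fermat.Agent.MLT.BettiLevelIdent
import Fermat.Agent.MLT.Hecke.IharaSwap
import Fermat.Agent.MLT.Hecke.LevelChangeComm
import Fermat.Agent.MLT.BettiBaseChange
import Fermat.Agent.MLT.BettiResidual
import Mathlib.LinearAlgebra.Matrix.Determinant.Basic

/-!
# Old part and adjoint map between levels `L` and `L * q` as maps of localised modules

All four maps between the levels commute with the operators at the primes other than `q`.  The
composite of the pair of degeneracy maps with its adjoint is a `2 × 2` matrix of determinant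
`χ q * (q + 1) ^ 2 - T q ^ 2`.
-/

set_option autoImplicit false

noncomputable section

open scoped MatrixGroups
open CongruenceSubgroup MvPolynomial

namespace FermatLib.MLT

variable {A : Type} [CommRing A] {L : ℕ} {q : Nat.Primes} {χ : (ZMod L)ˣ →* Aˣ}
  {V : Type} [AddCommGroup V] [Module A V]

/-- A linear map commuting with the operators at the primes of `Pr` commutes with all the Hecke
polynomials in them. -/
theorem map_supported_smul {L' : ℕ} {χ' : (ZMod L')ˣ →* Aˣ}
    (f : BettiMod L χ V →ₗ[A] BettiMod L' χ' V) {Pr : Set Nat.Primes}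
    (hf : ∀ l ∈ Pr, ∀ m, f ((X l : BettiHeckeAlg A) • m) = (X l : BettiHeckeAlg A) • f m)
    {P : BettiHeckeAlg A} (hP : P ∈ supported A Pr) (m : BettiMod L χ V) :
    f (P • m) = P • f m := by
  induction hP using Algebra.adjoin_induction generalizing m with
  | mem x hx =>
    obtain ⟨l, hl, rfl⟩ := hx
    exact hf l hl m
  | algebraMap a => rw [algebraMap_smul, algebraMap_smul, map_smul]
  | add x y _ _ hx hy => rw [add_smul, add_smul, map_add, hx, hy]
  | mul x y _ _ hx hy => rw [mul_smul, mul_smul, hx, hy]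

/-- The trace commutes with the operators away from `q`. -/
theorem levelTrace_X_smul (hq : ¬ (q : ℕ) ∣ L) {l : Nat.Primes} (hl : l ≠ q)
    (m : BettiMod (L * (q : ℕ)) (raiseChar q χ) V) :
    levelTrace hq χ V ((X l : BettiHeckeAlg A) • m) =
      (X l : BettiHeckeAlg A) • levelTrace hq χ V m := by
  rw [BettiMod.X_smul, BettiMod.X_smul]
  exact levelTrace_hecke_swap hq hl m

/-- The Atkin–Lehner operator commutes with the operators away from `q`. -/
theorem levelAtkin_X_smul (hq : ¬ (q : ℕ) ∣ L) {l : Nat.Primes} (hl : l ≠ q)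
    (m : BettiMod (L * (q : ℕ)) (raiseChar q χ) V) :
    levelAtkin hq χ V ((X l : BettiHeckeAlg A) • m) =
      (X l : BettiHeckeAlg A) • levelAtkin hq χ V m := by
  rw [BettiMod.X_smul, BettiMod.X_smul]
  exact levelAtkin_hecke_swap hq hl m

variable (q) in
/-- The Hecke polynomials of `S` involve no operator at `q`. -/
def AwayFrom (S : Submonoid (BettiHeckeAlg A)) : Prop :=
  ∀ P ∈ S, P ∈ supported A {l : Nat.Primes | l ≠ q}

theorem awayFrom_residual {k : Type} [Field k] {Pr : Set Nat.Primes} (hPr : q ∉ Pr)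
    (θ : BettiHeckeAlg A →+* k) : AwayFrom q (bettiResidualSubmonoid Pr θ) :=
  fun _ hP => supported_mono (s := Pr) (fun l hl (h : l = q) => hPr (h ▸ hl)) hP.1

section loc

variable {S : Submonoid (BettiHeckeAlg A)}

/-- A pair of fractions has a common denominator. -/
theorem exists_common_denom {R M : Type} [CommRing R] [AddCommGroup M] [Module R M]
    {S : Submonoid R} (v : Fin 2 → LocalizedModule S M) :
    ∃ (w : Fin 2 → M) (s : S), v = fun b => LocalizedModule.mk (w b) s := by
  obtain ⟨⟨m₀, s₀⟩, h₀⟩ : ∃ p : M × S, LocalizedModule.mk p.1 p.2 = v 0 :=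
    LocalizedModule.induction_on (fun m s => ⟨(m, s), rfl⟩) (v 0)
  obtain ⟨⟨m₁, s₁⟩, h₁⟩ : ∃ p : M × S, LocalizedModule.mk p.1 p.2 = v 1 :=
    LocalizedModule.induction_on (fun m s => ⟨(m, s), rfl⟩) (v 1)
  refine ⟨![s₁ • m₀, s₀ • m₁], s₁ * s₀, funext fun b => ?_⟩
  fin_cases b
  · exact h₀.symm.trans (LocalizedModule.mk_cancel_common_left s₁ s₀ m₀).symm
  · exact h₁.symm.trans ((LocalizedModule.mk_cancel_common_left s₀ s₁ m₁).symm.trans
      (by rw [mul_comm s₀]; rfl))

/-- A map commuting with the operators away from `q` on localised modules. -/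
def awayLocMap {L' : ℕ} {χ' : (ZMod L')ˣ →* Aˣ} (hS : AwayFrom q S)
    (f : BettiMod L χ V →ₗ[A] BettiMod L' χ' V)
    (hf : ∀ l ≠ q, ∀ m, f ((X l : BettiHeckeAlg A) • m) = (X l : BettiHeckeAlg A) • f m) :
    BettiLoc L χ V S →ₗ[A] BettiLoc L' χ' V S :=
  localizedSemilinearMap (MonoidHom.id S) f fun s m => map_supported_smul f hf (hS _ s.2) m

theorem awayLocMap_mk {L' : ℕ} {χ' : (ZMod L')ˣ →* Aˣ} (hS : AwayFrom q S)
    (f : BettiMod L χ V →ₗ[A] BettiMod L' χ' V)
    (hf : ∀ l ≠ q, ∀ m, f ((X l : BettiHeckeAlg A) • m) = (X l : BettiHeckeAlg A) • f m)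
    (m : BettiMod L χ V) (s : S) :
    awayLocMap hS f hf (LocalizedModule.mk m s) = LocalizedModule.mk (f m) s :=
  localizedSemilinearMap_mk _ _ _ m s

variable (hq : ¬ (q : ℕ) ∣ L) (χ V)

/-- The pair of degeneracy maps, unlocalised. -/
def levelUpMod : (Fin 2 → BettiMod L χ V) →ₗ[A] BettiMod (L * (q : ℕ)) (raiseChar q χ) V :=
  (levelDegen₁ q χ V).comp (LinearMap.proj 0) + (levelDegen₂ hq χ V).comp (LinearMap.proj 1)

/-- The trace and the trace after Atkin–Lehner, unlocalised. -/
def levelDownMod : BettiMod (L * (q : ℕ)) (raiseChar q χ) V →ₗ[A] (Fin 2 → BettiMod L χ V) :=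
  LinearMap.pi ![levelTrace hq χ V, (levelTrace hq χ V).comp (levelAtkin hq χ V)]

/-- The old part of the localised module of level `L * q`. -/
def levelUpLoc (hS : AwayFrom q S) :
    (Fin 2 → BettiLoc L χ V S) →ₗ[A] BettiLoc (L * (q : ℕ)) (raiseChar q χ) V S :=
  (awayLocMap hS (levelDegen₁ q χ V) fun _ hl m => levelDegen₁_X_smul hl m).comp
      (LinearMap.proj 0) +
    (awayLocMap hS (levelDegen₂ hq χ V) fun _ hl m => levelDegen₂_X_smul hq hl m).comp
      (LinearMap.proj 1)

/-- The adjoint of the old part. -/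
def levelDownLoc (hS : AwayFrom q S) :
    BettiLoc (L * (q : ℕ)) (raiseChar q χ) V S →ₗ[A] (Fin 2 → BettiLoc L χ V S) :=
  LinearMap.pi
    ![awayLocMap hS (levelTrace hq χ V) fun _ hl m => levelTrace_X_smul hq hl m,
      awayLocMap hS ((levelTrace hq χ V).comp (levelAtkin hq χ V)) fun _ hl m => by
        simp only [LinearMap.comp_apply, levelAtkin_X_smul hq hl, levelTrace_X_smul hq hl]]

/-- The matrix of the adjoint of the old part after the old part. -/
def levelGram : Matrix (Fin 2) (Fin 2) (BettiHeckeAlg A) :=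
  !![C (((q : ℕ) : A) + 1), X q; X q, C ((χ (levelUnit hq) : A) * (((q : ℕ) : A) + 1))]

theorem levelDownMod_levelUpMod (v : Fin 2 → BettiMod L χ V) (a : Fin 2) :
    levelDownMod χ V hq (levelUpMod χ V hq v) a = ∑ b, levelGram χ hq a b • v b := by
  have hC : ∀ (c : A) (m : BettiMod L χ V), (C c : BettiHeckeAlg A) • m = c • m := fun c m => by
    rw [← MvPolynomial.algebraMap_eq, algebraMap_smul]
  rw [Fin.sum_univ_two]
  fin_cases a
  · simp only [levelGram, Fin.zero_eta, Matrix.of_apply, Matrix.cons_val', Matrix.cons_val_zero,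
      Matrix.cons_val_one, Matrix.cons_val_fin_one, hC]
    simp only [levelDownMod, levelUpMod, LinearMap.pi_apply, Matrix.cons_val_zero,
      LinearMap.add_apply, LinearMap.comp_apply, LinearMap.proj_apply, LinearMap.map_add,
      levelTrace_levelDegen₁, levelTrace_levelDegen₂]
  · simp only [levelGram, Fin.mk_one, Matrix.of_apply, Matrix.cons_val', Matrix.cons_val_zero,
      Matrix.cons_val_one, Matrix.cons_val_fin_one, hC]
    simp only [levelDownMod, levelUpMod, LinearMap.pi_apply, Matrix.cons_val_one,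
      Matrix.cons_val_fin_one,
      LinearMap.add_apply, LinearMap.comp_apply, LinearMap.proj_apply, LinearMap.map_add,
      levelTrace_levelAtkin_levelDegen₁, levelTrace_levelAtkin_levelDegen₂]

theorem levelDownLoc_levelUpLoc (hS : AwayFrom q S) (v : Fin 2 → BettiLoc L χ V S) (a : Fin 2) :
    levelDownLoc χ V hq hS (levelUpLoc χ V hq hS v) a = ∑ b, levelGram χ hq a b • v b := by
  obtain ⟨w, s, rfl⟩ : ∃ (w : Fin 2 → BettiMod L χ V) (s : S),
      v = fun b => LocalizedModule.mk (w b) s := exists_common_denom v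
  have h := levelDownMod_levelUpMod χ V hq w a
  have hup : levelUpLoc χ V hq hS (fun b => LocalizedModule.mk (w b) s) =
      LocalizedModule.mk (levelUpMod χ V hq w) s := by
    simp only [levelUpLoc, LinearMap.add_apply, LinearMap.comp_apply, LinearMap.proj_apply,
      awayLocMap_mk, LocalizedModule.mk_add_mk, ← smul_add, LocalizedModule.mk_cancel_common_left]
    rfl
  have hdown : levelDownLoc χ V hq hS (LocalizedModule.mk (levelUpMod χ V hq w) s) a =
      LocalizedModule.mk (levelDownMod χ V hq (levelUpMod χ V hq w) a) s := by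
    fin_cases a <;> simp [levelDownLoc, levelDownMod, awayLocMap_mk]
  rw [hup, hdown, h, Fin.sum_univ_two, Fin.sum_univ_two, LocalizedModule.smul'_mk,
    LocalizedModule.smul'_mk, LocalizedModule.mk_add_mk, ← smul_add,
    LocalizedModule.mk_cancel_common_left]

/-- The cokernel of the old part is killed by `U q ^ 2 - χ q`. -/
theorem X_sq_sub_mem_range_levelUpLoc (hS : AwayFrom q S)
    (x : BettiLoc (L * (q : ℕ)) (raiseChar q χ) V S) :
    ((X q : BettiHeckeAlg A) ^ 2 - C (χ (levelUnit hq) : A)) • x ∈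
      LinearMap.range (levelUpLoc χ V hq hS) := by
  induction x using LocalizedModule.induction_on with
  | h m s =>
    set t := levelTrace hq χ V (levelAtkin hq χ V m)
    refine ⟨![LocalizedModule.mk ((X q : BettiHeckeAlg A) • t -
      (χ (levelUnit hq) : A) • levelTrace hq χ V m) s, LocalizedModule.mk (-t) s], ?_⟩
    simp only [levelUpLoc, LinearMap.add_apply, LinearMap.comp_apply, LinearMap.proj_apply,
      Matrix.cons_val_zero, Matrix.cons_val_one, Matrix.cons_val_fin_one, awayLocMap_mk,
      LocalizedModule.mk_add_mk, ← smul_add, LocalizedModule.mk_cancel_common_left,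
      LocalizedModule.smul'_mk]
    rw [sub_smul, ← MvPolynomial.algebraMap_eq, algebraMap_smul, X_sq_sub_smul hq, map_neg,
      ← sub_eq_add_neg]

end loc

end FermatLib.MLT

end
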