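import Fermat.Agent.MLT.BettiResidual
import Fermat.Prelude.Thm_IsLocalRing_isAdicComplete_of_module_finite

/-!
The Hecke algebra acting on localised Betti cohomology: it is local, finite over the
coefficients, and adically complete, with residual character the localising one.
-/

set_option autoImplicit false

noncomputable section

open scoped MatrixGroups
open CongruenceSubgroup

namespace FermatLib.MLT

variable {A : Type} [CommRing A] {L : ℕ} {k : Type} [Field k] (χ : (ZMod L)ˣ →* Aˣ)
  (Pr : Set Nat.Primes) (θ : BettiHeckeAlg A →+* k)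

/-- The localised module with trivial coefficients. -/
abbrev BettiResLoc : Type := BettiLoc L χ A (bettiResidualSubmonoid Pr θ)

/-- The action of Hecke polynomials in the primes of `Pr`. -/
def bettiResAct :
    MvPolynomial.supported A Pr →ₐ[A] Module.End A (BettiResLoc χ Pr θ) :=
  (Algebra.lsmul A A (BettiResLoc χ Pr θ)).comp (MvPolynomial.supported A Pr).val

/-- The Hecke algebra: the image of the Hecke polynomials in the primes of `Pr`. -/
def bettiResHecke : Subalgebra A (Module.End A (BettiResLoc χ Pr θ)) :=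
  (bettiResAct χ Pr θ).range

instance bettiResHecke_commRing : CommRing (bettiResHecke χ Pr θ) :=
  { (inferInstance : Ring (bettiResHecke χ Pr θ)) with
    mul_comm := by
      rintro ⟨_, P, rfl⟩ ⟨_, Q, rfl⟩
      refine Subtype.ext (LinearMap.ext fun x => ?_)
      show (P : BettiHeckeAlg A) • ((Q : BettiHeckeAlg A) • x) =
        (Q : BettiHeckeAlg A) • ((P : BettiHeckeAlg A) • x)
      exact smul_comm _ _ x }

/-- The map from Hecke polynomials onto the Hecke algebra. -/
def bettiResQuot : MvPolynomial.supported A Pr →ₐ[A] bettiResHecke χ Pr θ :=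
  (bettiResAct χ Pr θ).rangeRestrict

theorem bettiResQuot_surjective : Function.Surjective (bettiResQuot χ Pr θ) :=
  (bettiResAct χ Pr θ).rangeRestrict_surjective

theorem bettiResQuot_smul (P : MvPolynomial.supported A Pr) (x : BettiResLoc χ Pr θ) :
    (bettiResQuot χ Pr θ P : Module.End A (BettiResLoc χ Pr θ)) x =
      (P : BettiHeckeAlg A) • x := rfl

/-- The operator `T l` or `U l` in the Hecke algebra. -/
def bettiResGen (l : Pr) : bettiResHecke χ Pr θ :=
  bettiResQuot χ Pr θ ⟨MvPolynomial.X (l : Nat.Primes), X_mem_supported_set l.2⟩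

theorem adjoin_bettiResGen :
    Algebra.adjoin A (Set.range (bettiResGen χ Pr θ)) = ⊤ := by
  rw [eq_top_iff]
  rintro t -
  obtain ⟨⟨P, hP⟩, rfl⟩ := bettiResQuot_surjective χ Pr θ t
  induction hP using Algebra.adjoin_induction with
  | mem x hx =>
    obtain ⟨l, hl, rfl⟩ := hx
    exact Algebra.subset_adjoin ⟨⟨l, hl⟩, rfl⟩
  | algebraMap a =>
    exact (show bettiResQuot χ Pr θ (algebraMap A _ a) = algebraMap A _ a from
      AlgHom.commutes _ a) ▸ Subalgebra.algebraMap_mem _ a
  | add x y hx hy ihx ihy =>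
    exact (show bettiResQuot χ Pr θ (⟨x, hx⟩ + ⟨y, hy⟩) = _ from map_add _ _ _) ▸ add_mem ihx ihy
  | mul x y hx hy ihx ihy =>
    exact (show bettiResQuot χ Pr θ (⟨x, hx⟩ * ⟨y, hy⟩) = _ from map_mul _ _ _) ▸ mul_mem ihx ihy

theorem bettiResLoc_injective_smul {P : BettiHeckeAlg A}
    (hP : P ∈ bettiResidualSubmonoid Pr θ) :
    Function.Bijective (fun x : BettiResLoc χ Pr θ => P • x) := by
  refine ⟨fun x y h => ?_, fun y => ?_⟩
  · induction x, y using LocalizedModule.induction_on₂ with
    | h m n s t =>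
      simp only [LocalizedModule.smul'_mk, LocalizedModule.mk_eq] at h ⊢
      obtain ⟨u, hu⟩ := h
      refine ⟨u * ⟨P, hP⟩, ?_⟩
      simp only [Submonoid.smul_def, mul_smul, smul_comm P] at hu ⊢
      exact hu
  · induction y using LocalizedModule.induction_on with
    | h m s =>
      refine ⟨LocalizedModule.mk m (s * ⟨P, hP⟩), ?_⟩
      simp only [LocalizedModule.smul'_mk, LocalizedModule.mk_eq]
      exact ⟨1, by simp only [Submonoid.smul_def, one_smul, mul_smul]⟩

theorem ker_bettiResQuot_le [Nontrivial (BettiResLoc χ Pr θ)] :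
    RingHom.ker (bettiResQuot χ Pr θ) ≤
      RingHom.ker (θ.comp (MvPolynomial.supported A Pr).val.toRingHom) := by
  intro P hP
  rw [RingHom.mem_ker] at hP ⊢
  by_contra h
  obtain ⟨x, hx⟩ := exists_ne (0 : BettiResLoc χ Pr θ)
  refine hx ((bettiResLoc_injective_smul χ Pr θ ⟨P.2, h⟩).1 ?_)
  show (P : BettiHeckeAlg A) • x = (P : BettiHeckeAlg A) • 0
  rw [← bettiResQuot_smul, hP, smul_zero]
  rfl

/-- The residual character of the Hecke algebra. -/
def bettiResChar [Nontrivial (BettiResLoc χ Pr θ)] : bettiResHecke χ Pr θ →+* k :=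
  (bettiResQuot χ Pr θ).toRingHom.liftOfSurjective (bettiResQuot_surjective χ Pr θ)
    ⟨θ.comp (MvPolynomial.supported A Pr).val.toRingHom, ker_bettiResQuot_le χ Pr θ⟩

theorem bettiResChar_quot [Nontrivial (BettiResLoc χ Pr θ)] (P : MvPolynomial.supported A Pr) :
    bettiResChar χ Pr θ (bettiResQuot χ Pr θ P) = θ (P : BettiHeckeAlg A) :=
  RingHom.liftOfRightInverse_comp_apply (bettiResQuot χ Pr θ).toRingHom _
    (Function.rightInverse_surjInv (bettiResQuot_surjective χ Pr θ)) _ P

theorem bettiResChar_gen [Nontrivial (BettiResLoc χ Pr θ)] (l : Pr) :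
    bettiResChar χ Pr θ (bettiResGen χ Pr θ l) = θ (MvPolynomial.X (l : Nat.Primes)) :=
  bettiResChar_quot χ Pr θ _

variable [NeZero L] [IsLocalRing A] [IsNoetherianRing A]
  [IsAdicComplete (IsLocalRing.maximalIdeal A) A]
  (hθ : ∀ a ∈ IsLocalRing.maximalIdeal A, θ (MvPolynomial.C a) = 0)

include hθ in
theorem bettiResHecke_finite : Module.Finite A (bettiResHecke χ Pr θ) := by
  have := bettiLoc_finite χ A Pr θ hθ
  obtain ⟨n, g, hg⟩ := Module.Finite.exists_fin' A (BettiResLoc χ Pr θ)
  let ev : Module.End A (BettiResLoc χ Pr θ) →ₗ[A] (Fin n → BettiResLoc χ Pr θ) :=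
    { toFun := fun e i => e (g (Pi.single i 1))
      map_add' := fun _ _ => rfl
      map_smul' := fun _ _ => rfl }
  have hev : Function.Injective ev := by
    intro e e' h
    refine LinearMap.ext fun x => ?_
    obtain ⟨v, rfl⟩ := hg x
    rw [pi_eq_sum_univ' v]
    simp only [map_sum, map_smul]
    exact Finset.sum_congr rfl fun i _ => congrArg (v i • ·) (congrFun h i)
  exact Module.Finite.of_injective (ev.comp (bettiResHecke χ Pr θ).val.toLinearMap)
    (hev.comp Subtype.val_injective)

include hθ in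
theorem isUnit_bettiResHecke_iff [Nontrivial (BettiResLoc χ Pr θ)]
    (t : bettiResHecke χ Pr θ) : IsUnit t ↔ bettiResChar χ Pr θ t ≠ 0 := by
  refine ⟨fun h => (h.map (bettiResChar χ Pr θ)).ne_zero, fun h => ?_⟩
  have := bettiResHecke_finite χ Pr θ hθ
  obtain ⟨P, rfl⟩ := bettiResQuot_surjective χ Pr θ t
  rw [bettiResChar_quot] at h
  obtain ⟨s, u, hu, hus⟩ := exists_partial_inverse (bettiResHecke χ Pr θ) (bettiResChar χ Pr θ)
    (fun a ha => by
      rw [← AlgHom.commutes (bettiResQuot χ Pr θ) a, bettiResChar_quot]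
      exact hθ a ha) (bettiResQuot χ Pr θ P) (by rwa [bettiResChar_quot])
  obtain ⟨Q, rfl⟩ := bettiResQuot_surjective χ Pr θ u
  rw [bettiResChar_quot] at hu
  refine IsUnit.of_mul_eq_one_right s ?_
  refine Subtype.ext (LinearMap.ext fun x => (bettiResLoc_injective_smul χ Pr θ ⟨Q.2, hu⟩).1 ?_)
  show (bettiResQuot χ Pr θ Q * (s * bettiResQuot χ Pr θ P) : bettiResHecke χ Pr θ).1 x = _
  rw [hus]
  rfl

include hθ in
theorem bettiResHecke_isLocalRing [Nontrivial (BettiResLoc χ Pr θ)] :
    IsLocalRing (bettiResHecke χ Pr θ) := by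
  have : Nontrivial (bettiResHecke χ Pr θ) := (bettiResChar χ Pr θ).domain_nontrivial
  refine IsLocalRing.of_nonunits_add fun a b ha hb => ?_
  rw [mem_nonunits_iff, isUnit_bettiResHecke_iff χ Pr θ hθ, not_not] at ha hb ⊢
  rw [map_add, ha, hb, add_zero]

include hθ in
theorem bettiResHecke_mem_maximalIdeal_iff [Nontrivial (BettiResLoc χ Pr θ)]
    [IsLocalRing (bettiResHecke χ Pr θ)] (t : bettiResHecke χ Pr θ) :
    t ∈ IsLocalRing.maximalIdeal (bettiResHecke χ Pr θ) ↔ bettiResChar χ Pr θ t = 0 := by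
  rw [IsLocalRing.mem_maximalIdeal, mem_nonunits_iff, isUnit_bettiResHecke_iff χ Pr θ hθ, not_not]

end FermatLib.MLT

end
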