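import Mathlib.Algebra.MonoidAlgebra.Basic
import Mathlib.GroupTheory.PGroup
import Mathlib.RingTheory.Ideal.GoingUp
import Mathlib.Algebra.CharP.Lemmas
import Mathlib.Algebra.CharP.Quotient
import Mathlib.LinearAlgebra.Finsupp.VectorSpace
import Mathlib.RingTheory.LocalRing.ResidueField.Basic
import Fermat.Prelude.Thm_IsLocalRing_isAdicComplete_of_module_finite

/-!
The group ring `O[Δ]` of a finite abelian `p`-group over a complete local ring of residue
characteristic `p`: a complete noetherian local ring, with its augmentation.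
-/

set_option autoImplicit false

noncomputable section

namespace FermatLib.MLT

variable (O : Type) [CommRing O] (Δ : Type) [CommGroup Δ]

/-- The diamond algebra `O[Δ]`. -/
abbrev DiamondRing : Type := MonoidAlgebra O Δ

/-- The class of a group element, as a unit of `O[Δ]`. -/
def diamondOf : Δ →* (DiamondRing O Δ)ˣ := (MonoidAlgebra.of O Δ).toHomUnits

@[simp] theorem coe_diamondOf (d : Δ) :
    (diamondOf O Δ d : DiamondRing O Δ) = MonoidAlgebra.of O Δ d := rfl

/-- The augmentation `O[Δ] → O`. -/
def diamondAug : DiamondRing O Δ →ₐ[O] O := MonoidAlgebra.lift O O Δ 1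

@[simp] theorem diamondAug_of (d : Δ) : diamondAug O Δ (MonoidAlgebra.of O Δ d) = 1 := by
  simp [diamondAug]

/-- `O` as an algebra over `O[Δ]` through the augmentation. -/
instance (priority := 50) diamondAugAlgebra : Algebra (DiamondRing O Δ) O :=
  (diamondAug O Δ).toRingHom.toAlgebra

theorem algebraMap_diamond_eq : algebraMap (DiamondRing O Δ) O = (diamondAug O Δ).toRingHom := rfl

theorem diamondAug_surjective : Function.Surjective (algebraMap (DiamondRing O Δ) O) :=
  fun a => ⟨algebraMap O _ a, by
    show diamondAug O Δ (algebraMap O _ a) = a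
    rw [AlgHom.commutes]; rfl⟩

instance diamond_isScalarTower : IsScalarTower O (DiamondRing O Δ) O :=
  IsScalarTower.of_algebraMap_eq fun a => ((diamondAug O Δ).commutes a).symm

/-- The augmentation ideal is spanned by the `δ - 1`. -/
theorem ker_diamondAug :
    RingHom.ker (algebraMap (DiamondRing O Δ) O) =
      Ideal.span (Set.range fun d : Δ => MonoidAlgebra.of O Δ d - 1) := by
  apply le_antisymm
  · intro x hx
    have key : ∀ y : DiamondRing O Δ, y - algebraMap O _ (diamondAug O Δ y) ∈
        Ideal.span (Set.range fun d : Δ => MonoidAlgebra.of O Δ d - 1) := by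
      intro y
      induction y using MonoidAlgebra.induction_on with
      | of d =>
        rw [diamondAug_of, map_one]
        exact Ideal.subset_span ⟨d, rfl⟩
      | add a b ha hb =>
        rw [map_add, map_add, show a + b - (algebraMap O (DiamondRing O Δ) (diamondAug O Δ a) +
          algebraMap O _ (diamondAug O Δ b)) = (a - algebraMap O _ (diamondAug O Δ a)) +
            (b - algebraMap O _ (diamondAug O Δ b)) by abel]
        exact add_mem ha hb
      | smul r a ha =>
        rw [map_smul, Algebra.smul_def, smul_eq_mul, map_mul, ← mul_sub]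
        exact Ideal.mul_mem_left _ _ ha
    have hx0 : diamondAug O Δ x = 0 := hx
    simpa [hx0] using key x
  · rw [Ideal.span_le]
    rintro _ ⟨d, rfl⟩
    show diamondAug O Δ (MonoidAlgebra.of O Δ d - 1) = 0
    rw [map_sub, diamondAug_of, map_one, sub_self]

variable [Finite Δ]

instance diamond_moduleFinite : Module.Finite O (DiamondRing O Δ) :=
  Module.Finite.of_basis (Finsupp.basisSingleOne (R := O) (ι := Δ) |>.map
    (MonoidAlgebra.coeffLinearEquiv O).symm)

instance diamond_moduleFree : Module.Free O (DiamondRing O Δ) :=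
  Module.Free.of_basis (Finsupp.basisSingleOne (R := O) (ι := Δ) |>.map
    (MonoidAlgebra.coeffLinearEquiv O).symm)

instance diamond_isNoetherianRing [IsNoetherianRing O] : IsNoetherianRing (DiamondRing O Δ) :=
  IsNoetherianRing.of_finite O _

/-- For a `p`-group and residue characteristic `p`, every maximal ideal is the kernel of the
residual augmentation. -/
theorem diamond_isLocalRing [IsLocalRing O] {p : ℕ} [Fact p.Prime]
    (hp : (p : O) ∈ IsLocalRing.maximalIdeal O) (hΔ : IsPGroup p Δ) :
    IsLocalRing (DiamondRing O Δ) := by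
  have : Algebra.IsIntegral O (DiamondRing O Δ) := Algebra.IsIntegral.of_finite O _
  refine IsLocalRing.of_unique_max_ideal
    ⟨(IsLocalRing.maximalIdeal O).comap (algebraMap (DiamondRing O Δ) O),
      Ideal.comap_isMaximal_of_surjective _ (diamondAug_surjective O Δ), fun M hM => ?_⟩
  have hcomap : M.comap (algebraMap O (DiamondRing O Δ)) = IsLocalRing.maximalIdeal O :=
    IsLocalRing.eq_maximalIdeal (Ideal.isMaximal_comap_of_isIntegral_of_isMaximal M)
  have haug : RingHom.ker (algebraMap (DiamondRing O Δ) O) ≤ M := by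
    rw [ker_diamondAug, Ideal.span_le]
    rintro _ ⟨d, rfl⟩
    obtain ⟨k, hk⟩ := hΔ d
    have : CharP (DiamondRing O Δ ⧸ M) p := by
      refine (CharP.charP_iff_prime_eq_zero (Fact.out : p.Prime)).2 ?_
      rw [← map_natCast (Ideal.Quotient.mk M), Ideal.Quotient.eq_zero_iff_mem]
      have h := hcomap.ge hp
      rwa [Ideal.mem_comap, map_natCast] at h
    rw [SetLike.mem_coe, ← Ideal.Quotient.eq_zero_iff_mem]
    refine eq_zero_of_pow_eq_zero (n := p ^ k) ?_
    rw [map_sub, map_one, sub_pow_char_pow, one_pow, ← map_pow, ← map_pow, hk, map_one, map_one,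
      sub_self]
  refine (Ideal.comap_isMaximal_of_surjective _ (diamondAug_surjective O Δ)).eq_of_le hM.ne_top
    (fun x hx => ?_) |>.symm
  have h1 : x - algebraMap O _ (algebraMap (DiamondRing O Δ) O x) ∈ M := haug (by
    show diamondAug O Δ (x - algebraMap O _ (diamondAug O Δ x)) = 0
    rw [map_sub, AlgHom.commutes]; exact sub_self _)
  have h2 : algebraMap O (DiamondRing O Δ) (algebraMap (DiamondRing O Δ) O x) ∈ M :=
    Ideal.mem_comap.1 (hcomap.ge hx)
  simpa using M.add_mem h1 h2

omit [Finite Δ] in
theorem diamond_mem_maximalIdeal_iff [IsLocalRing O] [IsLocalRing (DiamondRing O Δ)]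
    {x : DiamondRing O Δ} :
    x ∈ IsLocalRing.maximalIdeal (DiamondRing O Δ) ↔
      diamondAug O Δ x ∈ IsLocalRing.maximalIdeal O := by
  rw [← IsLocalRing.eq_maximalIdeal
    (Ideal.comap_isMaximal_of_surjective _ (diamondAug_surjective O Δ)
      (K := IsLocalRing.maximalIdeal O))]
  rfl

omit [Finite Δ] in
theorem diamond_isLocalHom [IsLocalRing O] [IsLocalRing (DiamondRing O Δ)] :
    IsLocalHom (algebraMap O (DiamondRing O Δ)) :=
  ⟨fun a ha => by
    have h := ha.map (diamondAug O Δ)
    rwa [AlgHom.commutes] at h⟩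

theorem diamond_isAdicComplete [IsLocalRing O] [IsNoetherianRing O]
    [IsAdicComplete (IsLocalRing.maximalIdeal O) O] [IsLocalRing (DiamondRing O Δ)] :
    IsAdicComplete (IsLocalRing.maximalIdeal (DiamondRing O Δ)) (DiamondRing O Δ) :=
  have := diamond_isLocalHom O Δ
  IsLocalRing.isAdicComplete_of_module_finite (𝒪 := O)

end FermatLib.MLT

end
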