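import Fermat.Agent.MLT.BettiBaseChange
import Fermat.Agent.MLT.Hecke.GammaHRing
import Fermat.Agent.MLT.Hecke.GammaHHecke
import Mathlib.LinearAlgebra.Dimension.Free
import Mathlib.LinearAlgebra.Basis.Basic

/-!
The Hecke module of `Γ_H`: cohomology of `Γ₀(L)` with values in the diamond character
`(ℤ/L)ˣ → Δ → O[Δ]ˣ`, localised at a residual Hecke character.  It is free over `O[Δ]`, its
coinvariants are the module of level `Γ₀(L)`, and its Hecke algebra is local and finite.
-/

set_option autoImplicit false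

noncomputable section

open scoped MatrixGroups
open CongruenceSubgroup

namespace FermatLib.MLT

variable (O : Type) [CommRing O] {L : ℕ} {Δ : Type} [CommGroup Δ] (δ : (ZMod L)ˣ →* Δ)
  {k : Type} [Field k] (Pr : Set Nat.Primes) (θ : BettiHeckeAlg O →+* k)

/-- The diamond character of `Γ₀(L)` with values in `O[Δ]`. -/
def diamondChar : (ZMod L)ˣ →* (DiamondRing O Δ)ˣ := (diamondOf O Δ).comp δ

@[simp] theorem coe_diamondChar (d : (ZMod L)ˣ) :
    (diamondChar O δ d : DiamondRing O Δ) = MonoidAlgebra.of O Δ (δ d) := rfl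

theorem diamondChar_neg_one (hδ : δ (-1) = 1) : diamondChar O δ (-1) = 1 := by
  rw [diamondChar, MonoidHom.comp_apply, hδ, map_one]

/-- The residual character on Hecke polynomials with coefficients in `O[Δ]`. -/
def gammaHTheta (Δ : Type) [CommGroup Δ] : BettiHeckeAlg (DiamondRing O Δ) →+* k :=
  θ.comp (MvPolynomial.map (algebraMap (DiamondRing O Δ) O))

theorem gammaHTheta_X (l : Nat.Primes) :
    gammaHTheta O θ Δ (MvPolynomial.X l) = θ (MvPolynomial.X l) := by
  rw [gammaHTheta, RingHom.comp_apply, MvPolynomial.map_X]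

theorem gammaHTheta_C (a : DiamondRing O Δ) :
    gammaHTheta O θ Δ (MvPolynomial.C a) = θ (MvPolynomial.C (diamondAug O Δ a)) := by
  rw [gammaHTheta, RingHom.comp_apply, MvPolynomial.map_C]
  rfl

/-- The Hecke module of `Γ₀(L)`. -/
abbrev GammaHBase (L : ℕ) : Type := BettiResLoc (1 : (ZMod L)ˣ →* Oˣ) Pr θ

theorem noEllipticTwo_diamond {O : Type} [CommRing O] {L : ℕ} (Δ : Type) [CommGroup Δ]
    (h : NoEllipticTwo O L) : NoEllipticTwo (DiamondRing O Δ) L := by
  refine h.imp (fun h => ?_) id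
  have h' := h.map (algebraMap O (DiamondRing O Δ))
  rwa [map_ofNat] at h'

theorem noEllipticThree_diamond {O : Type} [CommRing O] {L : ℕ} (Δ : Type) [CommGroup Δ]
    (h : NoEllipticThree O L) : NoEllipticThree (DiamondRing O Δ) L := by
  refine h.imp (fun h => ?_) id
  have h' := h.map (algebraMap O (DiamondRing O Δ))
  rwa [map_ofNat] at h'

theorem ellipticHarmless_diamond (h : EllipticHarmless L Pr θ) :
    EllipticHarmless L Pr (gammaHTheta O θ Δ) := by
  rcases h with ⟨h2, h3⟩ | ⟨h2, l, hl, hl', hθ⟩ | ⟨h3, l, hl, hl', hθ⟩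
  · exact Or.inl ⟨noEllipticTwo_diamond Δ h2, noEllipticThree_diamond Δ h3⟩
  · exact Or.inr (Or.inl ⟨noEllipticTwo_diamond Δ h2, l, hl, hl', by rwa [gammaHTheta_X]⟩)
  · exact Or.inr (Or.inr ⟨noEllipticThree_diamond Δ h3, l, hl, hl', by rwa [gammaHTheta_X]⟩)

variable [IsLocalRing O] [IsNoetherianRing O]
  [IsAdicComplete (IsLocalRing.maximalIdeal O) O] [Finite Δ] [NeZero L]
  (hθ : ∀ a ∈ IsLocalRing.maximalIdeal O, θ (MvPolynomial.C a) = 0)

include hθ in
omit [IsNoetherianRing O] [IsAdicComplete (IsLocalRing.maximalIdeal O) O] [Finite Δ] in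
theorem gammaHTheta_maximal [IsLocalRing (DiamondRing O Δ)] :
    ∀ a ∈ IsLocalRing.maximalIdeal (DiamondRing O Δ),
      gammaHTheta O θ Δ (MvPolynomial.C a) = 0 := by
  intro a ha
  rw [gammaHTheta_C]
  exact hθ _ ((diamond_mem_maximalIdeal_iff O Δ).1 ha)

end FermatLib.MLT

end
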