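import Fermat.Agent.MLT.Hecke.LevelChangeResidual
import Mathlib.Data.ZMod.Units

/-!
# Level change at a finite set of Taylor–Wiles primes

The level change at one prime, iterated.
-/

set_option autoImplicit false

noncomputable section

open scoped MatrixGroups
open CongruenceSubgroup MvPolynomial

namespace FermatLib.MLT

variable {A : Type} [CommRing A] {k : Type} [Field k]

/-- The residual character with the values `α` at the primes of `Q`. -/
def residualRaiseSet (θ : BettiHeckeAlg A →+* k) (Q : Finset Nat.Primes) (α : Nat.Primes → k) :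
    BettiHeckeAlg A →+* k :=
  eval₂Hom (θ.comp C) fun p => if p ∈ Q then α p else θ (X p)

theorem residualRaiseSet_X_of_mem (θ : BettiHeckeAlg A →+* k) {Q : Finset Nat.Primes}
    (α : Nat.Primes → k) {q : Nat.Primes} (hq : q ∈ Q) :
    residualRaiseSet θ Q α (X q) = α q := by simp [residualRaiseSet, hq]

theorem residualRaiseSet_X_of_notMem (θ : BettiHeckeAlg A →+* k) {Q : Finset Nat.Primes}
    (α : Nat.Primes → k) {l : Nat.Primes} (hl : l ∉ Q) :
    residualRaiseSet θ Q α (X l) = θ (X l) := by simp [residualRaiseSet, hl]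

@[simp] theorem residualRaiseSet_C (θ : BettiHeckeAlg A →+* k) (Q : Finset Nat.Primes)
    (α : Nat.Primes → k) (r : A) : residualRaiseSet θ Q α (C r) = θ (C r) := by
  simp [residualRaiseSet]

@[simp] theorem residualRaiseSet_empty (θ : BettiHeckeAlg A →+* k) (α : Nat.Primes → k) :
    residualRaiseSet θ ∅ α = θ :=
  ringHom_ext (fun r => by simp) fun l => residualRaiseSet_X_of_notMem θ α (by simp)

theorem residualRaise_residualRaiseSet (θ : BettiHeckeAlg A →+* k) (Q : Finset Nat.Primes)
    (α : Nat.Primes → k) (q : Nat.Primes) :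
    residualRaise (residualRaiseSet θ Q α) q (α q) = residualRaiseSet θ (insert q Q) α := by
  refine ringHom_ext (fun r => by simp) fun l => ?_
  by_cases hl : l = q
  · subst hl
    rw [residualRaise_X_self, residualRaiseSet_X_of_mem _ _ (Finset.mem_insert_self _ _)]
  · rw [residualRaise_X_of_ne _ _ hl]
    by_cases h : l ∈ Q
    · rw [residualRaiseSet_X_of_mem _ _ h,
        residualRaiseSet_X_of_mem _ _ (Finset.mem_insert_of_mem h)]
    · rw [residualRaiseSet_X_of_notMem _ _ h,
        residualRaiseSet_X_of_notMem _ _ (by simp [hl, h])]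

/-- Transport of localised classes along equal characters and multiplicative sets. -/
def bettiLocTransport {L : ℕ} {V : Type} [AddCommGroup V] [Module A V]
    {χ χ' : (ZMod L)ˣ →* Aˣ} {S S' : Submonoid (BettiHeckeAlg A)} (h : χ = χ') (h' : S = S') :
    BettiLoc L χ V S ≃ₗ[A] BettiLoc L χ' V S' := by
  subst h h'
  exact LinearEquiv.refl A _

theorem bettiLocTransport_smul {L : ℕ} {V : Type} [AddCommGroup V] [Module A V]
    {χ χ' : (ZMod L)ˣ →* Aˣ} {S S' : Submonoid (BettiHeckeAlg A)} (h : χ = χ') (h' : S = S')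
    (P : BettiHeckeAlg A) (x : BettiLoc L χ V S) :
    bettiLocTransport h h' (P • x) = P • bettiLocTransport h h' x := by
  subst h h'
  rfl

theorem unitsMap_levelUnit {L M : ℕ} (hLM : L ∣ M) {q : Nat.Primes} (hq : ¬ (q : ℕ) ∣ L)
    (hqM : ¬ (q : ℕ) ∣ M) : ZMod.unitsMap hLM (levelUnit hqM) = levelUnit hq :=
  Units.ext (by simp [ZMod.unitsMap_def, levelUnit])

variable [IsLocalRing A] [IsNoetherianRing A] [IsAdicComplete (IsLocalRing.maximalIdeal A) A]
  {L : ℕ} {χ : (ZMod L)ˣ →* Aˣ} {V : Type} [AddCommGroup V] [Module A V] [Module.Finite A V]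

/-- Level change at a finite set of Taylor–Wiles primes. -/
theorem exists_bettiLevelEquiv_finset [NeZero L] (Q : Finset Nat.Primes) (M : ℕ)
    (hM : M = L * ∏ q ∈ Q, (q : ℕ)) (hLM : L ∣ M) (hQ : ∀ q ∈ Q, ¬ (q : ℕ) ∣ L)
    (Pr : Set Nat.Primes) (hQPr : ∀ q ∈ Q, q ∈ Pr) (θ : BettiHeckeAlg A →+* k)
    (hθ : ∀ r ∈ IsLocalRing.maximalIdeal A, θ (C r) = 0)
    (hsurj : Function.Surjective (θ.comp C)) (α : Nat.Primes → k)
    (hroot : ∀ (q : Nat.Primes) (h : q ∈ Q), α q ^ 2 - θ (X q) * α q +
      θ (C (((q : ℕ) : A) * (χ (levelUnit (hQ q h)) : A))) = 0)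
    (hα0 : ∀ q ∈ Q, α q ≠ 0) (hsimple : ∀ q ∈ Q, 2 * α q ≠ θ (X q))
    (hnew : ∀ (q : Nat.Primes) (h : q ∈ Q), α q ^ 2 ≠ θ (C (χ (levelUnit (hQ q h)) : A))) :
    ∃ (φ : BettiHeckeAlg A →ₐ[A] BettiHeckeAlg A)
      (e : BettiLoc L χ V (bettiResidualSubmonoid Pr θ) ≃ₗ[A]
        BettiLoc M (χ.comp (ZMod.unitsMap hLM)) V
          (bettiResidualSubmonoid Pr (residualRaiseSet θ Q α))),
      (∀ P ∈ supported A Pr, φ P ∈ supported A Pr) ∧ (∀ l, l ∉ Q → φ (X l) = X l) ∧
      (∀ P, θ (φ P) = residualRaiseSet θ Q α P) ∧ ∀ P x, e (φ P • x) = P • e x := by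
  classical
  induction Q using Finset.induction_on generalizing M with
  | empty =>
    rw [Finset.prod_empty, mul_one] at hM
    subst hM
    have hχ : χ = χ.comp (ZMod.unitsMap hLM) := by
      rw [show ZMod.unitsMap hLM = MonoidHom.id _ from ZMod.unitsMap_self M, MonoidHom.comp_id]
    exact ⟨AlgHom.id A _, bettiLocTransport hχ (by rw [residualRaiseSet_empty]), fun P hP => hP,
      fun l _ => rfl, fun P => by rw [residualRaiseSet_empty]; rfl,
      fun P x => bettiLocTransport_smul _ _ P x⟩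
  | insert q Q hqQ ih =>
    rw [Finset.prod_insert hqQ] at hM
    set M' := L * ∏ l ∈ Q, (l : ℕ) with hM'
    have hMq : M = M' * (q : ℕ) := by rw [hM, hM']; ring
    subst hMq
    have hqM : ¬ (q : ℕ) ∣ M' := by
      intro h
      rcases (Nat.Prime.dvd_mul q.2).1 h with h | h
      · exact hQ q (Finset.mem_insert_self _ _) h
      · obtain ⟨l, hl, hql⟩ := (Prime.dvd_finsetProd_iff q.2.prime _).1 h
        exact hqQ (Subtype.ext ((Nat.prime_dvd_prime_iff_eq q.2 l.2).1 hql) ▸ hl)
    haveI : NeZero M' :=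
      ⟨mul_ne_zero (NeZero.ne L) (Finset.prod_ne_zero_iff.2 fun l _ => l.2.ne_zero)⟩
    have hLM' : L ∣ M' := Nat.dvd_mul_right L _
    obtain ⟨φ₁, e₁, hφ₁s, hφ₁X, hφ₁θ, he₁⟩ := ih M' rfl hLM'
      (fun l hl => hQ l (Finset.mem_insert_of_mem hl))
      (fun l hl => hQPr l (Finset.mem_insert_of_mem hl))
      (fun l hl => hroot l (Finset.mem_insert_of_mem hl))
      (fun l hl => hα0 l (Finset.mem_insert_of_mem hl))
      (fun l hl => hsimple l (Finset.mem_insert_of_mem hl))
      (fun l hl => hnew l (Finset.mem_insert_of_mem hl))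
    have hself := Finset.mem_insert_self q Q
    have hχq : (χ.comp (ZMod.unitsMap hLM')) (levelUnit hqM) = χ (levelUnit (hQ q hself)) := by
      rw [MonoidHom.comp_apply, unitsMap_levelUnit hLM' (hQ q hself) hqM]
    obtain ⟨a, e₂, ha, hθa, he₂, -⟩ := exists_bettiLevelEquiv
      (χ := χ.comp (ZMod.unitsMap hLM')) (V := V) hqM Pr (hQPr q hself)
      (residualRaiseSet θ Q α) (fun r hr => by rw [residualRaiseSet_C]; exact hθ r hr)
      (fun x => by
        obtain ⟨r, hr⟩ := hsurj x
        exact ⟨r, by simpa using hr⟩) (α q)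
      (by rw [residualRaiseSet_X_of_notMem _ _ hqQ, residualRaiseSet_C, hχq]; exact hroot q hself)
      (hα0 q hself) (by rw [residualRaiseSet_X_of_notMem _ _ hqQ]; exact hsimple q hself)
      (by rw [residualRaiseSet_C, hχq]; exact hnew q hself)
    have hχ : raiseChar q (χ.comp (ZMod.unitsMap hLM')) = χ.comp (ZMod.unitsMap hLM) := by
      rw [raiseChar, MonoidHom.comp_assoc, ZMod.unitsMap_comp]
    have hS : bettiResidualSubmonoid Pr (residualRaise (residualRaiseSet θ Q α) q (α q)) =
        bettiResidualSubmonoid Pr (residualRaiseSet θ (insert q Q) α) := by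
      rw [residualRaise_residualRaiseSet]
    refine ⟨φ₁.comp (substPrime q a), (e₁.trans e₂).trans (bettiLocTransport hχ hS),
      fun P hP => hφ₁s _ (substPrime_mem_supported ha hP), fun l hl => ?_, fun P => ?_,
      fun P x => ?_⟩
    · rw [AlgHom.comp_apply, substPrime_X_of_ne _ (fun h : l = q => hl (by rw [h]; exact hself)),
        hφ₁X l fun h => hl (Finset.mem_insert_of_mem h)]
    · rw [AlgHom.comp_apply, hφ₁θ, ← residualRaise_residualRaiseSet]
      exact residual_substPrime (fun r => by simp)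
        (fun l hl => (residualRaise_X_of_ne _ _ hl).symm) (by simpa using hθa) P
    · simp only [LinearEquiv.trans_apply, AlgHom.comp_apply]
      rw [he₁, he₂, bettiLocTransport_smul]

end FermatLib.MLT

end
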