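import Fermat.Agent.MLT.Hecke.GammaH
import Fermat.Agent.MLT.Hecke.LevelChangeSet

/-!
Change of coefficients for the residually localised Betti module with an arbitrary character:
the reduction is onto, semilinear, with kernel generated by the kernel of the coefficient map, and
characters with the same image have the same reduced module.
-/

set_option autoImplicit false

noncomputable section

open scoped MatrixGroups
open CongruenceSubgroup MvPolynomial

namespace FermatLib.MLT

variable {A B : Type} [CommRing A] [CommRing B] [Algebra A B] {L : ℕ} {k : Type} [Field k]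
  {χ : (ZMod L)ˣ →* Aˣ} {χB : (ZMod L)ˣ →* Bˣ} {Pr : Set Nat.Primes}
  {θA : BettiHeckeAlg A →+* k} {θB : BettiHeckeAlg B →+* k}

/-- Reduction of the residually localised module along `A → B`. -/
def bettiResReduce (hφ : Function.Surjective (algebraMap A B)) (hχB : bettiBaseChar B χ = χB)
    (hθ : θA = θB.comp (MvPolynomial.map (algebraMap A B))) :
    BettiResLoc χ Pr θA →+ BettiResLoc χB Pr θB :=
  (bettiLocTransport hχB
      ((congrArg (fun t => (bettiResidualSubmonoid Pr t).map
          (MvPolynomial.map (algebraMap A B))) hθ).trans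
        (bettiResidualSubmonoid_map hφ Pr θB))).toAddMonoidHom.comp
    (bettiLocReduce B χ (bettiResidualSubmonoid Pr θA)).toAddMonoidHom

variable (hφ : Function.Surjective (algebraMap A B)) (hχB : bettiBaseChar B χ = χB)
  (hθ : θA = θB.comp (MvPolynomial.map (algebraMap A B)))

theorem bettiResReduce_hecke_smul (P : BettiHeckeAlg A) (x : BettiResLoc χ Pr θA) :
    bettiResReduce hφ hχB hθ (P • x) =
      MvPolynomial.map (algebraMap A B) P • bettiResReduce hφ hχB hθ x := by
  show bettiLocTransport hχB _ (bettiLocReduce B χ _ (P • x)) = _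
  rw [bettiLocReduce_smul, bettiLocTransport_smul]
  rfl

theorem bettiResReduce_smul (a : A) (x : BettiResLoc χ Pr θA) :
    bettiResReduce hφ hχB hθ (a • x) = algebraMap A B a • bettiResReduce hφ hχB hθ x := by
  show bettiLocTransport hχB _ (bettiLocReduce B χ _ (a • x)) = _
  rw [map_smul, ← algebraMap_smul B a, map_smul]
  rfl

theorem bettiResReduce_surjective [NeZero L] (hχ : χ (-1) = 1)
    (hell : EllipticHarmless L Pr θA) : Function.Surjective (bettiResReduce (Pr := Pr) hφ hχB hθ) :=
  (bettiLocTransport hχB _).surjective.comp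
    (bettiLocReduce_surjective hφ (bettiRightExact_residual χ hχ θA hell))

theorem bettiResReduce_eq_zero_iff [NeZero L] [IsNoetherianRing A] (hχ : χ (-1) = 1)
    (hell : EllipticHarmless L Pr θA) (x : BettiResLoc χ Pr θA) :
    bettiResReduce hφ hχB hθ x = 0 ↔
      x ∈ RingHom.ker (algebraMap A B) • (⊤ : Submodule A (BettiResLoc χ Pr θA)) := by
  rw [← ker_bettiLocReduce hφ hχ (bettiRightExact_residual χ hχ θA hell)]
  exact LinearEquiv.map_eq_zero_iff _

/-- The image of a basis is a basis of the reduced module. -/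
theorem exists_basis_bettiResReduce [NeZero L] [IsNoetherianRing A] (hχ : χ (-1) = 1)
    (hell : EllipticHarmless L Pr θA) {ι : Type} [Fintype ι]
    (b : Module.Basis ι A (BettiResLoc χ Pr θA)) :
    ∃ b' : Module.Basis ι B (BettiResLoc χB Pr θB),
      ∀ i, b' i = bettiResReduce hφ hχB hθ (b i) := by
  classical
  have hspan : ⊤ ≤ Submodule.span B (Set.range fun i => bettiResReduce hφ hχB hθ (b i)) := by
    rintro y -
    obtain ⟨x, rfl⟩ := bettiResReduce_surjective hφ hχB hθ hχ hell y
    rw [← b.sum_repr x, map_sum]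
    refine Submodule.sum_mem _ fun i _ => ?_
    rw [bettiResReduce_smul]
    exact Submodule.smul_mem _ _ (Submodule.subset_span ⟨i, rfl⟩)
  have hli : LinearIndependent B fun i => bettiResReduce hφ hχB hθ (b i) := by
    rw [Fintype.linearIndependent_iff]
    intro g hg i
    choose g' hg' using fun j => hφ (g j)
    set x := ∑ j, g' j • b j with hx
    have hx0 : bettiResReduce hφ hχB hθ x = 0 := by
      rw [hx, map_sum, ← hg]
      exact Finset.sum_congr rfl fun j _ => by rw [bettiResReduce_smul, hg']
    rw [bettiResReduce_eq_zero_iff hφ hχB hθ hχ hell] at hx0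
    have hrepr : ∀ y ∈ RingHom.ker (algebraMap A B) • (⊤ : Submodule A (BettiResLoc χ Pr θA)),
        b.repr y i ∈ RingHom.ker (algebraMap A B) := by
      intro y hy
      refine Submodule.smul_induction_on hy (fun a ha z _ => ?_) fun y z hy hz => ?_
      · rw [LinearEquiv.map_smul]
        exact Ideal.mul_mem_right _ _ ha
      · rw [map_add, Finsupp.add_apply]; exact add_mem hy hz
    have h := hrepr x hx0
    rw [hx, b.repr_sum_self, RingHom.mem_ker, hg'] at h
    exact h
  exact ⟨Module.Basis.mk hli hspan, fun i => Module.Basis.mk_apply _ _ i⟩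

section congruence

variable {χ' : (ZMod L)ˣ →* Aˣ}

/-- Characters with the same image have the same module modulo the kernel. -/
theorem exists_bettiResCongr [NeZero L] [IsNoetherianRing A] (hχ : χ (-1) = 1) (hχ' : χ' (-1) = 1)
    (hell : EllipticHarmless L Pr θA) (I : Ideal A)
    (hI : ∀ r ∈ I, θA (C r) = 0) (hcongr : ∀ d, (χ d : A) - χ' d ∈ I) :
    ∃ e : (BettiResLoc χ Pr θA ⧸ I • (⊤ : Submodule A (BettiResLoc χ Pr θA))) ≃ₗ[A]
        (BettiResLoc χ' Pr θA ⧸ I • (⊤ : Submodule A (BettiResLoc χ' Pr θA))),
      ∀ (P : BettiHeckeAlg A) (x : BettiResLoc χ Pr θA) (y : BettiResLoc χ' Pr θA),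
        e (Submodule.Quotient.mk x) = Submodule.Quotient.mk y →
          e (Submodule.Quotient.mk (P • x)) = Submodule.Quotient.mk (P • y) := by
  let θI : BettiHeckeAlg (A ⧸ I) →+* k :=
    eval₂Hom (Ideal.Quotient.lift I (θA.comp C) hI) fun p => θA (X p)
  have hθI : θA = θI.comp (MvPolynomial.map (algebraMap A (A ⧸ I))) :=
    ringHom_ext (fun r => by simp [θI, Ideal.Quotient.algebraMap_eq])
      fun l => by simp [θI]
  have hφI : Function.Surjective (algebraMap A (A ⧸ I)) := Ideal.Quotient.mk_surjective
  have hchar : bettiBaseChar (A ⧸ I) χ = bettiBaseChar (A ⧸ I) χ' := by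
    refine MonoidHom.ext fun d => Units.ext ?_
    rw [coe_bettiBaseChar, coe_bettiBaseChar, Ideal.Quotient.algebraMap_eq, Ideal.Quotient.mk_eq_mk_iff_sub_mem]
    exact hcongr d
  set g := bettiResReduce (Pr := Pr) hφI hchar hθI with hg
  set g' := bettiResReduce (Pr := Pr) (χ := χ') hφI rfl hθI with hg'
  let gl : BettiResLoc χ Pr θA →ₗ[A] BettiResLoc (bettiBaseChar (A ⧸ I) χ') Pr θI :=
    { toFun := g
      map_add' := map_add g
      map_smul' := fun a x => by
        simp only [RingHom.id_apply]
        exact (bettiResReduce_smul _ _ _ a x).trans (algebraMap_smul (A ⧸ I) a _) }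
  let gl' : BettiResLoc χ' Pr θA →ₗ[A] BettiResLoc (bettiBaseChar (A ⧸ I) χ') Pr θI :=
    { toFun := g'
      map_add' := map_add g'
      map_smul' := fun a x => by
        simp only [RingHom.id_apply]
        exact (bettiResReduce_smul _ _ _ a x).trans (algebraMap_smul (A ⧸ I) a _) }
  have hI' : RingHom.ker (algebraMap A (A ⧸ I)) = I := Ideal.mk_ker
  have hker : LinearMap.ker gl = I • ⊤ := by
    ext x
    rw [LinearMap.mem_ker]
    have := bettiResReduce_eq_zero_iff (x := x) hφI hchar hθI hχ hell
    rwa [hI'] at this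
  have hker' : LinearMap.ker gl' = I • ⊤ := by
    ext x
    rw [LinearMap.mem_ker]
    have := bettiResReduce_eq_zero_iff (x := x) (χ := χ') hφI rfl hθI hχ' hell
    rwa [hI'] at this
  let e1 := ((Submodule.quotEquivOfEq _ _ hker).symm.trans
    (gl.quotKerEquivOfSurjective (bettiResReduce_surjective hφI hchar hθI hχ hell)))
  let e2 := ((Submodule.quotEquivOfEq _ _ hker').symm.trans
    (gl'.quotKerEquivOfSurjective (bettiResReduce_surjective hφI rfl hθI hχ' hell)))
  have h1 : ∀ x, e1 (Submodule.Quotient.mk x) = g x := fun x => rfl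
  have h2 : ∀ y, e2 (Submodule.Quotient.mk y) = g' y := fun y => rfl
  refine ⟨e1.trans e2.symm, fun P x y hxy => ?_⟩
  rw [LinearEquiv.trans_apply, LinearEquiv.symm_apply_eq, h1, h2] at hxy ⊢
  rw [hg, hg', bettiResReduce_hecke_smul, bettiResReduce_hecke_smul, ← hg, ← hg', hxy]

end congruence

end FermatLib.MLT

end
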