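import Fermat.Agent.MLT.Hecke.GammaHHecke
import Fermat.Agent.MLT.Two.Hecke.EigenEmbed
import Fermat.Agent.Basic.EigenChar
import Mathlib.LinearAlgebra.Matrix.Charpoly.Coeff
import Mathlib.RingTheory.TensorProduct.Finite

/-!
# A point of a localised Hecke algebra has an eigenclass

For `A` complete local and a point `F` of the Hecke algebra of the localised module with values in
an algebraically closed `A`-field `K`, some nonzero class of `H¹(Γ₀(L), χ_K)` is an eigenvector of
all Hecke operators with the eigenvalues of `F` at the primes of `Pr`.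
-/

set_option autoImplicit false

noncomputable section

open scoped MatrixGroups TensorProduct
open CongruenceSubgroup IsLocalRing

namespace FermatLib.MLT

section algebra

variable {A T K ι : Type} [CommRing A] [CommRing T] [Algebra A T] [Field K] [Algebra A K]
  [Fintype ι] [DecidableEq ι] (mat : T →ₐ[A] Matrix ι ι A) (hmat : Function.Injective mat)
  (F : T →ₐ[A] K)

include hmat in
/-- An element acting by zero modulo the kernel of `A → K` is killed by the point. -/
theorem point_eq_zero_of_mat {u : T} (h : (mat u).map (algebraMap A K) = 0) : F u = 0 := by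
  have h1 : Polynomial.aeval u (mat u).charpoly = 0 := hmat (by
    rw [← Polynomial.aeval_algHom_apply, Matrix.aeval_self_charpoly, map_zero])
  have h2 := congrArg F h1
  rw [map_zero, ← Polynomial.aeval_algHom_apply, Polynomial.aeval_def,
    Polynomial.eval₂_eq_eval_map, ← Matrix.charpoly_map,
    show (mat u).map (algebraMap A K) = (0 : Matrix ι ι K) from h, Matrix.charpoly_zero,
    Polynomial.eval_pow, Polynomial.eval_X] at h2
  exact eq_zero_of_pow_eq_zero h2

include hmat in
/-- A relation over `K` between the matrices is a relation between the values of the point. -/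
theorem sum_point_eq_zero {κ : Type} [Fintype κ] (c : κ → K) (u : κ → T)
    (h : ∑ i, c i • (mat (u i)).map (algebraMap A K) = 0) : ∑ i, c i * F (u i) = 0 := by
  classical
  set F₀ := Two.EigenEmbed.imageField (A := A) (K := K)
  let bK := Module.Basis.ofVectorSpace F₀ K
  have hcoord : ∀ j, ∑ i, (bK.repr (c i) j : K) * F (u i) = 0 := by
    intro j
    choose num den hden hnum using fun i => Two.EigenEmbed.exists_denom _ (bK.repr (c i) j).2
    let a : κ → A := fun i => (∏ i' ∈ Finset.univ.erase i, den i') * num i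
    set D : K := algebraMap A K (∏ i', den i') with hD
    have hD0 : D ≠ 0 := by
      rw [hD, map_prod]
      exact Finset.prod_ne_zero_iff.mpr fun i _ => hden i
    have ha : ∀ i, algebraMap A K (a i) = D * (bK.repr (c i) j : K) := fun i => by
      show algebraMap A K (_ * num i) = _
      rw [hD, ← Finset.mul_prod_erase _ _ (Finset.mem_univ i), map_mul, map_mul, ← hnum i]
      ring
    have hu : (mat (∑ i, a i • u i)).map (algebraMap A K) = 0 := by
      ext r s
      have hrs : ∑ i, c i * algebraMap A K (mat (u i) r s) = 0 := by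
        simpa [Matrix.sum_apply] using congrFun (congrFun h r) s
      have hπ := congrArg (fun x => bK.repr x j) hrs
      simp only [map_sum, Finsupp.coe_finsetSum, Finset.sum_apply, map_zero, Finsupp.coe_zero,
        Pi.zero_apply] at hπ
      have hterm : ∀ i, bK.repr (c i * algebraMap A K (mat (u i) r s)) j =
          (⟨algebraMap A K (mat (u i) r s), Two.EigenEmbed.algebraMap_mem_imageField _⟩ : F₀) *
            bK.repr (c i) j := by
        intro i
        rw [show c i * algebraMap A K (mat (u i) r s) =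
            (⟨algebraMap A K (mat (u i) r s),
              Two.EigenEmbed.algebraMap_mem_imageField _⟩ : F₀) • c i from mul_comm _ _,
          LinearEquiv.map_smul, Finsupp.smul_apply, smul_eq_mul]
      simp only [hterm] at hπ
      have hπ' := congrArg (fun x : F₀ => D * (x : K)) hπ
      simp only [AddSubmonoidClass.coe_finsetSum, Finset.mul_sum, Subfield.coe_mul,
        ZeroMemClass.coe_zero, mul_zero] at hπ'
      simp only [map_sum, map_smul, Matrix.map_apply, Matrix.sum_apply, Matrix.smul_apply,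
        smul_eq_mul, Matrix.zero_apply]
      rw [← hπ']
      exact Finset.sum_congr rfl fun i _ => by rw [map_mul, ha]; ring
    have h0 := point_eq_zero_of_mat mat hmat F hu
    rw [map_sum] at h0
    refine (mul_eq_zero.mp ?_).resolve_left hD0
    rw [Finset.mul_sum, ← h0]
    exact Finset.sum_congr rfl fun i _ => by rw [map_smul, Algebra.smul_def, ha, mul_assoc]
  let s : Finset _ := Finset.univ.biUnion fun i => (bK.repr (c i)).support
  have hc : ∀ i, c i = ∑ j ∈ s, (bK.repr (c i) j : K) * bK j := by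
    intro i
    conv_lhs => rw [← bK.linearCombination_repr (c i)]
    rw [Finsupp.linearCombination_apply]
    refine (Finsupp.sum_of_support_subset _
      (Finset.subset_biUnion_of_mem (fun i => (bK.repr (c i)).support) (Finset.mem_univ i))
      (fun j r => r • bK j) (fun j _ => zero_smul _ _)).trans ?_
    exact Finset.sum_congr rfl fun j _ => rfl
  rw [Finset.sum_congr rfl fun i _ => by rw [hc i, Finset.sum_mul], Finset.sum_comm]
  refine Finset.sum_eq_zero fun j _ => ?_
  simp only [mul_right_comm _ (bK j)]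
  rw [← Finset.sum_mul, hcoord, zero_mul]

include hmat in
/-- **The point has an eigenvector.** -/
theorem exists_eigenvector_of_point [IsAlgClosed K] :
    ∃ v : ι → K, v ≠ 0 ∧ ∀ u : T, ((mat u).map (algebraMap A K)).mulVec v = F u • v := by
  classical
  let matK : T →ₐ[A] Matrix ι ι K := ((Algebra.ofId A K).mapMatrix).comp mat
  let Ψ : K ⊗[A] T →ₐ[K] Matrix ι ι K := Algebra.TensorProduct.lift (Algebra.ofId K _) matK
    fun x y => Algebra.commutes x _
  let FK : K ⊗[A] T →ₐ[K] K := Algebra.TensorProduct.lift (Algebra.ofId K K) F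
    fun x y => Commute.all _ _
  let ρ : K ⊗[A] T →+* Module.End K (ι → K) :=
    (Matrix.toLinAlgEquiv' : Matrix ι ι K ≃ₐ[K] _).toRingEquiv.toRingHom.comp Ψ.toRingHom
  have hΨ : ∀ (c : K) (u : T), Ψ (c ⊗ₜ[A] u) = c • (mat u).map (algebraMap A K) := fun c u =>
    (Algebra.TensorProduct.lift_tmul _ _ _ c u).trans (Algebra.smul_def c _).symm
  have hFK : ∀ (c : K) (u : T), FK (c ⊗ₜ[A] u) = c * F u := fun c u =>
    Algebra.TensorProduct.lift_tmul _ _ _ c u
  have hker : RingHom.ker ρ ≤ RingHom.ker FK.toRingHom := by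
    intro z hz
    have hz' : Ψ z = 0 := Matrix.toLinAlgEquiv'.injective (hz.trans (map_zero _).symm)
    obtain ⟨S, rfl⟩ := TensorProduct.exists_finset z
    rw [RingHom.mem_ker]
    show FK _ = 0
    rw [map_sum] at hz' ⊢
    rw [← Finset.sum_coe_sort S] at hz' ⊢
    simp only [hΨ, hFK] at hz' ⊢
    exact sum_point_eq_zero mat hmat F (fun i : S => i.1.1) (fun i : S => i.1.2) hz'
  haveI : (RingHom.ker FK.toRingHom).IsPrime := RingHom.ker_isPrime _
  obtain ⟨v, χ', hv, hρ, hle⟩ :=
    FermatLib.Basic.exists_eigenchar_ker_le ρ (RingHom.ker FK.toRingHom) hker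
  have hscal : ∀ c : K, χ' (algebraMap K (K ⊗[A] T) c) = c := by
    intro c
    have h1 := hρ (algebraMap K (K ⊗[A] T) c)
    have h2 : ρ (algebraMap K (K ⊗[A] T) c) v = c • v := by
      show Matrix.toLinAlgEquiv' (Ψ (algebraMap K _ c)) v = c • v
      rw [AlgHom.commutes, AlgEquiv.commutes]
      rfl
    rw [h2] at h1
    by_contra h
    exact hv ((smul_eq_zero.mp (by rw [sub_smul, ← h1, sub_self] :
      (χ' (algebraMap K (K ⊗[A] T) c) - c) • v = 0)).resolve_left (sub_ne_zero.mpr h))
  refine ⟨v, hv, fun u => ?_⟩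
  have hmem : (1 : K) ⊗ₜ[A] u - algebraMap K (K ⊗[A] T) (χ' ((1 : K) ⊗ₜ[A] u)) ∈
      RingHom.ker FK.toRingHom := hle (by rw [RingHom.mem_ker, map_sub, hscal, sub_self])
  rw [RingHom.mem_ker, map_sub, sub_eq_zero] at hmem
  have hF : F u = χ' ((1 : K) ⊗ₜ[A] u) := by
    have : FK ((1 : K) ⊗ₜ[A] u) = χ' ((1 : K) ⊗ₜ[A] u) :=
      hmem.trans (FK.commutes _)
    rwa [hFK, one_mul] at this
  rw [hF, ← hρ]
  show _ = Matrix.toLinAlgEquiv' (Ψ ((1 : K) ⊗ₜ[A] u)) v
  rw [hΨ, one_smul, Matrix.toLinAlgEquiv'_apply]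

end algebra

variable {A : Type} [CommRing A] [IsLocalRing A] [IsNoetherianRing A]
  [IsAdicComplete (maximalIdeal A) A] {L : ℕ} [NeZero L] {k : Type} [Field k]

/-- **A point of the Hecke algebra has an eigenclass.** -/
theorem exists_eigenclass_of_heckePoint (χ : (ZMod L)ˣ →* Aˣ) (hχ : χ (-1) = 1)
    {Pr : Set Nat.Primes} (θ : BettiHeckeAlg A →+* k)
    (hθ : ∀ a ∈ maximalIdeal A, θ (MvPolynomial.C a) = 0) (hell : EllipticHarmless L Pr θ)
    (l : Nat.Primes) (hl : l ∈ Pr)
    (hne : θ (MvPolynomial.X l) ≠ θ (MvPolynomial.C (heckeDegree χ l)))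
    {K : Type} [Field K] [IsAlgClosed K] [Algebra A K] (F : bettiResHecke χ Pr θ →ₐ[A] K) :
    ∃ (lam : Nat.Primes → K) (x : BettiMod L (bettiBaseChar K χ) K), x ≠ 0 ∧
      (∀ q, (MvPolynomial.X q : BettiHeckeAlg K) • x = lam q • x) ∧
      ∀ (q : Nat.Primes) (hq : q ∈ Pr), lam q = F (bettiResGen χ Pr θ ⟨q, hq⟩) := by
  classical
  haveI := bettiLoc_finite χ A Pr θ hθ
  haveI := bettiLoc_residual_free χ hχ θ hθ hell l hl hne
  let M := BettiResLoc χ Pr θ
  let b := Module.Free.chooseBasis A M
  let mat : bettiResHecke χ Pr θ →ₐ[A] Matrix _ _ A :=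
    (LinearMap.toMatrixAlgEquiv b).toAlgHom.comp (bettiResHecke χ Pr θ).val
  have hmat : Function.Injective mat :=
    (LinearMap.toMatrixAlgEquiv b).injective.comp Subtype.val_injective
  obtain ⟨v, hv, hv'⟩ := exists_eigenvector_of_point mat hmat F
  obtain ⟨Φ, hΦ, hΦind⟩ := Two.EigenEmbed.exists_embedding χ (K := K) (bettiResidualSubmonoid Pr θ)
    hχ (bettiNonEisenstein_residual χ θ l hl hne) (bettiRightExact_residual χ hχ θ hell)
    (mkLinearMap_charSubmonoid_surjective _ θ hθ _)
  have hΦa : ∀ (a : A) (y : M), Φ (a • y) = algebraMap A K a • Φ y := by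
    intro a y
    rw [← algebraMap_smul (BettiHeckeAlg A) a y, hΦ, MvPolynomial.algebraMap_eq,
      MvPolynomial.map_C, ← MvPolynomial.algebraMap_eq, algebraMap_smul]
  let x : BettiMod L (bettiBaseChar K χ) K := ∑ i, v i • Φ (b i)
  have hx : x ≠ 0 := fun h => hv (hΦind b v h)
  have hxPr : ∀ (q : Nat.Primes) (hq : q ∈ Pr),
      (MvPolynomial.X q : BettiHeckeAlg K) • x = F (bettiResGen χ Pr θ ⟨q, hq⟩) • x := by
    intro q hq
    set t := bettiResGen χ Pr θ ⟨q, hq⟩
    have hb : ∀ i, (MvPolynomial.X q : BettiHeckeAlg A) • b i = ∑ j, mat t j i • b j := by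
      intro i
      show (t : Module.End A M) (b i) = _
      refine (b.sum_repr _).symm.trans (Finset.sum_congr rfl fun j _ => ?_)
      exact congrArg (· • b j) (LinearMap.toMatrixAlgEquiv_apply b _ j i).symm
    show _ • ∑ i, v i • Φ (b i) = _
    rw [Finset.smul_sum, Finset.smul_sum]
    simp only [smul_comm (MvPolynomial.X q : BettiHeckeAlg K) (v _)]
    calc ∑ i, v i • (MvPolynomial.X q : BettiHeckeAlg K) • Φ (b i)
        = ∑ i, ∑ j, (algebraMap A K (mat t j i) * v i) • Φ (b j) := by
          refine Finset.sum_congr rfl fun i _ => ?_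
          have h1 := hΦ (MvPolynomial.X q) (b i)
          rw [MvPolynomial.map_X, hb, map_sum] at h1
          rw [← h1, Finset.smul_sum]
          exact Finset.sum_congr rfl fun j _ => by rw [hΦa, smul_smul, mul_comm]
      _ = ∑ j, (F t * v j) • Φ (b j) := by
          rw [Finset.sum_comm]
          refine Finset.sum_congr rfl fun j _ => ?_
          rw [← Finset.sum_smul]
          congr 1
          exact congrFun (hv' t) j
      _ = ∑ j, F t • v j • Φ (b j) := by simp only [smul_smul]
  -- the simultaneous eigenvector of the other operators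
  let V := BettiMod L (bettiBaseChar K χ) K
  haveI : Module.Finite K V :=
    bettiH1_gamma0_finite (A := K) (V := K) L (nebenChar (bettiBaseChar K χ))
  let W : Submodule K V := ⨅ q : Pr, LinearMap.ker
    (Algebra.lsmul K K V (MvPolynomial.X (q : Nat.Primes) : BettiHeckeAlg K) -
      F (bettiResGen χ Pr θ q) • (1 : Module.End K V))
  have hW : ∀ y : V, y ∈ W ↔ ∀ q : Pr, (MvPolynomial.X (q : Nat.Primes) : BettiHeckeAlg K) • y =
      F (bettiResGen χ Pr θ q) • y := fun y => by
    simp [W, sub_eq_zero]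
  have hxW : x ∈ W := (hW x).2 fun q => hxPr q q.2
  have hWst : ∀ (t : BettiHeckeAlg K), ∀ y ∈ W, Algebra.lsmul K K V t y ∈ W := by
    intro t y hy
    refine (hW _).2 fun q => ?_
    show (MvPolynomial.X (q : Nat.Primes) : BettiHeckeAlg K) • (t • y) = _ • (t • y)
    rw [smul_comm, (hW y).1 hy q, smul_comm]
  let ρW : BettiHeckeAlg K →+* Module.End K W :=
    { toFun := fun t => (Algebra.lsmul K K V t).restrict (hWst t)
      map_one' := LinearMap.ext fun w => Subtype.ext (by simp)
      map_mul' := fun s t => LinearMap.ext fun w => Subtype.ext (by simp)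
      map_zero' := LinearMap.ext fun w => Subtype.ext (by simp)
      map_add' := fun s t => LinearMap.ext fun w => Subtype.ext (by simp) }
  haveI : Nontrivial W := ⟨⟨⟨x, hxW⟩, 0, fun h => hx (congrArg Subtype.val h)⟩⟩
  obtain ⟨m, hm, hle⟩ := Ideal.exists_le_maximal _ (RingHom.ker_ne_top ρW)
  obtain ⟨w, c, hw, hwc, -⟩ := FermatLib.Basic.exists_eigenchar_ker_le ρW m hle
  have hwV : ∀ q, (MvPolynomial.X q : BettiHeckeAlg K) • (w : V) = c (MvPolynomial.X q) • (w : V) :=
    fun q => congrArg Subtype.val (hwc (MvPolynomial.X q))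
  refine ⟨fun q => c (MvPolynomial.X q), w, fun h => hw (Subtype.ext h), hwV, fun q hq => ?_⟩
  have h2 := (hW w).1 w.2 ⟨q, hq⟩
  rw [hwV] at h2
  exact smul_left_injective K (fun h => hw (Subtype.ext h)) h2

/-- The Hecke algebra of all operators on the localised module. -/
def bettiFullHecke {A : Type} [CommRing A] {L : ℕ} {k : Type} [Field k] (χ : (ZMod L)ˣ →* Aˣ)
    (Pr : Set Nat.Primes) (θ : BettiHeckeAlg A →+* k) :
    Subalgebra A (Module.End A (BettiResLoc χ Pr θ)) :=
  (Algebra.lsmul A A (BettiResLoc χ Pr θ) :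
    BettiHeckeAlg A →ₐ[A] Module.End A (BettiResLoc χ Pr θ)).range

instance bettiFullHecke_commRing {A : Type} [CommRing A] {L : ℕ} {k : Type} [Field k]
    (χ : (ZMod L)ˣ →* Aˣ) (Pr : Set Nat.Primes) (θ : BettiHeckeAlg A →+* k) :
    CommRing (bettiFullHecke χ Pr θ) :=
  { (inferInstance : Ring (bettiFullHecke χ Pr θ)) with
    mul_comm := by
      rintro ⟨_, P, rfl⟩ ⟨_, Q, rfl⟩
      refine Subtype.ext (LinearMap.ext fun x => ?_)
      show P • (Q • x) = Q • (P • x)
      exact smul_comm _ _ x }

/-- The map from Hecke polynomials onto the algebra of all operators. -/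
def bettiFullQuot {A : Type} [CommRing A] {L : ℕ} {k : Type} [Field k] (χ : (ZMod L)ˣ →* Aˣ)
    (Pr : Set Nat.Primes) (θ : BettiHeckeAlg A →+* k) :
    BettiHeckeAlg A →ₐ[A] bettiFullHecke χ Pr θ :=
  (Algebra.lsmul A A (BettiResLoc χ Pr θ) :
    BettiHeckeAlg A →ₐ[A] Module.End A (BettiResLoc χ Pr θ)).rangeRestrict

theorem bettiFullQuot_smul {A : Type} [CommRing A] {L : ℕ} {k : Type} [Field k]
    (χ : (ZMod L)ˣ →* Aˣ) (Pr : Set Nat.Primes) (θ : BettiHeckeAlg A →+* k) (P : BettiHeckeAlg A)
    (x : BettiResLoc χ Pr θ) :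
    (bettiFullQuot χ Pr θ P : Module.End A (BettiResLoc χ Pr θ)) x = P • x := rfl

/-- The algebra of all operators is finite over the coefficients. -/
theorem bettiFullHecke_finite (χ : (ZMod L)ˣ →* Aˣ) {Pr : Set Nat.Primes}
    (θ : BettiHeckeAlg A →+* k) (hθ : ∀ a ∈ maximalIdeal A, θ (MvPolynomial.C a) = 0) :
    Module.Finite A (bettiFullHecke χ Pr θ) := by
  have := bettiLoc_finite χ A Pr θ hθ
  obtain ⟨n, g, hg⟩ := Module.Finite.exists_fin' A (BettiResLoc χ Pr θ)
  let ev : Module.End A (BettiResLoc χ Pr θ) →ₗ[A] (Fin n → BettiResLoc χ Pr θ) :=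
    { toFun := fun e i => e (g (Pi.single i 1))
      map_add' := fun _ _ => rfl
      map_smul' := fun _ _ => rfl }
  have hev : Function.Injective ev := by
    intro e e' h
    refine LinearMap.ext fun x => ?_
    obtain ⟨v, rfl⟩ := hg x
    rw [pi_eq_sum_univ' v]
    simp only [map_sum, map_smul]
    exact Finset.sum_congr rfl fun i _ => congrArg (v i • ·) (congrFun h i)
  exact Module.Finite.of_injective (ev.comp (bettiFullHecke χ Pr θ).val.toLinearMap)
    (hev.comp Subtype.val_injective)

/-- **A point of the algebra of all operators is the system of an eigenclass.** -/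
theorem exists_eigenclass_of_fullPoint (χ : (ZMod L)ˣ →* Aˣ) (hχ : χ (-1) = 1)
    {Pr : Set Nat.Primes} (θ : BettiHeckeAlg A →+* k)
    (hθ : ∀ a ∈ maximalIdeal A, θ (MvPolynomial.C a) = 0) (hell : EllipticHarmless L Pr θ)
    (l : Nat.Primes) (hl : l ∈ Pr)
    (hne : θ (MvPolynomial.X l) ≠ θ (MvPolynomial.C (heckeDegree χ l)))
    {K : Type} [Field K] [IsAlgClosed K] [Algebra A K] (F : bettiFullHecke χ Pr θ →ₐ[A] K) :
    ∃ x : BettiMod L (bettiBaseChar K χ) K, x ≠ 0 ∧
      ∀ q, (MvPolynomial.X q : BettiHeckeAlg K) • x =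
        F (bettiFullQuot χ Pr θ (MvPolynomial.X q)) • x := by
  classical
  haveI := bettiLoc_finite χ A Pr θ hθ
  haveI := bettiLoc_residual_free χ hχ θ hθ hell l hl hne
  let M := BettiResLoc χ Pr θ
  let b := Module.Free.chooseBasis A M
  let mat : bettiFullHecke χ Pr θ →ₐ[A] Matrix _ _ A :=
    (LinearMap.toMatrixAlgEquiv b).toAlgHom.comp (bettiFullHecke χ Pr θ).val
  have hmat : Function.Injective mat :=
    (LinearMap.toMatrixAlgEquiv b).injective.comp Subtype.val_injective
  obtain ⟨v, hv, hv'⟩ := exists_eigenvector_of_point mat hmat F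
  obtain ⟨Φ, hΦ, hΦind⟩ := Two.EigenEmbed.exists_embedding χ (K := K) (bettiResidualSubmonoid Pr θ)
    hχ (bettiNonEisenstein_residual χ θ l hl hne) (bettiRightExact_residual χ hχ θ hell)
    (mkLinearMap_charSubmonoid_surjective _ θ hθ _)
  have hΦa : ∀ (a : A) (y : M), Φ (a • y) = algebraMap A K a • Φ y := by
    intro a y
    rw [← algebraMap_smul (BettiHeckeAlg A) a y, hΦ, MvPolynomial.algebraMap_eq,
      MvPolynomial.map_C, ← MvPolynomial.algebraMap_eq, algebraMap_smul]
  refine ⟨∑ i, v i • Φ (b i), fun h => hv (hΦind b v h), fun q => ?_⟩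
  set t := bettiFullQuot χ Pr θ (MvPolynomial.X q)
  have hb : ∀ i, (MvPolynomial.X q : BettiHeckeAlg A) • b i = ∑ j, mat t j i • b j := by
    intro i
    show (t : Module.End A M) (b i) = _
    refine (b.sum_repr _).symm.trans (Finset.sum_congr rfl fun j _ => ?_)
    exact congrArg (· • b j) (LinearMap.toMatrixAlgEquiv_apply b _ j i).symm
  rw [Finset.smul_sum, Finset.smul_sum]
  simp only [smul_comm (MvPolynomial.X q : BettiHeckeAlg K) (v _)]
  calc ∑ i, v i • (MvPolynomial.X q : BettiHeckeAlg K) • Φ (b i)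
      = ∑ i, ∑ j, (algebraMap A K (mat t j i) * v i) • Φ (b j) := by
        refine Finset.sum_congr rfl fun i _ => ?_
        have h1 := hΦ (MvPolynomial.X q) (b i)
        rw [MvPolynomial.map_X, hb, map_sum] at h1
        rw [← h1, Finset.smul_sum]
        exact Finset.sum_congr rfl fun j _ => by rw [hΦa, smul_smul, mul_comm]
    _ = ∑ j, (F t * v j) • Φ (b j) := by
        rw [Finset.sum_comm]
        refine Finset.sum_congr rfl fun j _ => ?_
        rw [← Finset.sum_smul]
        congr 1
        exact congrFun (hv' t) j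
    _ = ∑ j, F t • v j • Φ (b j) := by simp only [smul_smul]

end FermatLib.MLT

end
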