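import Fermat.Agent.MLT.Hecke.CharReduce
import Mathlib.LinearAlgebra.FreeModule.PID
import Mathlib.RingTheory.AlgebraTower
import Mathlib.Algebra.Algebra.RestrictScalars

/-!
The Hecke module of `Γ_H` at a Taylor–Wiles level with a base character `χ₀` of the base level:
coefficients in the character `χ₀ · (diamond character)` with values in `O[Δ]ˣ`.  It is free over
`O[Δ]`, its coinvariants are the module of the base level with character `χ₀`, and congruent base
characters give the same module modulo the maximal ideal of `O`.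
-/

set_option autoImplicit false

noncomputable section

open scoped MatrixGroups
open CongruenceSubgroup MvPolynomial

namespace FermatLib.MLT

variable (O : Type) [CommRing O] {M : ℕ} {Δ : Type} [CommGroup Δ] (χ : (ZMod M)ˣ →* Oˣ)
  (δ : (ZMod M)ˣ →* Δ)

/-- `χ · (diamond character)`, with values in `O[Δ]ˣ`. -/
def charDiamond : (ZMod M)ˣ →* (DiamondRing O Δ)ˣ :=
  bettiBaseChar (DiamondRing O Δ) χ * diamondChar O δ

@[simp] theorem coe_charDiamond (d : (ZMod M)ˣ) :
    (charDiamond O χ δ d : DiamondRing O Δ) =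
      algebraMap O (DiamondRing O Δ) (χ d) * MonoidAlgebra.of O Δ (δ d) := rfl

theorem charDiamond_neg_one (hχ : χ (-1) = 1) (hδ : δ (-1) = 1) :
    charDiamond O χ δ (-1) = 1 := by
  rw [charDiamond, MonoidHom.mul_apply, bettiBaseChar_neg_one hχ, diamondChar_neg_one O δ hδ,
    one_mul]

theorem bettiBaseChar_charDiamond : bettiBaseChar O (charDiamond O χ δ) = χ := by
  refine MonoidHom.ext fun d => Units.ext ?_
  rw [coe_bettiBaseChar, coe_charDiamond, algebraMap_diamond_eq, map_mul]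
  show diamondAug O Δ (algebraMap O _ (χ d : O)) * diamondAug O Δ (MonoidAlgebra.of O Δ (δ d)) = _
  rw [AlgHom.commutes, diamondAug_of, mul_one]
  rfl

variable {k : Type} [Field k] (Pr : Set Nat.Primes) (θ : BettiHeckeAlg O →+* k)

/-- The Hecke module of `Γ_H` with base character `χ`. -/
abbrev GammaHCharMod : Type := BettiResLoc (charDiamond O χ δ) Pr (gammaHTheta O θ Δ)

/-- The map to the coinvariants. -/
def gammaHCharCoinv : GammaHCharMod O χ δ Pr θ →+ BettiResLoc χ Pr θ :=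
  bettiResReduce (diamondAug_surjective O Δ) (bettiBaseChar_charDiamond O χ δ) rfl

theorem gammaHCharCoinv_hecke_smul (P : BettiHeckeAlg (DiamondRing O Δ))
    (x : GammaHCharMod O χ δ Pr θ) :
    gammaHCharCoinv O χ δ Pr θ (P • x) =
      MvPolynomial.map (algebraMap (DiamondRing O Δ) O) P • gammaHCharCoinv O χ δ Pr θ x :=
  bettiResReduce_hecke_smul _ _ _ P x

theorem gammaHCharCoinv_smul (a : DiamondRing O Δ) (x : GammaHCharMod O χ δ Pr θ) :
    gammaHCharCoinv O χ δ Pr θ (a • x) = diamondAug O Δ a • gammaHCharCoinv O χ δ Pr θ x :=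
  bettiResReduce_smul _ _ _ a x

variable [IsLocalRing O] [IsNoetherianRing O]
  [IsAdicComplete (IsLocalRing.maximalIdeal O) O] [Finite Δ] [NeZero M]
  (hθ : ∀ a ∈ IsLocalRing.maximalIdeal O, θ (C a) = 0)
  (hχ : χ (-1) = 1) (hδ : δ (-1) = 1) (hell : EllipticHarmless M Pr θ)

omit [IsLocalRing O] [IsNoetherianRing O] [IsAdicComplete (IsLocalRing.maximalIdeal O) O]
  [Finite Δ] in
include hχ hδ hell in
theorem gammaHCharCoinv_surjective : Function.Surjective (gammaHCharCoinv O χ δ Pr θ) :=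
  bettiResReduce_surjective _ _ _ (charDiamond_neg_one O χ δ hχ hδ)
    (ellipticHarmless_diamond O Pr θ hell)

omit [IsLocalRing O] [IsAdicComplete (IsLocalRing.maximalIdeal O) O] in
include hχ hδ hell in
theorem gammaHCharCoinv_eq_zero_iff (x : GammaHCharMod O χ δ Pr θ) :
    gammaHCharCoinv O χ δ Pr θ x = 0 ↔ x ∈ RingHom.ker (algebraMap (DiamondRing O Δ) O) •
      (⊤ : Submodule (DiamondRing O Δ) (GammaHCharMod O χ δ Pr θ)) :=
  bettiResReduce_eq_zero_iff _ _ _ (charDiamond_neg_one O χ δ hχ hδ)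
    (ellipticHarmless_diamond O Pr θ hell) x

include hθ hχ hδ hell in
/-- Freeness over `O[Δ]`, and the rank is the rank of the level `Γ₀(M)`. -/
theorem gammaHCharMod_free {p : ℕ} [Fact p.Prime] (hp : (p : O) ∈ IsLocalRing.maximalIdeal O)
    (hΔ : IsPGroup p Δ) (l : Nat.Primes) (hl : l ∈ Pr)
    (hne : θ (X l) ≠ θ (C (heckeDegree χ l))) :
    Module.Free (DiamondRing O Δ) (GammaHCharMod O χ δ Pr θ) ∧
      Module.Finite (DiamondRing O Δ) (GammaHCharMod O χ δ Pr θ) ∧
      Module.Free O (BettiResLoc χ Pr θ) ∧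
      Module.finrank (DiamondRing O Δ) (GammaHCharMod O χ δ Pr θ) =
        Module.finrank O (BettiResLoc χ Pr θ) := by
  have := diamond_isLocalRing O Δ hp hΔ
  have := diamond_isAdicComplete O Δ
  have hχd := charDiamond_neg_one O χ δ hχ hδ
  have hθd := gammaHTheta_maximal (Δ := Δ) O θ hθ
  have hne' : gammaHTheta O θ Δ (X l) ≠
      gammaHTheta O θ Δ (C (heckeDegree (charDiamond O χ δ) l)) := by
    rwa [gammaHTheta_X, gammaHTheta_C, show diamondAug O Δ (heckeDegree (charDiamond O χ δ) l) =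
      heckeDegree χ l by
        show algebraMap (DiamondRing O Δ) O _ = _
        rw [← heckeDegree_baseChar, bettiBaseChar_charDiamond]]
  have hfin : Module.Finite (DiamondRing O Δ) (GammaHCharMod O χ δ Pr θ) :=
    bettiLoc_finite _ _ Pr _ hθd
  have hfree : Module.Free (DiamondRing O Δ) (GammaHCharMod O χ δ Pr θ) :=
    bettiLoc_residual_free _ hχd _ hθd (ellipticHarmless_diamond O Pr θ hell) l hl hne'
  obtain ⟨b', -⟩ := exists_basis_bettiResReduce (θB := θ) (diamondAug_surjective O Δ)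
    (bettiBaseChar_charDiamond O χ δ) rfl hχd (ellipticHarmless_diamond O Pr θ hell)
    (Module.Free.chooseBasis (DiamondRing O Δ) (GammaHCharMod O χ δ Pr θ))
  exact ⟨hfree, hfin, Module.Free.of_basis b', by
    rw [Module.finrank_eq_card_chooseBasisIndex, Module.finrank_eq_card_basis b']⟩

omit [IsAdicComplete (IsLocalRing.maximalIdeal O) O] [Finite Δ] in
include hθ hχ hδ hell in
/-- Congruent base characters: the same module modulo the maximal ideal of `O`, compatibly with
the Hecke action and the diamonds. -/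
theorem exists_gammaHChar_congr [IsNoetherianRing (DiamondRing O Δ)] (χ' : (ZMod M)ˣ →* Oˣ)
    (hχ' : χ' (-1) = 1) (hcongr : ∀ d, (χ d : O) - χ' d ∈ IsLocalRing.maximalIdeal O) :
    ∃ e : (GammaHCharMod O χ δ Pr θ ⧸
          (IsLocalRing.maximalIdeal O).map (algebraMap O (DiamondRing O Δ)) •
            (⊤ : Submodule (DiamondRing O Δ) (GammaHCharMod O χ δ Pr θ))) ≃ₗ[DiamondRing O Δ]
        (GammaHCharMod O χ' δ Pr θ ⧸
          (IsLocalRing.maximalIdeal O).map (algebraMap O (DiamondRing O Δ)) •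
            (⊤ : Submodule (DiamondRing O Δ) (GammaHCharMod O χ' δ Pr θ))),
      ∀ (P : BettiHeckeAlg (DiamondRing O Δ)) (x : GammaHCharMod O χ δ Pr θ)
        (y : GammaHCharMod O χ' δ Pr θ),
        e (Submodule.Quotient.mk x) = Submodule.Quotient.mk y →
          e (Submodule.Quotient.mk (P • x)) = Submodule.Quotient.mk (P • y) := by
  refine exists_bettiResCongr (charDiamond_neg_one O χ δ hχ hδ)
    (charDiamond_neg_one O χ' δ hχ' hδ) (ellipticHarmless_diamond O Pr θ hell) _ (fun r hr => ?_)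
    fun d => ?_
  · rw [gammaHTheta_C]
    refine hθ _ ((Ideal.map_le_iff_le_comap.2 (fun a ha => ?_) :
      (IsLocalRing.maximalIdeal O).map (algebraMap O (DiamondRing O Δ)) ≤
        (IsLocalRing.maximalIdeal O).comap (diamondAug O Δ).toRingHom) hr)
    rw [Ideal.mem_comap]
    show diamondAug O Δ (algebraMap O (DiamondRing O Δ) a) ∈ IsLocalRing.maximalIdeal O
    rw [AlgHom.commutes]
    exact ha
  · rw [coe_charDiamond, coe_charDiamond, ← sub_mul, ← map_sub]
    exact Ideal.mul_mem_right _ _ (Ideal.mem_map_of_mem _ (hcongr d))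

section level

variable {L : ℕ} [NeZero L] (χ₀ : (ZMod L)ˣ →* Oˣ) (hLM : L ∣ M)
  (hsurj : Function.Surjective (θ.comp C))
  (Q : Finset Nat.Primes) (hM : M = L * ∏ q ∈ Q, (q : ℕ)) (hQ : ∀ q ∈ Q, ¬ (q : ℕ) ∣ L)
  (hQPr : ∀ q ∈ Q, q ∈ Pr) (α : Nat.Primes → k)
  (hroot : ∀ (q : Nat.Primes) (h : q ∈ Q), α q ^ 2 - θ (X q) * α q +
    θ (C (((q : ℕ) : O) * (χ₀ (levelUnit (hQ q h)) : O))) = 0)
  (hα0 : ∀ q ∈ Q, α q ≠ 0) (hsimple : ∀ q ∈ Q, 2 * α q ≠ θ (X q))
  (hnew : ∀ (q : Nat.Primes) (h : q ∈ Q), α q ^ 2 ≠ θ (C (χ₀ (levelUnit (hQ q h)) : O)))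
  (hχ₀ : χ₀ (-1) = 1) (hellM : EllipticHarmless M Pr (residualRaiseSet θ Q α))

omit χ hχ hell in
include hθ hsurj hM hQPr hroot hα0 hsimple hnew hχ₀ hδ hellM in
/-- **The map to the base level**: onto, semilinear, with kernel the augmentation; the module is
free over `O[Δ]` of the rank of the base level. -/
theorem exists_gammaHChar_levelMap :
    ∃ (φ : BettiHeckeAlg O →ₐ[O] BettiHeckeAlg O)
      (g : GammaHCharMod O (χ₀.comp (ZMod.unitsMap hLM)) δ Pr (residualRaiseSet θ Q α) →+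
        BettiResLoc χ₀ Pr θ),
      (∀ P ∈ supported O Pr, φ P ∈ supported O Pr) ∧ (∀ l, l ∉ Q → φ (X l) = X l) ∧
      (∀ P, θ (φ P) = residualRaiseSet θ Q α P) ∧ Function.Surjective g ∧
      (∀ P x, g (P • x) =
        φ (MvPolynomial.map (algebraMap (DiamondRing O Δ) O) P) • g x) ∧
      (∀ a x, g (a • x) = diamondAug O Δ a • g x) ∧
      (∀ x, g x = 0 ↔ x ∈ RingHom.ker (algebraMap (DiamondRing O Δ) O) •
        (⊤ : Submodule (DiamondRing O Δ)
          (GammaHCharMod O (χ₀.comp (ZMod.unitsMap hLM)) δ Pr (residualRaiseSet θ Q α)))) ∧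
      ∀ (p : ℕ) [Fact p.Prime], (p : O) ∈ IsLocalRing.maximalIdeal O → IsPGroup p Δ →
        ∀ l : Nat.Primes, l ∈ Pr → l ∉ Q → θ (X l) ≠ θ (C (heckeDegree
          (χ₀.comp (ZMod.unitsMap hLM)) l)) →
        Module.Free (DiamondRing O Δ)
            (GammaHCharMod O (χ₀.comp (ZMod.unitsMap hLM)) δ Pr (residualRaiseSet θ Q α)) ∧
          Module.Finite (DiamondRing O Δ)
            (GammaHCharMod O (χ₀.comp (ZMod.unitsMap hLM)) δ Pr (residualRaiseSet θ Q α)) ∧
          Module.Free O (BettiResLoc χ₀ Pr θ) ∧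
          Module.finrank (DiamondRing O Δ)
              (GammaHCharMod O (χ₀.comp (ZMod.unitsMap hLM)) δ Pr (residualRaiseSet θ Q α)) =
            Module.finrank O (BettiResLoc χ₀ Pr θ) := by
  obtain ⟨φ, e, h1, h2, h3, h4⟩ := exists_bettiLevelEquiv_finset (V := O) (χ := χ₀) Q M hM hLM
    hQ Pr hQPr θ hθ hsurj α hroot hα0 hsimple hnew
  have hχM : χ₀.comp (ZMod.unitsMap hLM) (-1) = 1 := by
    rw [MonoidHom.comp_apply, show ZMod.unitsMap hLM (-1) = -1 from Units.ext (by
      simp [ZMod.unitsMap_def]), hχ₀]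
  refine ⟨φ, e.symm.toAddMonoidHom.comp (gammaHCharCoinv O _ δ Pr _), h1, h2, h3,
    e.symm.surjective.comp (gammaHCharCoinv_surjective O _ δ Pr _ hχM hδ hellM), fun P x => ?_,
    fun a x => ?_, fun x => ?_, fun p _ hp hΔ l hl hlQ hne => ?_⟩
  · show e.symm (gammaHCharCoinv O _ δ Pr _ (P • x)) = _ • e.symm (gammaHCharCoinv O _ δ Pr _ x)
    refine e.injective ?_
    rw [h4, LinearEquiv.apply_symm_apply, LinearEquiv.apply_symm_apply, gammaHCharCoinv_hecke_smul]
  · show e.symm (gammaHCharCoinv O _ δ Pr _ (a • x)) = _ • e.symm (gammaHCharCoinv O _ δ Pr _ x)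
    rw [gammaHCharCoinv_smul, map_smul]
  · rw [← gammaHCharCoinv_eq_zero_iff O _ δ Pr _ hχM hδ hellM x]
    show e.symm _ = 0 ↔ _
    exact e.symm.map_eq_zero_iff
  · obtain ⟨hfree, hfin, hbase, hrank⟩ := gammaHCharMod_free O (χ₀.comp (ZMod.unitsMap hLM)) δ Pr
      (residualRaiseSet θ Q α) (fun a ha => by rw [residualRaiseSet_C]; exact hθ a ha) hχM hδ
      hellM hp hΔ l hl (by rwa [residualRaiseSet_X_of_notMem _ _ hlQ, residualRaiseSet_C])
    exact ⟨hfree, hfin, Module.Free.of_equiv e.symm, hrank.trans e.finrank_eq.symm⟩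

end level

end FermatLib.MLT

end
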