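import Fermat.Agent.MLT.Hecke.IharaKernel
import Fermat.Agent.MLT.BettiInert
import Fermat.Agent.Modular.HeckeParabolic
import Fermat.Agent.Modular.SL2Conj

/-!
# Classes become cuspidal away from the Eisenstein ideal

A homomorphism on `Γ₀(L) / ±1`, multiplied by `T l - (l + 1)` with `l ≡ 1` modulo `L` and, if
needed, by an inert operator, kills every parabolic and every elliptic element.
-/

set_option autoImplicit false

noncomputable section

open scoped MatrixGroups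
open CongruenceSubgroup MvPolynomial

local notation "M2Z" => Matrix (Fin 2) (Fin 2) ℤ

namespace FermatLib.MLT

variable {A : Type} [CommRing A] {L : ℕ} {χ : (ZMod L)ˣ →* Aˣ}
  {V : Type} [AddCommGroup V] [Module A V]

theorem coe_T_zpow' (n : ℤ) : ((ModularGroup.T ^ n : SL(2, ℤ)) : M2Z) = !![1, n; 0, 1] :=
  ModularGroup.coe_T_zpow n

/-- The representatives used at a parabolic element fixing infinity. -/
def cuspRep (L l : ℕ) : Option (Fin l) → M2Z
  | some j => !![1, (L : ℤ) * j; 0, (l : ℤ)]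
  | none => !![(l : ℤ), 0; 0, 1]

theorem det_cuspRep (L l : ℕ) (x : Option (Fin l)) : (cuspRep L l x).det = l := by
  cases x <;> simp [cuspRep, Matrix.det_fin_two_of]

theorem cast_cuspRep {L l : ℕ} (hl : (l : ZMod L) = 1) (x : Option (Fin l)) :
    (cuspRep L l x).map (Int.cast : ℤ → ZMod L) = 1 := by
  ext i j
  cases x <;> fin_cases i <;> fin_cases j <;> simp [cuspRep, hl]

theorem cuspRep_eq_of_mul_eq {L : ℕ} (l : Nat.Primes) (hlL : ¬ (l : ℕ) ∣ L) (h : SL(2, ℤ))
    (x y : Option (Fin (l : ℕ))) (e : (h : M2Z) * cuspRep L l x = cuspRep L l y) : x = y := by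
  have e' : ∀ i j, ((h : M2Z) * cuspRep L l x) i j = cuspRep L l y i j := fun i j => by rw [e]
  have e00 := e' 0 0
  have e01 := e' 0 1
  have e10 := e' 1 0
  have e11 := e' 1 1
  have hl1 : ¬ ((l : ℕ) : ℤ) ∣ 1 := fun h1 =>
    l.2.not_dvd_one (Int.natCast_dvd_natCast.1 (by exact_mod_cast h1))
  have hl0 : ((l : ℕ) : ℤ) ≠ 0 := by exact_mod_cast l.2.ne_zero
  rcases x with _ | i <;> rcases y with _ | j
  · rfl
  · simp [cuspRep, Matrix.mul_apply, Fin.sum_univ_two] at e00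
    exact absurd (e00 ▸ dvd_mul_left _ _) hl1
  · simp [cuspRep, Matrix.mul_apply, Fin.sum_univ_two] at e10 e11
    rw [e10, zero_mul, zero_add] at e11
    exact absurd (e11 ▸ dvd_mul_left _ _) hl1
  · simp [cuspRep, Matrix.mul_apply, Fin.sum_univ_two] at e00 e01
    rw [e00, one_mul] at e01
    have hd : ((l : ℕ) : ℤ) ∣ (L : ℤ) * ((j : ℤ) - i) := ⟨(h : SL(2, ℤ)) 0 1, by
      linear_combination -e01⟩
    have hd' := ((Nat.prime_iff_prime_int.1 l.2).dvd_or_dvd hd).resolve_left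
      (fun h' => hlL (Int.natCast_dvd_natCast.1 h'))
    have := i.isLt
    have := j.isLt
    have : (j : ℤ) - i = 0 :=
      Int.eq_zero_of_abs_lt_dvd hd' (by rw [abs_lt]; constructor <;> omega)
    exact congrArg some (Fin.ext (by omega))

/-- For `l ≡ 1 (mod L)` a parabolic element sees `T l` as `l + 1`. -/
theorem heckeHomOp_parabolic (l : Nat.Primes) (hl : ((l : ℕ) : ZMod L) = 1)
    (hlL : ¬ (l : ℕ) ∣ L) {φ : Additive (Gamma0 L) →+ V}
    (hneg : ∀ γ : Gamma0 L, (γ : SL(2, ℤ)) = -1 → φ (Additive.ofMul γ) = 0) (γ : Gamma0 L)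
    (hγ : Matrix.trace ((γ : SL(2, ℤ)) : Matrix (Fin 2) (Fin 2) ℤ) ^ 2 = 4) :
    Modular.heckeHomOp L A V l φ (Additive.ofMul γ) = ((l : ℕ) + 1) • φ (Additive.ofMul γ) := by
  classical
  have hnegmul : ∀ a b : Gamma0 L, (a : SL(2, ℤ)) = -(b : SL(2, ℤ)) →
      φ (Additive.ofMul a) = φ (Additive.ofMul b) := fun a b hab => by
    have h1 : ((a * b⁻¹ : Gamma0 L) : SL(2, ℤ)) = -1 := by
      rw [Subgroup.coe_mul, Subgroup.coe_inv, hab, neg_mul, mul_inv_cancel]
    have h2 := hneg _ h1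
    rwa [ofMul_mul, ofMul_inv, map_add, map_neg, add_neg_eq_zero] at h2
  obtain ⟨g, n, hg⟩ := Modular.exists_eq_conj_of_trace_sq_eq_four hγ
  have hn : g * ModularGroup.T ^ n * g⁻¹ ∈ Gamma0 L := by
    rcases hg with h | h
    · exact h ▸ γ.2
    · exact neg_mem_Gamma0 (h ▸ γ.2)
  suffices main : Modular.heckeHomOp L A V l φ (Additive.ofMul ⟨_, hn⟩) =
      ((l : ℕ) + 1) • φ (Additive.ofMul ⟨_, hn⟩) by
    rcases hg with h | h
    · rwa [show γ = ⟨_, hn⟩ from Subtype.ext h]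
    · have hT : ∀ a b : Gamma0 L, (a : SL(2, ℤ)) = -(b : SL(2, ℤ)) →
          Modular.heckeHomOp L A V l φ (Additive.ofMul a) =
            Modular.heckeHomOp L A V l φ (Additive.ofMul b) := fun a b hab => by
        rw [Modular.heckeHomOp_apply, Modular.heckeHomOp_apply]
        refine Finset.sum_congr rfl fun x _ => ?_
        have e1 := (Modular.heckeSystem L l).rep_mul b x
        have e2 : (bettiHeckeSystem L l).rep x * ((a : SL(2, ℤ)) : M2Z) =
            ((-((Modular.heckeSystem L l).elt b x : SL(2, ℤ)) : SL(2, ℤ)) : M2Z) *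
              (bettiHeckeSystem L l).rep ((Modular.heckeSystem L l).next b x) := by
          rw [hab, Matrix.SpecialLinearGroup.coe_neg, Matrix.SpecialLinearGroup.coe_neg,
            Matrix.mul_neg, Matrix.neg_mul]
          exact congrArg Neg.neg e1
        have h3 := ((bettiHeckeSystem L l).next_elt_coe_eq_of_eq
          (.inr (by rw [neg_neg]; exact ((Modular.heckeSystem L l).elt b x).2)) e2).2
        have h4 : (Modular.heckeSystem L l).elt a x = (bettiHeckeSystem L l).elt a x :=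
          (((bettiHeckeSystem L l).next_elt_eq_of_eq
            ((Modular.heckeSystem L l).rep_mul a x)).2).symm
        exact hnegmul _ _ (by rw [h4, h3])
      rw [hT γ ⟨_, hn⟩ h, main, hnegmul γ ⟨_, hn⟩ h]
  -- integral translations along the cusp
  set gu : M2Z := (g : M2Z)
  set gi : M2Z := ((g⁻¹ : SL(2, ℤ)) : M2Z)
  have hgi : gu * gi = 1 := by
    rw [← Matrix.SpecialLinearGroup.coe_mul, mul_inv_cancel, Matrix.SpecialLinearGroup.coe_one]
  have hig : gi * gu = 1 := by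
    rw [← Matrix.SpecialLinearGroup.coe_mul, inv_mul_cancel, Matrix.SpecialLinearGroup.coe_one]
  let H : AddSubgroup ℤ :=
    { carrier := {m | g * ModularGroup.T ^ m * g⁻¹ ∈ Gamma0 L}
      zero_mem' := by
        show g * ModularGroup.T ^ (0 : ℤ) * g⁻¹ ∈ Gamma0 L
        rw [zpow_zero, mul_one, mul_inv_cancel]
        exact one_mem _
      add_mem' := fun {a b} ha hb => by
        have := mul_mem (show _ ∈ Gamma0 L from ha) (show _ ∈ Gamma0 L from hb)
        simp only [Set.mem_ofPred_eq, zpow_add]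
        convert this using 1
        group
      neg_mem' := fun {a} ha => by
        have := inv_mem (show _ ∈ Gamma0 L from ha)
        simp only [Set.mem_ofPred_eq, zpow_neg]
        convert this using 1
        group }
  let P : H →+ V :=
    { toFun := fun m => φ (Additive.ofMul ⟨g * ModularGroup.T ^ (m : ℤ) * g⁻¹, m.2⟩)
      map_zero' := by
        rw [← map_zero φ]
        exact congrArg φ (congrArg Additive.ofMul (Subtype.ext (by simp)))
      map_add' := fun a b => by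
        rw [← map_add, ← ofMul_mul]
        refine congrArg φ (congrArg Additive.ofMul (Subtype.ext ?_))
        simp only [AddSubgroup.coe_add, zpow_add, Subgroup.coe_mul]
        group }
  have hH : ∀ m : ℤ, (m : ZMod L) = (n : ZMod L) → m ∈ H := fun m hm => by
    obtain ⟨k, hk⟩ := (ZMod.intCast_eq_intCast_iff_dvd_sub n m L).1 hm.symm
    have hTL : g * ModularGroup.T ^ ((L : ℤ) * k) * g⁻¹ ∈ Gamma0 L := by
      refine (fun x hx => Gamma0_mem.2 (Gamma_mem.1 hx).2.2.1 : ∀ x, x ∈ Gamma L → x ∈ Gamma0 L) _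
        ((Gamma_normal L).conj_mem _ ?_ g)
      simp [Gamma_mem, coe_T_zpow']
    show g * ModularGroup.T ^ m * g⁻¹ ∈ Gamma0 L
    rw [show m = n + (L : ℤ) * k by omega, zpow_add]
    convert mul_mem hn hTL using 1
    group
  -- the conjugated representatives
  have hex : ∀ x : Option (Fin (l : ℕ)), ∃ (y : Modular.HeckeIdx L l) (u : Gamma0 L),
      gu * cuspRep L l x * gi = ((u : SL(2, ℤ)) : M2Z) * Modular.heckeRepInt l y.1 := fun x => by
    refine Modular.exists_eq_mul_rep l.2 _ ?_ ?_ fun h => absurd h hlL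
    · rw [Matrix.det_mul, Matrix.det_mul, det_cuspRep, Matrix.SpecialLinearGroup.det_coe,
        Matrix.SpecialLinearGroup.det_coe, one_mul, mul_one]
    · rw [← ZMod.intCast_zmod_eq_zero_iff_dvd]
      have h1 : (gu * cuspRep L l x * gi).map (Int.castRingHom (ZMod L)) = 1 := by
        rw [Matrix.map_mul, Matrix.map_mul]
        show gu.map _ * (cuspRep L l x).map (Int.cast : ℤ → ZMod L) * gi.map _ = 1
        rw [cast_cuspRep hl, mul_one, ← Matrix.map_mul, hgi]
        exact Matrix.map_one _ (map_zero _) (map_one _)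
      exact congrFun (congrFun h1 1) 0
  choose π u hu using hex
  have hbij : Function.Bijective π := by
    refine (Fintype.bijective_iff_injective_and_card π).2 ⟨fun x y hxy => ?_, ?_⟩
    · refine cuspRep_eq_of_mul_eq l hlL (g⁻¹ * ((u y * (u x)⁻¹ : Gamma0 L) : SL(2, ℤ)) * g) x y ?_
      have h1 := congrArg (fun M => gi * M * gu) (hu y)
      simp only [← Matrix.mul_assoc, hig, one_mul] at h1
      rw [Matrix.mul_assoc, hig, mul_one] at h1
      rw [h1, ← hxy]
      have h2 := congrArg (fun M => (((u x)⁻¹ : Gamma0 L) : SL(2, ℤ)) * (M * gu) ) (hu x)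
      simp only [Matrix.mul_assoc, hig, mul_one] at h2
      simp only [Matrix.SpecialLinearGroup.coe_mul, Subgroup.coe_mul, Matrix.mul_assoc]
      rw [h2]
      simp only [← Matrix.mul_assoc, ← Matrix.SpecialLinearGroup.coe_mul, ← Subgroup.coe_mul]
      simp [mul_assoc, gi]
    · rw [Fintype.card_congr (Equiv.subtypeUnivEquiv fun x _ => hlL)]
  -- the translation at each representative
  have hstep : ∀ x : Option (Fin (l : ℕ)), ∃ (y : Option (Fin (l : ℕ))) (m : H),
      cuspRep L l x * !![1, n; 0, 1] = !![1, (m : ℤ); 0, 1] * cuspRep L l y ∧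
      (x = none → y = none ∧ (m : ℤ) = (l : ℕ) * n) ∧
      (∀ j, x = some j → ∃ j', y = some j' ∧
        ((l : ℕ) : ℤ) * (m : ℤ) = n + (L : ℤ) * j - (L : ℤ) * j') := by
    intro x
    have : Fact (l : ℕ).Prime := ⟨l.2⟩
    rcases x with _ | j
    · refine ⟨none, ⟨(l : ℕ) * n, hH _ (by push_cast; rw [hl, one_mul])⟩, ?_, fun _ => ⟨rfl, rfl⟩,
        fun j hj => (Option.some_ne_none j hj.symm).elim⟩
      ext a b
      fin_cases a <;> fin_cases b <;> simp [cuspRep, Matrix.mul_apply, Fin.sum_univ_two]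
    · have hL0 : ((L : ℤ) : ZMod (l : ℕ)) ≠ 0 := by
        rw [Ne, Int.cast_natCast, ZMod.natCast_eq_zero_iff]
        exact hlL
      set j' : Fin (l : ℕ) :=
        ⟨(((n + (L : ℤ) * j : ℤ) : ZMod (l : ℕ)) / ((L : ℤ) : ZMod (l : ℕ))).val, ZMod.val_lt _⟩
      obtain ⟨m, hm⟩ : ((l : ℕ) : ℤ) ∣ n + (L : ℤ) * j - (L : ℤ) * j' := by
        rw [← ZMod.intCast_zmod_eq_zero_iff_dvd, Int.cast_sub, Int.cast_mul (L : ℤ) (j' : ℤ),
          Int.cast_natCast (j' : ℕ), show ((j' : ℕ) : ZMod (l : ℕ)) = _ from ZMod.natCast_zmod_val _,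
          mul_div_cancel₀ _ hL0, sub_self]
      refine ⟨some j', ⟨m, hH _ ?_⟩, ?_, fun h => (Option.some_ne_none j h).elim,
        fun i hi => ⟨j', rfl, ?_⟩⟩
      · have := congrArg (Int.cast : ℤ → ZMod L) hm
        push_cast at this
        rw [ZMod.natCast_self, zero_mul, zero_mul, add_zero, sub_zero, hl, one_mul] at this
        exact this.symm
      · ext a b
        fin_cases a <;> fin_cases b <;> simp [cuspRep, Matrix.mul_apply, Fin.sum_univ_two]
        linear_combination hm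
      · cases hi
        exact hm.symm
  choose σ m hσ hnone hsome using hstep
  have helt : ∀ x, (π (σ x) = (Modular.heckeSystem L l).next ⟨_, hn⟩ (π x)) ∧
      (Modular.heckeSystem L l).elt ⟨_, hn⟩ (π x) =
        (u x)⁻¹ * ⟨g * ModularGroup.T ^ (m x : ℤ) * g⁻¹, (m x).2⟩ * u (σ x) := by
    intro x
    refine (((Modular.heckeSystem L l).next_elt_eq_of_eq (j := π (σ x)) ?_)).imp Eq.symm id
    have e1 : ((u x : SL(2, ℤ)) : M2Z) * (Modular.heckeRepInt l (π x).1 *
        ((g * ModularGroup.T ^ n * g⁻¹ : SL(2, ℤ)) : M2Z)) =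
        ((g * ModularGroup.T ^ (m x : ℤ) * g⁻¹ : SL(2, ℤ)) : M2Z) *
          (((u (σ x) : SL(2, ℤ)) : M2Z) * Modular.heckeRepInt l (π (σ x)).1) := by
      rw [← Matrix.mul_assoc, ← hu x, ← hu (σ x)]
      simp only [Matrix.SpecialLinearGroup.coe_mul, coe_T_zpow']
      show gu * cuspRep L l x * gi * (gu * !![1, n; 0, 1] * gi) =
        gu * !![1, (m x : ℤ); 0, 1] * gi * (gu * cuspRep L l (σ x) * gi)
      rw [show gu * cuspRep L l x * gi * (gu * !![1, n; 0, 1] * gi) =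
          gu * (cuspRep L l x * (gi * gu) * !![1, n; 0, 1]) * gi by simp only [Matrix.mul_assoc],
        show gu * !![1, (m x : ℤ); 0, 1] * gi * (gu * cuspRep L l (σ x) * gi) =
          gu * (!![1, (m x : ℤ); 0, 1] * (gi * gu) * cuspRep L l (σ x)) * gi by
            simp only [Matrix.mul_assoc],
        hig, mul_one, mul_one, hσ x]
    show Modular.heckeRepInt l (π x).1 * _ = _
    calc Modular.heckeRepInt l (π x).1 * ((g * ModularGroup.T ^ n * g⁻¹ : SL(2, ℤ)) : M2Z)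
        = ((((u x)⁻¹ : Gamma0 L) : SL(2, ℤ)) : M2Z) * (((u x : SL(2, ℤ)) : M2Z) *
            (Modular.heckeRepInt l (π x).1 *
              ((g * ModularGroup.T ^ n * g⁻¹ : SL(2, ℤ)) : M2Z))) := by
          rw [← Matrix.mul_assoc, ← Matrix.SpecialLinearGroup.coe_mul, ← Subgroup.coe_mul,
            inv_mul_cancel, Subgroup.coe_one, Matrix.SpecialLinearGroup.coe_one, one_mul]
      _ = _ := by
          rw [e1]
          simp only [Subgroup.coe_mul, Matrix.SpecialLinearGroup.coe_mul, Matrix.mul_assoc,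
            Modular.heckeSystem_rep]
  have hσbij : Function.Bijective σ := by
    refine Finite.injective_iff_bijective.1 fun x y hxy => hbij.1 ?_
    refine ((Modular.heckeSystem L l).next_bijective ⟨_, hn⟩).1 ?_
    rw [← (helt x).1, ← (helt y).1, hxy]
  rw [Modular.heckeHomOp_apply, ← hbij.sum_comp (fun y => φ (Additive.ofMul _))]
  simp only [fun x => (helt x).2, ofMul_mul, ofMul_inv, map_add, map_neg, Finset.sum_add_distrib,
    Finset.sum_neg_distrib]
  rw [hσbij.sum_comp (fun x => φ (Additive.ofMul (u x))), neg_add_cancel_comm]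
  show ∑ x, P (m x) = ((l : ℕ) + 1) • P ⟨n, hn⟩
  rw [← map_sum, ← map_nsmul]
  refine congrArg P (Subtype.ext ?_)
  rw [AddSubgroup.val_finsetSum, AddSubgroup.coe_nsmul, Fintype.sum_option, (hnone none rfl).2]
  choose τ hτ hτm using fun j => hsome (some j) j rfl
  have hτbij : Function.Bijective τ := by
    refine Finite.injective_iff_bijective.1 fun i j hij => Option.some_injective _ (hσbij.1 ?_)
    rw [hτ, hτ, hij]
  have hsum : ((l : ℕ) : ℤ) * ∑ j, (m (some j) : ℤ) = ((l : ℕ) : ℤ) * n := by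
    rw [Finset.mul_sum, Finset.sum_congr rfl fun j _ => hτm j, Finset.sum_sub_distrib,
      Finset.sum_add_distrib, Finset.sum_const, Finset.card_univ, Fintype.card_fin,
      hτbij.sum_comp (fun j => (L : ℤ) * ((j : ℕ) : ℤ)), add_sub_cancel_right, nsmul_eq_mul]
  rw [mul_left_cancel₀ (by exact_mod_cast l.2.ne_zero) hsum]
  simp only [nsmul_eq_mul, Nat.cast_add, Nat.cast_one]
  ring

theorem pow_three_of_trace {γ : SL(2, ℤ)} {t : ℤ} (h : Matrix.trace (γ : M2Z) = t)
    (ht : t = 1 ∨ t = -1) : γ ^ 3 = 1 ∨ γ ^ 3 = -1 := by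
  rw [cube_eq_of_trace_eq_one ht h]
  split_ifs <;> simp

theorem pow_eq_one_or_neg_one {γ : SL(2, ℤ)} (h : γ = 1 ∨ γ = -1) (k : ℕ) :
    γ ^ k = 1 ∨ γ ^ k = -1 := by
  rcases h with rfl | rfl
  · exact Or.inl (one_pow k)
  · rcases neg_one_pow_eq_or (SL(2, ℤ)) k with h | h
    · exact Or.inl h
    · exact Or.inr h

theorem trace_pow_of_trace_eq_zero {γ : SL(2, ℤ)} (h : Matrix.trace (γ : M2Z) = 0) (k : ℕ) :
    (γ ^ k = 1 ∨ γ ^ k = -1) ∨ Matrix.trace ((γ ^ k : SL(2, ℤ)) : M2Z) = 0 := by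
  have hk : γ ^ k = (γ ^ 2) ^ (k / 2) * γ ^ (k % 2) := by
    rw [← pow_mul, ← pow_add, Nat.div_add_mod]
  rcases pow_eq_one_or_neg_one (Or.inr (sq_eq_neg_one_of_trace_eq_zero h)) (k / 2) with e | e <;>
    rcases Nat.mod_two_eq_zero_or_one k with m | m <;>
    rw [hk, e, m]
  · left; left; simp
  · right; simpa using h
  · left; right; simp
  · right; simp [h]

theorem trace_pow_of_trace_one {γ : SL(2, ℤ)}
    (h : Matrix.trace (γ : M2Z) = 1 ∨ Matrix.trace (γ : M2Z) = -1) (k : ℕ) :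
    (γ ^ k = 1 ∨ γ ^ k = -1) ∨ (Matrix.trace ((γ ^ k : SL(2, ℤ)) : M2Z) = 1 ∨
      Matrix.trace ((γ ^ k : SL(2, ℤ)) : M2Z) = -1) := by
  obtain ⟨t, ht, ht'⟩ : ∃ t, Matrix.trace (γ : M2Z) = t ∧ (t = 1 ∨ t = -1) := ⟨_, rfl, h⟩
  have hk : γ ^ k = (γ ^ 3) ^ (k / 3) * γ ^ (k % 3) := by
    rw [← pow_mul, ← pow_add, Nat.div_add_mod]
  have h2 : Matrix.trace ((γ ^ 2 : SL(2, ℤ)) : M2Z) = t * t - 2 := by
    simpa [ht] using Modular.trace_pow_succ_succ γ 0
  rcases pow_eq_one_or_neg_one (pow_three_of_trace ht ht') (k / 3) with e | e <;>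
    obtain m | m | m : k % 3 = 0 ∨ k % 3 = 1 ∨ k % 3 = 2 := by omega
  all_goals rw [hk, e, m]
  · left; left; simp
  · right; simpa using h
  · right; rw [one_mul, h2]; rcases ht' with rfl | rfl <;> norm_num
  · left; right; simp
  · right; simpa [neg_eq_iff_eq_neg, or_comm] using h
  · right; rw [neg_one_mul, Matrix.SpecialLinearGroup.coe_neg, Matrix.trace_neg, h2]
    rcases ht' with rfl | rfl <;> norm_num

/-- An inert operator kills the values at an elliptic element. -/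
theorem heckeHomOp_elliptic (l : Nat.Primes) {φ : Additive (Gamma0 L) →+ V}
    (hneg : ∀ γ : Gamma0 L, (γ : SL(2, ℤ)) = -1 → φ (Additive.ofMul γ) = 0) (γ : Gamma0 L)
    (h : ((l : ℕ) % 4 = 3 ∧ Matrix.trace ((γ : SL(2, ℤ)) : M2Z) = 0) ∨
      ((l : ℕ) % 3 = 2 ∧ (Matrix.trace ((γ : SL(2, ℤ)) : M2Z) = 1 ∨
        Matrix.trace ((γ : SL(2, ℤ)) : M2Z) = -1))) :
    Modular.heckeHomOp L A V l φ (Additive.ofMul γ) = 0 := by
  refine (Modular.heckeSystem L l).op_apply_eq_zero A φ γ fun i k _ hi => ?_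
  have hpm : ((γ : SL(2, ℤ)) ^ k = 1 ∨ (γ : SL(2, ℤ)) ^ k = -1) := by
    rcases h with ⟨hl, ht⟩ | ⟨hl, ht⟩
    · refine (trace_pow_of_trace_eq_zero ht k).resolve_right fun h' => ?_
      exact heckeSystem_next_ne_of_trace_zero l hl (γ ^ k) (by rwa [Subgroup.coe_pow]) i hi
    · refine (trace_pow_of_trace_one ht k).resolve_right fun h' => ?_
      exact heckeSystem_next_ne_of_trace_one l hl (γ ^ k) (by rwa [Subgroup.coe_pow]) i hi
  rcases hpm with e | e
  · rw [show γ ^ k = 1 from Subtype.ext (by rw [Subgroup.coe_pow, e]; rfl),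
      (Modular.heckeSystem L l).elt_one, ofMul_one, map_zero]
  · refine hneg _ ?_
    rw [← ((bettiHeckeSystem L l).next_elt_eq_of_eq
      ((Modular.heckeSystem L l).rep_mul (γ ^ k) i)).2]
    exact ((bettiHeckeSystem L l).next_neg_one (by rw [Subgroup.coe_pow, e]) i).2

theorem cocycle_eq_zero_of_noEllipticTwo (h : NoEllipticTwo A L)
    (hV : ∀ u v, (χ u : A) • (v : V) = v) (c : bettiCocycles (Gamma0 L) (nebenChar χ) V)
    (γ : Gamma0 L) (ht : Matrix.trace ((γ : SL(2, ℤ)) : M2Z) = 0) :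
    (c : Gamma0 L → V) γ = 0 := by
  refine h.elim (fun hu => hu.smul_left_cancel.1 ?_) (fun h => absurd ht (h γ))
  rw [smul_zero, ← cocycleHom_apply hV c γ, show (2 : A) = ((2 : ℕ) : A) from Nat.cast_ofNat.symm,
    Nat.cast_smul_eq_nsmul, ← map_nsmul, ← ofMul_pow]
  exact bettiCocycles.map_neg_one c
    (by rw [toMul_ofMul, Subgroup.coe_pow, sq_eq_neg_one_of_trace_eq_zero ht])

theorem cocycle_eq_zero_of_noEllipticThree (h : NoEllipticThree A L)
    (hV : ∀ u v, (χ u : A) • (v : V) = v) (c : bettiCocycles (Gamma0 L) (nebenChar χ) V)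
    (γ : Gamma0 L) (ht : Matrix.trace ((γ : SL(2, ℤ)) : M2Z) = 1 ∨
      Matrix.trace ((γ : SL(2, ℤ)) : M2Z) = -1) :
    (c : Gamma0 L → V) γ = 0 := by
  refine h.elim (fun hu => hu.smul_left_cancel.1 ?_) (fun h => absurd ht (h γ))
  obtain ⟨t, ht₀, ht'⟩ : ∃ t, Matrix.trace ((γ : SL(2, ℤ)) : M2Z) = t ∧ (t = 1 ∨ t = -1) :=
    ⟨_, rfl, ht⟩
  rw [smul_zero, ← cocycleHom_apply hV c γ, show (3 : A) = ((3 : ℕ) : A) from Nat.cast_ofNat.symm,
    Nat.cast_smul_eq_nsmul, ← map_nsmul, ← ofMul_pow]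
  show (c : Gamma0 L → V) (γ ^ 3) = 0
  rcases pow_three_of_trace ht₀ ht' with e | e
  · rw [show γ ^ 3 = 1 from Subtype.ext (by rw [Subgroup.coe_pow, e]; rfl)]
    exact bettiCocycles.map_one c
  · exact bettiCocycles.map_neg_one c (by rw [Subgroup.coe_pow, e])

theorem exists_smul_cuspidal [NeZero L] (hV : ∀ u v, (χ u : A) • (v : V) = v)
    {k : Type} [Field k] {Pr : Set Nat.Primes} (θ : BettiHeckeAlg A →+* k)
    (hell : EllipticHarmless L Pr θ) {l : Nat.Primes} (hl : ((l : ℕ) : ZMod L) = 1)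
    (hlPr : l ∈ Pr) (hne : θ (X l) ≠ θ (C (((l : ℕ) : A) + 1)))
    (x : BettiMod L χ V) :
    ∃ s ∈ bettiResidualSubmonoid Pr θ, ∃ c, BettiMod.mk c = s • x ∧
      ∀ γ : Gamma0 L, Matrix.trace ((γ : SL(2, ℤ)) : M2Z) ^ 2 ≤ 4 →
        (c : Gamma0 L → V) γ = 0 := by
  obtain ⟨c₀, rfl⟩ := BettiMod.mk_surjective x
  set E : BettiHeckeAlg A := X l - C (((l : ℕ) : A) + 1)
  have hE : E ∈ bettiResidualSubmonoid Pr θ := ⟨Subalgebra.sub_mem _ (X_mem_supported_set hlPr)
    (C_mem_supported_set Pr _), by rwa [map_sub, sub_ne_zero]⟩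
  set c₁ := (bettiHeckeSystem L l).transferCocycles V (isWeight_heckeWeight χ l) c₀ -
    (((l : ℕ) : A) + 1) • c₀
  have hc₁ : BettiMod.mk c₁ = E • BettiMod.mk c₀ := by
    rw [map_sub, map_smul, sub_smul, BettiMod.X_smul_mk, ← MvPolynomial.algebraMap_eq,
      algebraMap_smul]
  have hpar₁ : ∀ γ : Gamma0 L, Matrix.trace ((γ : SL(2, ℤ)) : M2Z) ^ 2 = 4 →
      (c₁ : Gamma0 L → V) γ = 0 := fun γ hγ => by
    rw [Submodule.coe_sub, Pi.sub_apply, hecke_cocycle_apply_of_trivial hV, Submodule.coe_smul,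
      Pi.smul_apply, heckeHomOp_parabolic l hl (not_dvd_of_cast_eq_one l hl)
        (fun δ hδ => bettiCocycles.map_neg_one c₀ hδ) γ hγ,
      cocycleHom_apply, ← Nat.cast_smul_eq_nsmul A, Nat.cast_add, Nat.cast_one, sub_self]
  have htr : ∀ γ : Gamma0 L, Matrix.trace ((γ : SL(2, ℤ)) : M2Z) ^ 2 ≤ 4 →
      Matrix.trace ((γ : SL(2, ℤ)) : M2Z) ^ 2 = 4 ∨ Matrix.trace ((γ : SL(2, ℤ)) : M2Z) = 0 ∨
        (Matrix.trace ((γ : SL(2, ℤ)) : M2Z) = 1 ∨ Matrix.trace ((γ : SL(2, ℤ)) : M2Z) = -1) := by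
    intro γ hγ
    generalize Matrix.trace ((γ : SL(2, ℤ)) : M2Z) = t at hγ ⊢
    have h1 : -2 ≤ t := by nlinarith
    have h2 : t ≤ 2 := by nlinarith
    interval_cases t <;> simp
  have hop : ∀ (l₀ : Nat.Primes),
      BettiMod.mk ((bettiHeckeSystem L l₀).transferCocycles V (isWeight_heckeWeight χ l₀) c₁) =
        (X l₀ * E : BettiHeckeAlg A) • BettiMod.mk c₀ ∧
      ∀ γ : Gamma0 L, Matrix.trace ((γ : SL(2, ℤ)) : M2Z) ^ 2 = 4 →
        ((bettiHeckeSystem L l₀).transferCocycles V (isWeight_heckeWeight χ l₀) c₁ :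
          Gamma0 L → V) γ = 0 := fun l₀ => by
    refine ⟨by rw [mul_smul, ← hc₁, BettiMod.X_smul_mk], fun γ hγ => ?_⟩
    rw [hecke_cocycle_apply_of_trivial hV]
    refine (Modular.heckeSystem L l₀).op_apply_eq_zero A (cocycleHom hV c₁) γ fun i k _ hi => ?_
    refine hpar₁ _ ?_
    rw [toMul_ofMul, (Modular.heckeSystem L l₀).trace_elt hi, Subgroup.coe_pow]
    exact (Modular.trace_pow_sq _ hγ.le k).2 hγ
  rcases hell with ⟨h2, h3⟩ | ⟨h2, l₀, hl₀, hl3, hθ⟩ | ⟨h3, l₀, hl₀, hl4, hθ⟩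
  · refine ⟨E, hE, c₁, hc₁, fun γ hγ => ?_⟩
    rcases htr γ hγ with h | h | h
    · exact hpar₁ γ h
    · exact cocycle_eq_zero_of_noEllipticTwo h2 hV c₁ γ h
    · exact cocycle_eq_zero_of_noEllipticThree h3 hV c₁ γ h
  · refine ⟨X l₀ * E, Submonoid.mul_mem _ ⟨X_mem_supported_set hl₀, hθ⟩ hE, _, (hop l₀).1,
      fun γ hγ => ?_⟩
    rcases htr γ hγ with h | h | h
    · exact (hop l₀).2 γ h
    · exact cocycle_eq_zero_of_noEllipticTwo h2 hV _ γ h
    · rw [hecke_cocycle_apply_of_trivial hV]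
      exact heckeHomOp_elliptic l₀ (fun δ hδ => bettiCocycles.map_neg_one c₁ hδ) γ
        (Or.inr ⟨hl3, h⟩)
  · refine ⟨X l₀ * E, Submonoid.mul_mem _ ⟨X_mem_supported_set hl₀, hθ⟩ hE, _, (hop l₀).1,
      fun γ hγ => ?_⟩
    rcases htr γ hγ with h | h | h
    · exact (hop l₀).2 γ h
    · rw [hecke_cocycle_apply_of_trivial hV]
      exact heckeHomOp_elliptic l₀ (fun δ hδ => bettiCocycles.map_neg_one c₁ hδ) γ
        (Or.inl ⟨hl4, h⟩)
    · exact cocycle_eq_zero_of_noEllipticThree h3 hV _ γ h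

end FermatLib.MLT

end
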