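import Fermat.Agent.MLT.Hecke.IharaComm
import Fermat.Agent.Modular.Ihara.Hecke

/-!
# Ihara's lemma for Betti cohomology

For coefficients on which the nebentype acts trivially the kernel of the pair of degeneracy maps
is Eisenstein, hence vanishes after localisation.
-/

set_option autoImplicit false

noncomputable section

open scoped MatrixGroups
open CongruenceSubgroup MvPolynomial

namespace FermatLib.MLT

variable {A : Type} [CommRing A] {L : ℕ} {q : Nat.Primes} {χ : (ZMod L)ˣ →* Aˣ}
  {V : Type} [AddCommGroup V] [Module A V]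

section trivialAction

theorem nebenChar_smul_of_trivial (hV : ∀ u v, (χ u : A) • (v : V) = v) (γ : Gamma0 L) (v : V) :
    (nebenChar χ γ : A) • v = v :=
  hV _ v

/-- Under a trivial action a cocycle is a homomorphism. -/
def cocycleHom (hV : ∀ u v, (χ u : A) • (v : V) = v)
    (c : bettiCocycles (Gamma0 L) (nebenChar χ) V) : Additive (Gamma0 L) →+ V where
  toFun γ := (c : Gamma0 L → V) (Additive.toMul γ)
  map_zero' := bettiCocycles.map_one c
  map_add' γ δ := by
    rw [toMul_add, bettiCocycles.map_mul, nebenChar_smul_of_trivial hV]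

theorem cocycleHom_apply (hV : ∀ u v, (χ u : A) • (v : V) = v)
    (c : bettiCocycles (Gamma0 L) (nebenChar χ) V) (γ : Gamma0 L) :
    cocycleHom hV c (Additive.ofMul γ) = (c : Gamma0 L → V) γ := rfl

/-- A homomorphism killing `-1` is a cocycle. -/
def homCocycle (hV : ∀ u v, (χ u : A) • (v : V) = v) (φ : Additive (Gamma0 L) →+ V)
    (hneg : ∀ γ : Gamma0 L, (γ : SL(2, ℤ)) = -1 → φ (Additive.ofMul γ) = 0) :
    bettiCocycles (Gamma0 L) (nebenChar χ) V :=
  ⟨fun γ => φ (Additive.ofMul γ), fun γ δ => by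
    show φ (Additive.ofMul (γ * δ)) = φ (Additive.ofMul γ) + _ • φ (Additive.ofMul δ)
    rw [nebenChar_smul_of_trivial hV, ofMul_mul, map_add], hneg⟩

theorem mk_eq_zero_iff_of_trivial (hV : ∀ u v, (χ u : A) • (v : V) = v)
    {c : bettiCocycles (Gamma0 L) (nebenChar χ) V} :
    BettiMod.mk c = 0 ↔ ∀ γ, (c : Gamma0 L → V) γ = 0 := by
  rw [BettiMod.mk_eq_zero]
  constructor
  · rintro ⟨v, hv⟩ γ
    rw [← hv γ, nebenChar_smul_of_trivial hV, sub_self]
  · exact fun h => ⟨0, fun γ => by rw [smul_zero, sub_zero, h γ]⟩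

/-- Under a trivial action the transfer is the transfer of homomorphisms. -/
theorem hecke_cocycle_apply_of_trivial (hV : ∀ u v, (χ u : A) • (v : V) = v) (l : Nat.Primes)
    (c : bettiCocycles (Gamma0 L) (nebenChar χ) V) (γ : Gamma0 L) :
    ((bettiHeckeSystem L l).transferCocycles V (isWeight_heckeWeight χ l) c : Gamma0 L → V) γ =
      Modular.heckeHomOp L A V l (cocycleHom hV c) (Additive.ofMul γ) := by
  rw [CosetSystem.transferCocycles_apply, Modular.heckeHomOp_apply]
  refine Finset.sum_congr rfl fun x _ => ?_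
  rw [show heckeWeight χ l x = (χ (heckeUnit L l x) : A) from rfl, hV, cocycleHom_apply,
    ((bettiHeckeSystem L l).next_elt_eq_of_eq (h := (Modular.heckeSystem L l).elt γ x)
      ((Modular.heckeSystem L l).rep_mul γ x)).2]

/-- A Hecke eigenvalue for the homomorphism gives one for the class. -/
theorem sub_C_smul_eq_zero_of_hom (hV : ∀ u v, (χ u : A) • (v : V) = v) (l : Nat.Primes) (n : ℕ)
    (c : bettiCocycles (Gamma0 L) (nebenChar χ) V)
    (h : Modular.heckeHomOp L A V l (cocycleHom hV c) = n • cocycleHom hV c) :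
    (X l - C (n : A) : BettiHeckeAlg A) • BettiMod.mk c = 0 := by
  rw [sub_smul, BettiMod.X_smul_mk, ← MvPolynomial.algebraMap_eq, algebraMap_smul, ← map_smul,
    ← map_sub, mk_eq_zero_iff_of_trivial hV]
  intro γ
  rw [Submodule.coe_sub, Pi.sub_apply, hecke_cocycle_apply_of_trivial hV, h, Submodule.coe_smul,
    Pi.smul_apply, AddMonoidHom.smul_apply, cocycleHom_apply,
    Nat.cast_smul_eq_nsmul, sub_self]

end trivialAction

theorem not_dvd_of_cast_eq_one {N : ℕ} (l : Nat.Primes) (hl : ((l : ℕ) : ZMod N) = 1) :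
    ¬ (l : ℕ) ∣ N := fun h => by
  have h1 := congrArg (ZMod.castHom h (ZMod (l : ℕ))) hl
  rw [map_natCast, map_one, ZMod.natCast_self] at h1
  have : Fact (1 < (l : ℕ)) := ⟨l.2.one_lt⟩
  exact zero_ne_one h1

theorem cast_eq_one_of_iharaLevel {l : Nat.Primes}
    (hl : ((l : ℕ) : ZMod (Modular.Ihara.iharaLevel L q)) = 1) : ((l : ℕ) : ZMod L) = 1 := by
  have h := congrArg (ZMod.castHom (Modular.Ihara.dvd_iharaLevel L q) (ZMod L)) hl
  rwa [map_natCast, map_one] at h

theorem heckeDegree_of_cast_eq_one (l : Nat.Primes) (hl : ((l : ℕ) : ZMod L) = 1) :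
    heckeDegree χ l = ((l : ℕ) : A) + 1 := by
  have hlL := not_dvd_of_cast_eq_one l hl
  have h1 : ∀ x : Modular.HeckeIdx L l, heckeWeight χ l x = 1 := by
    rintro ⟨_ | b, hx⟩
    · rw [heckeWeight, show heckeUnit L l ⟨none, hx⟩ = 1 from Units.ext (by simp [heckeUnit, hl]),
        map_one, Units.val_one]
    · simp [heckeWeight, heckeUnit]
  rw [heckeDegree, Finset.sum_congr rfl fun x _ => h1 x, Finset.sum_const, Finset.card_univ,
    Fintype.card_congr (Equiv.subtypeUnivEquiv fun x _ => hlL), Fintype.card_option,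
    Fintype.card_fin, nsmul_one, Nat.cast_add, Nat.cast_one]

variable (L q) in
/-- `S` contains `T l - (l + 1)` for a prime `l ≡ 1` modulo the level of Ihara's lemma. -/
def IharaNonEisenstein (S : Submonoid (BettiHeckeAlg A)) : Prop :=
  ∃ l : Nat.Primes, ((l : ℕ) : ZMod (Modular.Ihara.iharaLevel L q)) = 1 ∧
    (X l - C (((l : ℕ) : A) + 1) : BettiHeckeAlg A) ∈ S

theorem iharaNonEisenstein_residual {k : Type} [Field k] {Pr : Set Nat.Primes}
    (θ : BettiHeckeAlg A →+* k) (l : Nat.Primes) (hl : l ∈ Pr)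
    (hl1 : ((l : ℕ) : ZMod (Modular.Ihara.iharaLevel L q)) = 1)
    (hne : θ (X l) ≠ θ (C (((l : ℕ) : A) + 1))) :
    IharaNonEisenstein L q (bettiResidualSubmonoid Pr θ) :=
  ⟨l, hl1, Subalgebra.sub_mem _ (X_mem_supported_set hl) (C_mem_supported_set Pr _), by
    rwa [map_sub, sub_ne_zero]⟩

theorem IharaNonEisenstein.nonEisenstein
    {S : Submonoid (BettiHeckeAlg A)} (hE : IharaNonEisenstein L q S) :
    BettiNonEisenstein L χ S := by
  obtain ⟨l, hl, hS⟩ := hE
  exact ⟨l, by rwa [heckeDegree_of_cast_eq_one l (cast_eq_one_of_iharaLevel hl)]⟩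

theorem levelUpMod_eq_zero (hq : ¬ (q : ℕ) ∣ L) (hV : ∀ u v, (χ u : A) • (v : V) = v)
    {x : Fin 2 → BettiMod L χ V} (hx : levelUpMod χ V hq x = 0) (l : Nat.Primes)
    (hl : ((l : ℕ) : ZMod (Modular.Ihara.iharaLevel L q)) = 1) (a : Fin 2) :
    (X l - C (((l : ℕ) : A) + 1) : BettiHeckeAlg A) • x a = 0 := by
  have hL : 0 < L := Nat.pos_of_ne_zero fun h => hq (h ▸ dvd_zero _)
  choose c hc using fun b => BettiMod.mk_surjective (x b)
  have hV' : ∀ u v, (raiseChar q χ u : A) • (v : V) = v := fun u v => hV _ v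
  have h0 : ∀ γ : Gamma0 (L * (q : ℕ)),
      (c 0 : Gamma0 L → V) (Modular.Ihara.levelIncl L q γ) +
        (c 1 : Gamma0 L → V) (Modular.Ihara.alphaConj L q γ) = 0 := by
    intro γ
    simp only [levelUpMod, LinearMap.add_apply, LinearMap.comp_apply, LinearMap.proj_apply,
      ← hc] at hx
    have hx' : BettiMod.mk ((degenSystem₁ L q).transferCocycles V (isWeight_degen₁ q χ) (c 0) +
        (degenSystem₂ L q).transferCocycles V (isWeight_degen₂ hq χ) (c 1)) = 0 := by
      rw [map_add]
      exact hx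
    have hγ := (mk_eq_zero_iff_of_trivial hV').1 hx' γ
    rw [Submodule.coe_add, Pi.add_apply, levelDegen₁_cocycle_apply] at hγ
    rw [CosetSystem.transferCocycles_apply, Fintype.sum_unique,
      ((degenSystem₂ L q).next_elt_eq_of_eq (j := ()) (h := Modular.Ihara.alphaConj L q γ) (by
        have hd : ((q : ℕ) : ℤ) ∣ (γ : SL(2, ℤ)) 1 0 :=
          (Int.natCast_dvd_natCast.2 (Nat.dvd_mul_left _ _)).trans (Modular.dvd_apply_one_zero γ)
        have := Int.ediv_mul_cancel hd
        ext i j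
        fin_cases i <;> fin_cases j <;>
          simp [degenSystem₂, CosetSystem.single, Modular.Ihara.alphaConj, Matrix.mul_apply,
            Fin.sum_univ_two]
        · ring
        · exact this.symm)).2, hV] at hγ
    exact hγ
  have h := Modular.Ihara.ihara_eisenstein (R := A) hL q.2 hq (φ := cocycleHom hV (c 0))
    (ψ := cocycleHom hV (c 1)) h0 l (not_dvd_of_cast_eq_one l (cast_eq_one_of_iharaLevel hl)) hl
  rw [← hc a, show ((l : ℕ) : A) + 1 = (((l : ℕ) + 1 : ℕ) : A) by push_cast; rfl]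
  fin_cases a
  · exact sub_C_smul_eq_zero_of_hom hV l _ (c 0) h.1
  · exact sub_C_smul_eq_zero_of_hom hV l _ (c 1) h.2

/-- **Ihara's lemma**: the localised pair of degeneracy maps is injective. -/
theorem levelUpLoc_injective (hq : ¬ (q : ℕ) ∣ L) (hV : ∀ u v, (χ u : A) • (v : V) = v)
    {S : Submonoid (BettiHeckeAlg A)} (hS : AwayFrom q S) (hE : IharaNonEisenstein L q S) :
    Function.Injective (levelUpLoc χ V hq hS) := by
  obtain ⟨l, hl, hlS⟩ := hE
  rw [injective_iff_map_eq_zero]
  intro v hv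
  obtain ⟨w, s, rfl⟩ := exists_common_denom v
  have hup : levelUpLoc χ V hq hS (fun b => LocalizedModule.mk (w b) s) =
      LocalizedModule.mk (levelUpMod χ V hq w) s := by
    simp only [levelUpLoc, LinearMap.add_apply, LinearMap.comp_apply, LinearMap.proj_apply,
      awayLocMap_mk, LocalizedModule.mk_add_mk, ← smul_add, LocalizedModule.mk_cancel_common_left]
    rfl
  rw [hup, ← LocalizedModule.zero_mk s, LocalizedModule.mk_eq] at hv
  obtain ⟨u, hu⟩ := hv
  simp only [smul_zero, Submonoid.smul_def] at hu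
  have hcomm : levelUpMod χ V hq (fun b => ((u : BettiHeckeAlg A) * s) • w b) = 0 := by
    simp only [levelUpMod, LinearMap.add_apply, LinearMap.comp_apply, LinearMap.proj_apply] at hu ⊢
    rw [← Submonoid.coe_mul,
      map_supported_smul _ (fun l hl m => levelDegen₁_X_smul hl m) (hS _ (u * s).2),
      map_supported_smul _ (fun l hl m => levelDegen₂_X_smul hq hl m) (hS _ (u * s).2),
      ← smul_add, Submonoid.coe_mul, mul_smul]
    exact hu
  funext b
  rw [Pi.zero_apply, ← LocalizedModule.zero_mk s, LocalizedModule.mk_eq]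
  refine ⟨⟨_, hlS⟩ * u, ?_⟩
  simp only [smul_zero, Submonoid.smul_def, mul_smul]
  have := levelUpMod_eq_zero hq hV hcomm l hl b
  simpa [mul_smul] using this

end FermatLib.MLT

end
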