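import Fermat.Agent.MLT.Hecke.IharaSurjective

/-!
# Ihara inputs for level raising over a complete coefficient ring

At a non-Eisenstein residual character the old part is injective modulo the maximal ideal, so a
direct summand with free cokernel, and its adjoint is surjective.
-/

set_option autoImplicit false

noncomputable section

open scoped MatrixGroups TensorProduct
open CongruenceSubgroup MvPolynomial IsLocalRing

namespace FermatLib.MLT

variable {A : Type} [CommRing A] [IsLocalRing A] [IsNoetherianRing A] {L : ℕ} {q : Nat.Primes}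
  {χ : (ZMod L)ˣ →* Aˣ} {k : Type} [Field k] {Pr : Set Nat.Primes} {θ : BettiHeckeAlg A →+* k}

omit [IsLocalRing A] [IsNoetherianRing A] in
/-- Harmlessness of the elliptic elements passes to multiples of the level. -/
theorem EllipticHarmless.mul_right (hell : EllipticHarmless L Pr θ) (d : ℕ) :
    EllipticHarmless (L * d) Pr θ := by
  have h2 : NoEllipticTwo A L → NoEllipticTwo A (L * d) := fun h =>
    h.imp id fun h γ => h (gamma0Incl (Nat.dvd_mul_right L d) γ)
  have h3 : NoEllipticThree A L → NoEllipticThree A (L * d) := fun h =>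
    h.imp id fun h γ => h (gamma0Incl (Nat.dvd_mul_right L d) γ)
  rcases hell with ⟨a, b⟩ | ⟨a, b⟩ | ⟨a, b⟩
  · exact Or.inl ⟨h2 a, h3 b⟩
  · exact Or.inr (Or.inl ⟨h2 a, b⟩)
  · exact Or.inr (Or.inr ⟨h3 a, b⟩)

omit [IsNoetherianRing A] in
/-- The nebentype acts trivially on the residue field. -/
theorem smul_residueField_eq (hχ1 : ∀ u, (χ u : A) - 1 ∈ maximalIdeal A) (u : (ZMod L)ˣ)
    (v : ResidueField A) : (χ u : A) • v = v := by
  rw [Algebra.smul_def, show algebraMap A (ResidueField A) (χ u) = 1 from ?_, one_mul]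
  exact (sub_add_cancel (χ u : A) 1) ▸ by
    rw [map_add, map_one, show algebraMap A (ResidueField A) ((χ u : A) - 1) = 0 from
      (residue_eq_zero_iff _).2 (hχ1 u), zero_add]

omit [IsNoetherianRing A] in
/-- What is divisible by the maximal ideal dies over the residue field. -/
theorem map_residue_eq_zero_of_mem {S : Submonoid (BettiHeckeAlg A)} (x : BettiLoc L χ A S)
    (hx : x ∈ maximalIdeal A • (⊤ : Submodule A (BettiLoc L χ A S))) :
    BettiLoc.map S (Algebra.linearMap A (ResidueField A)) x = 0 := by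
  refine Submodule.smul_induction_on hx (fun a ha y _ => ?_) fun y z hy hz => ?_
  · rw [map_smul]
    induction y using LocalizedModule.induction_on with
    | h m t =>
      rw [BettiLoc.map_mk, LocalizedModule.smul'_mk, ← LinearMap.smul_apply (a := a)
        (f := (BettiMod.map (L := L) (χ := χ) (Algebra.linearMap A (ResidueField A)))),
        ← BettiMod.map_smul_map]
      have h0 : a • Algebra.linearMap A (ResidueField A) = 0 := LinearMap.ext fun b => by
        rw [LinearMap.smul_apply, LinearMap.zero_apply, Algebra.smul_def,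
          show algebraMap A (ResidueField A) a = 0 from (residue_eq_zero_iff a).2 ha, zero_mul]
      have h1 : BettiMod.map (L := L) (χ := χ) (0 : A →ₗ[A] ResidueField A) m = 0 := by
        obtain ⟨c, rfl⟩ := BettiMod.mk_surjective m
        rw [BettiMod.map_mk, BettiMod.mk_eq_zero]
        exact ⟨0, fun γ => by simp⟩
      rw [h0, h1, LocalizedModule.zero_mk]
  · rw [map_add, hy, hz, add_zero]

omit [IsLocalRing A] [IsNoetherianRing A] in
/-- Maps away from `q` are natural in the coefficients. -/
theorem awayLocMap_map {L' : ℕ} {χ' : (ZMod L')ˣ →* Aˣ} {V W : Type} [AddCommGroup V]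
    [AddCommGroup W] [Module A V] [Module A W] {S : Submonoid (BettiHeckeAlg A)}
    (hS : AwayFrom q S) (f : V →ₗ[A] W)
    (g : BettiMod L χ V →ₗ[A] BettiMod L' χ' V)
    (hg : ∀ l ≠ q, ∀ m, g ((X l : BettiHeckeAlg A) • m) = (X l : BettiHeckeAlg A) • g m)
    (g' : BettiMod L χ W →ₗ[A] BettiMod L' χ' W)
    (hg' : ∀ l ≠ q, ∀ m, g' ((X l : BettiHeckeAlg A) • m) = (X l : BettiHeckeAlg A) • g' m)
    (h : ∀ m, BettiMod.map f (g m) = g' (BettiMod.map f m)) (x : BettiLoc L χ V S) :
    BettiLoc.map S f (awayLocMap hS g hg x) = awayLocMap hS g' hg' (BettiLoc.map S f x) := by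
  induction x using LocalizedModule.induction_on with
  | h m s => rw [awayLocMap_mk, BettiLoc.map_mk, BettiLoc.map_mk, awayLocMap_mk, h]

omit [IsLocalRing A] [IsNoetherianRing A] in
theorem levelUpLoc_map (hq : ¬ (q : ℕ) ∣ L) {V W : Type} [AddCommGroup V] [AddCommGroup W]
    [Module A V] [Module A W] {S : Submonoid (BettiHeckeAlg A)} (hS : AwayFrom q S)
    (f : V →ₗ[A] W) (v : Fin 2 → BettiLoc L χ V S) :
    BettiLoc.map S f (levelUpLoc χ V hq hS v) =
      levelUpLoc χ W hq hS fun a => BettiLoc.map S f (v a) := by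
  simp only [levelUpLoc, LinearMap.add_apply, LinearMap.comp_apply, LinearMap.proj_apply, map_add]
  exact congrArg₂ (· + ·)
    (awayLocMap_map hS f _ _ _ _ (fun m => CosetSystem.transfer_map _ _ f m) (v 0))
    (awayLocMap_map hS f _ _ _ _ (fun m => CosetSystem.transfer_map _ _ f m) (v 1))

omit [IsLocalRing A] [IsNoetherianRing A] in
theorem levelDownLoc_map (hq : ¬ (q : ℕ) ∣ L) {V W : Type} [AddCommGroup V] [AddCommGroup W]
    [Module A V] [Module A W] {S : Submonoid (BettiHeckeAlg A)} (hS : AwayFrom q S)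
    (f : V →ₗ[A] W) (x : BettiLoc (L * (q : ℕ)) (raiseChar q χ) V S) (a : Fin 2) :
    BettiLoc.map S f (levelDownLoc χ V hq hS x a) =
      levelDownLoc χ W hq hS (BettiLoc.map S f x) a := by
  fin_cases a <;>
    simp only [levelDownLoc, LinearMap.pi_apply, Fin.zero_eta, Fin.mk_one, Matrix.cons_val_zero,
      Matrix.cons_val_one, Matrix.cons_val_fin_one]
  · exact awayLocMap_map hS f _ _ _ _ (fun m => CosetSystem.transfer_map _ _ f m) x
  · refine awayLocMap_map hS f _ _ _ _ (fun m => ?_) x
    exact (CosetSystem.transfer_map _ _ f _).trans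
      (congrArg _ (CosetSystem.transfer_map _ _ f m))

/-- Exactness at the residue field: what dies there is divisible by the maximal ideal. -/
theorem mem_maximalIdeal_smul_top {S : Submonoid (BettiHeckeAlg A)} (hχ : χ (-1) = 1)
    (hR : BettiRightExact L χ S) (x : BettiLoc L χ A S) :
    BettiLoc.map S (Algebra.linearMap A (ResidueField A)) x = 0 ↔
      x ∈ maximalIdeal A • (⊤ : Submodule A (BettiLoc L χ A S)) := by
  refine ⟨fun hx => ?_, fun hx => map_residue_eq_zero_of_mem x hx⟩
  set I : Ideal A := maximalIdeal A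
  have hex : Function.Exact I.subtype (Algebra.linearMap A (ResidueField A)) := fun a =>
    ⟨fun ha => ⟨⟨a, (residue_eq_zero_iff a).1 ha⟩, rfl⟩, by
      rintro ⟨b, rfl⟩; exact (residue_eq_zero_iff _).2 b.2⟩
  obtain ⟨z, rfl⟩ := (BettiLoc.map_exact hχ hex I.injective_subtype residue_surjective x).1 hx
  obtain ⟨w, rfl⟩ := bettiTensorMap_surjective hR z
  rw [← bettiTensorMap_lTensor]
  clear hx
  induction w using TensorProduct.induction_on with
  | zero => simp
  | tmul y i =>
    rw [LinearMap.lTensor_tmul, bettiTensorMap_tmul,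
      show LinearMap.toSpanSingleton A A (I.subtype i) = (i : A) • LinearMap.id from
        LinearMap.ext fun a => by simp [mul_comm],
      ← BettiLoc.mapLin_apply, map_smul, LinearMap.smul_apply, BettiLoc.mapLin_apply,
      BettiLoc.map_id]
    exact Submodule.smul_mem_smul i.2 Submodule.mem_top
  | add y z hy hz =>
    simp only [map_add]
    exact add_mem hy hz

/-- The old part is injective modulo the maximal ideal. -/
theorem levelUpLoc_injective_mod (hq : ¬ (q : ℕ) ∣ L) [NeZero L] (hχ : χ (-1) = 1)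
    (hχ1 : ∀ u, (χ u : A) - 1 ∈ maximalIdeal A) (hqPr : q ∉ Pr)
    (hell : EllipticHarmless L Pr θ) {l : Nat.Primes}
    (hl : ((l : ℕ) : ZMod (Modular.Ihara.iharaLevel L q)) = 1) (hlPr : l ∈ Pr)
    (hne : θ (X l) ≠ θ (C (((l : ℕ) : A) + 1)))
    (v : Fin 2 → BettiLoc L χ A (bettiResidualSubmonoid Pr θ))
    (hv : levelUpLoc χ A hq (awayFrom_residual hqPr θ) v ∈ maximalIdeal A • (⊤ : Submodule A _))
    (a : Fin 2) : v a ∈ maximalIdeal A • (⊤ : Submodule A _) := by
  have hR := bettiRightExact_residual χ hχ θ hell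
  rw [← mem_maximalIdeal_smul_top hχ hR]
  have hinj := levelUpLoc_injective (V := ResidueField A) hq (smul_residueField_eq hχ1)
    (awayFrom_residual hqPr θ) (iharaNonEisenstein_residual θ l hlPr hl hne)
  have h0 := map_residue_eq_zero_of_mem _ hv
  rw [levelUpLoc_map hq] at h0
  exact congrFun (hinj (h0.trans (map_zero _).symm)) a

omit [IsNoetherianRing A] in
/-- Injectivity modulo the maximal ideal is injectivity after tensoring with the residue field. -/
theorem lTensor_injective_of_injective_mod {M N : Type} [AddCommGroup M] [AddCommGroup N]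
    [Module A M] [Module A N] (f : M →ₗ[A] N)
    (h : ∀ v, f v ∈ maximalIdeal A • (⊤ : Submodule A N) →
      v ∈ maximalIdeal A • (⊤ : Submodule A M)) :
    Function.Injective (f.lTensor (ResidueField A)) := by
  rw [injective_iff_map_eq_zero]
  intro z hz
  obtain ⟨v', rfl⟩ := (TensorProduct.quotTensorEquivQuotSMul M (maximalIdeal A)).symm.surjective z
  obtain ⟨v, rfl⟩ := Submodule.mkQ_surjective _ v'
  rw [Submodule.mkQ_apply, TensorProduct.quotTensorEquivQuotSMul_symm_mk] at hz ⊢
  have h1 : (Submodule.Quotient.mk (f v) : N ⧸ maximalIdeal A • (⊤ : Submodule A N)) = 0 := by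
    rw [← TensorProduct.quotTensorEquivQuotSMul_mk_one_tmul]
    exact (congrArg _ hz).trans (map_zero _)
  rw [← TensorProduct.quotTensorEquivQuotSMul_symm_mk,
    (Submodule.Quotient.mk_eq_zero _).2 (h v ((Submodule.Quotient.mk_eq_zero _).1 h1)), map_zero]
  rfl

theorem self_lt_iharaLevel {N q : ℕ} (hN : 0 < N) (hq : q.Prime) :
    q < Modular.Ihara.iharaLevel N q := by
  have h1 : 1 ≤ N.totient := Nat.totient_pos.2 hN
  have h2 : q ^ 2 ≤ q ^ (2 * N.totient) := Nat.pow_le_pow_right hq.pos (by omega)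
  have h3 : q + 1 < q ^ 2 := by nlinarith [hq.two_le]
  have h4 : q + 1 ≤ Modular.Ihara.iharaLevel₀ N q :=
    le_trans (by omega : q + 1 ≤ q ^ (2 * N.totient) - 1) (Nat.le_mul_of_pos_left _ hN)
  calc q < Modular.Ihara.iharaLevel₀ N q := by omega
    _ ≤ _ := Nat.le_self_pow two_ne_zero _

omit [IsLocalRing A] [IsNoetherianRing A] in
theorem bettiNonEisenstein_raise (hq : ¬ (q : ℕ) ∣ L) {S : Submonoid (BettiHeckeAlg A)}
    (hE : IharaNonEisenstein L q S) : BettiNonEisenstein (L * (q : ℕ)) (raiseChar q χ) S := by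
  obtain ⟨l, hl, hS⟩ := hE
  refine ⟨l, ?_⟩
  have hL : 0 < L := Nat.pos_of_ne_zero fun h => hq (h ▸ dvd_zero _)
  have hlL := cast_eq_one_of_iharaLevel hl
  have hne : l ≠ q := fun h => by
    have hpos := Modular.Ihara.iharaLevel_pos (N := L) hL q.2
    have hcop := Modular.Ihara.iharaLevel_coprime hL q.2 hq
    have h2 : ((q : ℕ) : ZMod (Modular.Ihara.iharaLevel L q)) = 1 := h ▸ hl
    have hdvd := (ZMod.natCast_eq_natCast_iff _ 1 _).1 (by rw [h2, Nat.cast_one])
    have hlt := self_lt_iharaLevel hL q.2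
    have := Nat.ModEq.eq_of_lt_of_lt hdvd hlt (lt_of_le_of_lt q.2.one_le hlt)
    exact q.2.one_lt.ne' this
  have hdeg : heckeDegree (raiseChar q χ) l = heckeDegree χ l := by
    rw [heckeDegree, heckeDegree, ← (heckeIdxRaise (L := L) hne).sum_comp]
    exact Finset.sum_congr rfl fun x _ => heckeWeight_raise x _ rfl
  rwa [hdeg, heckeDegree_of_cast_eq_one l hlL]

variable [IsAdicComplete (maximalIdeal A) A]

/-- The adjoint of the old part is surjective. -/
theorem levelDownLoc_residual_surjective (hq : ¬ (q : ℕ) ∣ L) [NeZero L] (hχ : χ (-1) = 1)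
    (hχ1 : ∀ u, (χ u : A) - 1 ∈ maximalIdeal A)
    (hθ : ∀ a ∈ maximalIdeal A, θ (C a) = 0) (hqPr : q ∉ Pr)
    (hell : EllipticHarmless L Pr θ) {l : Nat.Primes}
    (hl : ((l : ℕ) : ZMod (Modular.Ihara.iharaLevel L q)) = 1) (hlPr : l ∈ Pr)
    (hne : θ (X l) ≠ θ (C (((l : ℕ) : A) + 1))) :
    Function.Surjective (levelDownLoc χ A hq (awayFrom_residual hqPr θ)) := by
  set S := bettiResidualSubmonoid Pr θ
  have : NeZero (L * (q : ℕ)) := ⟨mul_ne_zero (NeZero.ne L) q.2.ne_zero⟩
  have : Module.Finite A (BettiLoc L χ A S) := bettiLoc_finite χ A Pr θ hθ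
  have hR := bettiRightExact_residual χ hχ θ hell
  have hR' := bettiRightExact_residual (raiseChar q χ) (raiseChar_neg_one hχ) θ
    (hell.mul_right (q : ℕ))
  rw [← LinearMap.range_eq_top, eq_top_iff]
  refine Submodule.le_of_le_smul_of_le_jacobson_bot Module.Finite.fg_top
    (maximalIdeal_le_jacobson ⊥) fun y _ => ?_
  obtain ⟨x, hx⟩ := levelDownLoc_surjective (K := ResidueField A) hq (smul_residueField_eq hχ1) θ
    hqPr hell hl hlPr hne fun a => BettiLoc.map S (Algebra.linearMap A (ResidueField A)) (y a)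
  obtain ⟨x', rfl⟩ := BettiLoc.map_surjective hR'
    (f := Algebra.linearMap A (ResidueField A)) residue_surjective x
  refine Submodule.mem_sup.2 ⟨_, ⟨x', rfl⟩,
    y - levelDownLoc χ A hq (awayFrom_residual hqPr θ) x', ?_, add_sub_cancel _ _⟩
  have hmem : ∀ a, (y - levelDownLoc χ A hq (awayFrom_residual hqPr θ) x') a ∈
      maximalIdeal A • (⊤ : Submodule A (BettiLoc L χ A S)) := fun a => by
    rw [← mem_maximalIdeal_smul_top hχ hR, Pi.sub_apply, map_sub, levelDownLoc_map hq,
      congrFun hx a, sub_self]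
  generalize y - levelDownLoc χ A hq (awayFrom_residual hqPr θ) x' = w at hmem ⊢
  rw [show w = ∑ a, LinearMap.single A (fun _ : Fin 2 => BettiLoc L χ A S) a (w a) from
    (Finset.univ_sum_single w).symm]
  refine Submodule.sum_mem _ fun a _ => ?_
  have := Submodule.mem_map_of_mem
    (f := LinearMap.single A (fun _ : Fin 2 => BettiLoc L χ A S) a) (hmem a)
  rw [Submodule.map_smul''] at this
  exact Submodule.smul_mono le_rfl le_top this

/-- The old part is a direct summand. -/
theorem exists_levelUpLoc_leftInverse (hq : ¬ (q : ℕ) ∣ L) [NeZero L] (hχ : χ (-1) = 1)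
    (hχ1 : ∀ u, (χ u : A) - 1 ∈ maximalIdeal A)
    (hθ : ∀ a ∈ maximalIdeal A, θ (C a) = 0) (hqPr : q ∉ Pr)
    (hell : EllipticHarmless L Pr θ) {l : Nat.Primes}
    (hl : ((l : ℕ) : ZMod (Modular.Ihara.iharaLevel L q)) = 1) (hlPr : l ∈ Pr)
    (hne : θ (X l) ≠ θ (C (((l : ℕ) : A) + 1))) :
    ∃ g : BettiLoc (L * (q : ℕ)) (raiseChar q χ) A (bettiResidualSubmonoid Pr θ) →ₗ[A]
      Fin 2 → BettiLoc L χ A (bettiResidualSubmonoid Pr θ),
      g.comp (levelUpLoc χ A hq (awayFrom_residual hqPr θ)) = LinearMap.id := by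
  set S := bettiResidualSubmonoid Pr θ
  have : NeZero (L * (q : ℕ)) := ⟨mul_ne_zero (NeZero.ne L) q.2.ne_zero⟩
  have : Module.Finite A (BettiLoc L χ A S) := bettiLoc_finite χ A Pr θ hθ
  have : Module.Finite A (BettiLoc (L * (q : ℕ)) (raiseChar q χ) A S) :=
    bettiLoc_finite _ A Pr θ hθ
  have hR := bettiRightExact_residual χ hχ θ hell
  have hE : IharaNonEisenstein L q S := iharaNonEisenstein_residual θ l hlPr hl hne
  have : Module.Free A (BettiLoc (L * (q : ℕ)) (raiseChar q χ) A S) :=
    bettiLoc_free (raiseChar_neg_one hχ)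
      (bettiNonEisenstein_raise hq hE)
      (bettiRightExact_residual _ (raiseChar_neg_one hχ) θ (hell.mul_right (q : ℕ)))
  have hinj := lTensor_injective_of_injective_mod
    (levelUpLoc χ A hq (awayFrom_residual hqPr θ)) (fun v hv => by
      have h := levelUpLoc_injective_mod hq hχ hχ1 hqPr hell hl hlPr hne v hv
      rw [show v = ∑ a, LinearMap.single A (fun _ : Fin 2 => BettiLoc L χ A S) a (v a) from
        (Finset.univ_sum_single v).symm]
      refine Submodule.sum_mem _ fun a _ => ?_
      have := Submodule.mem_map_of_mem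
        (f := LinearMap.single A (fun _ : Fin 2 => BettiLoc L χ A S) a) (h a)
      rw [Submodule.map_smul''] at this
      exact Submodule.smul_mono le_rfl le_top this)
  exact (IsLocalRing.split_injective_iff_lTensor_residueField_injective _).2 hinj

/-- The cokernel of the old part is free, in particular torsion free. -/
theorem free_coker_levelUpLoc (hq : ¬ (q : ℕ) ∣ L) [NeZero L] (hχ : χ (-1) = 1)
    (hχ1 : ∀ u, (χ u : A) - 1 ∈ maximalIdeal A)
    (hθ : ∀ a ∈ maximalIdeal A, θ (C a) = 0) (hqPr : q ∉ Pr)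
    (hell : EllipticHarmless L Pr θ) {l : Nat.Primes}
    (hl : ((l : ℕ) : ZMod (Modular.Ihara.iharaLevel L q)) = 1) (hlPr : l ∈ Pr)
    (hne : θ (X l) ≠ θ (C (((l : ℕ) : A) + 1))) :
    Module.Free A (BettiLoc (L * (q : ℕ)) (raiseChar q χ) A (bettiResidualSubmonoid Pr θ) ⧸
      LinearMap.range (levelUpLoc χ A hq (awayFrom_residual hqPr θ))) := by
  set S := bettiResidualSubmonoid Pr θ
  have : NeZero (L * (q : ℕ)) := ⟨mul_ne_zero (NeZero.ne L) q.2.ne_zero⟩
  have : Module.Finite A (BettiLoc L χ A S) := bettiLoc_finite χ A Pr θ hθ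
  have : Module.Finite A (BettiLoc (L * (q : ℕ)) (raiseChar q χ) A S) :=
    bettiLoc_finite _ A Pr θ hθ
  have hR := bettiRightExact_residual χ hχ θ hell
  have hE : IharaNonEisenstein L q S := iharaNonEisenstein_residual θ l hlPr hl hne
  have : Module.Free A (BettiLoc (L * (q : ℕ)) (raiseChar q χ) A S) :=
    bettiLoc_free (raiseChar_neg_one hχ)
      (bettiNonEisenstein_raise hq hE)
      (bettiRightExact_residual _ (raiseChar_neg_one hχ) θ (hell.mul_right (q : ℕ)))
  have hinj := lTensor_injective_of_injective_mod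
    (levelUpLoc χ A hq (awayFrom_residual hqPr θ)) (fun v hv => by
      have h := levelUpLoc_injective_mod hq hχ hχ1 hqPr hell hl hlPr hne v hv
      rw [show v = ∑ a, LinearMap.single A (fun _ : Fin 2 => BettiLoc L χ A S) a (v a) from
        (Finset.univ_sum_single v).symm]
      refine Submodule.sum_mem _ fun a _ => ?_
      have := Submodule.mem_map_of_mem
        (f := LinearMap.single A (fun _ : Fin 2 => BettiLoc L χ A S) a) (h a)
      rw [Submodule.map_smul''] at this
      exact Submodule.smul_mono le_rfl le_top this)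
  exact Module.free_of_lTensor_residueField_injective _ (LinearMap.range _).mkQ
    (Submodule.mkQ_surjective _) (LinearMap.exact_map_mkQ_range _) hinj

end FermatLib.MLT

end
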