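import Fermat.Agent.MLT.Hecke.IharaCusp
import Fermat.Agent.Modular.LevelRaising.Cokernel

/-!
# The adjoint of the old part is surjective away from the Eisenstein ideal

Over a field on which the nebentype acts trivially: duality on cuspidal classes turns Ihara's
lemma into surjectivity of the pair of traces.
-/

set_option autoImplicit false

noncomputable section

open scoped MatrixGroups
open CongruenceSubgroup MvPolynomial

namespace FermatLib.MLT

variable {A : Type} [CommRing A] {L : ℕ} {q : Nat.Primes} {χ : (ZMod L)ˣ →* Aˣ}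
  {K : Type} [Field K] [Algebra A K]

section compare

attribute [local instance] Modular.Degeneracy.cosetFintype

variable [NeZero L] [NeZero (q : ℕ)] [Fact (q : ℕ).Prime] [Fact (Nat.Coprime (q : ℕ) L)]

/-- The trace system computes the corestriction. -/
theorem sum_traceSystem_elt (hq : ¬ (q : ℕ) ∣ L) {W : Type} [AddCommGroup W] [Module A W]
    (ψ : Additive (Gamma0 (L * (q : ℕ))) →+ W) (γ : Gamma0 L) :
    ∑ j, ψ (Additive.ofMul ((traceSystem hq).elt γ j)) =
      Modular.Degeneracy.degCores L (q : ℕ) A W ψ (Additive.ofMul γ) := by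
  classical
  have hle := Modular.Degeneracy.Gamma0_mul_le_left L (q : ℕ)
  set s := Modular.Residue.cosetsIn (Gamma0 (L * (q : ℕ))) (Gamma0 L) with hs
  have hex : ∀ i : SL(2, ℤ) ⧸ Gamma0 (L * (q : ℕ)),
      ∃ (j : Option (Fin (q : ℕ))) (u : Gamma0 (L * (q : ℕ))), i ∈ s →
        (i.out)⁻¹ = (u : SL(2, ℤ)) * (traceRep hq j : SL(2, ℤ)) := fun i => by
    by_cases hi : i ∈ s
    · obtain ⟨j, hj⟩ := exists_traceRep hq ⟨_, Modular.Degeneracy.cosetsIn_inv_mem hi⟩
      exact ⟨j, ⟨_, hj⟩, fun _ => by simp⟩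
    · exact ⟨none, 1, fun h => absurd h hi⟩
  choose τ u hu using hex
  have hbij : Set.BijOn τ (s : Set (SL(2, ℤ) ⧸ Gamma0 (L * (q : ℕ)))) Set.univ := by
    refine ⟨fun i _ => Set.mem_univ _, fun i hi j hj hij => ?_, fun x _ => ?_⟩
    · have hi' : i.out = ((traceRep hq (τ i) : SL(2, ℤ)))⁻¹ * (u i : SL(2, ℤ))⁻¹ := by
        rw [← mul_inv_rev, ← hu i hi, inv_inv]
      have hj' : j.out = ((traceRep hq (τ j) : SL(2, ℤ)))⁻¹ * (u j : SL(2, ℤ))⁻¹ := by
        rw [← mul_inv_rev, ← hu j hj, inv_inv]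
      rw [← QuotientGroup.out_eq' i, ← QuotientGroup.out_eq' j, QuotientGroup.eq, hi', hj', hij]
      simp only [mul_inv_rev, inv_inv, mul_assoc, mul_inv_cancel_left]
      exact mul_mem (u i).2 (inv_mem (u j).2)
    · set i : SL(2, ℤ) ⧸ Gamma0 (L * (q : ℕ)) :=
        (((traceRep hq x : SL(2, ℤ))⁻¹ : SL(2, ℤ)) : SL(2, ℤ) ⧸ Gamma0 (L * (q : ℕ)))
      have hi : i ∈ s := (Modular.Residue.mk_mem_cosetsIn hle).2 (inv_mem (traceRep hq x).2)
      refine ⟨i, hi, (traceRep_unique hq x (τ i) ?_).symm⟩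
      have h1 : (i.out)⁻¹ * (traceRep hq x : SL(2, ℤ))⁻¹ ∈ Gamma0 (L * (q : ℕ)) := by
        rw [← QuotientGroup.eq, QuotientGroup.out_eq']
      rw [hu i hi, mul_assoc] at h1
      exact (Subgroup.mul_mem_cancel_left _ (u i).2).1 h1
  have key : ∀ i ∈ s, ψ (Additive.ofMul
      (⟨_, Modular.Residue.cosetElt_mem (Gamma0 (L * (q : ℕ))) (γ : SL(2, ℤ)) i⟩ :
        Gamma0 (L * (q : ℕ)))) =
      ψ (Additive.ofMul ((traceSystem hq).elt γ (τ ((γ : SL(2, ℤ)) • i)))) +
        ψ (Additive.ofMul (u ((γ : SL(2, ℤ)) • i))) - ψ (Additive.ofMul (u i)) := by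
    intro i hi
    set j := (γ : SL(2, ℤ)) • i with hj
    set k : Gamma0 (L * (q : ℕ)) :=
      ⟨_, Modular.Residue.cosetElt_mem (Gamma0 (L * (q : ℕ))) (γ : SL(2, ℤ)) i⟩ with hk
    have h1 : (j.out)⁻¹ * (γ : SL(2, ℤ)) = (k : SL(2, ℤ)) * (i.out)⁻¹ := by
      simp [hk, Modular.Residue.cosetElt, hj]
    rw [hu j ((Modular.Residue.smul_mem_cosetsIn hle γ.2).2 hi), hu i hi] at h1
    have h2 : (traceRep hq (τ j) : SL(2, ℤ)) * (γ : SL(2, ℤ)) =
        (((u j)⁻¹ * k * u i : Gamma0 (L * (q : ℕ))) : SL(2, ℤ)) * (traceRep hq (τ i) : SL(2, ℤ)) :=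
      mul_left_cancel (a := (u j : SL(2, ℤ))) (by
        rw [← mul_assoc, h1]
        simp [mul_assoc])
    have h3 := congrArg (fun M : SL(2, ℤ) => (M : Matrix (Fin 2) (Fin 2) ℤ)) h2
    simp only [Matrix.SpecialLinearGroup.coe_mul] at h3
    rw [((traceSystem hq).next_elt_eq_of_eq h3).2, ofMul_mul, ofMul_mul, ofMul_inv, map_add,
      map_add, map_neg]
    abel
  rw [Modular.Degeneracy.degCores_apply, Modular.Residue.coresHom,
    Finset.sum_congr rfl fun i hi => (Modular.Degeneracy.extFun_of_mem ψ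
      (Modular.Residue.cosetElt_mem (Gamma0 (L * (q : ℕ))) (γ : SL(2, ℤ)) i)).trans (key i hi),
    Finset.sum_sub_distrib, Finset.sum_add_distrib,
    Modular.Residue.sum_cosetsIn_smul hle γ.2
      (fun j => ψ (Additive.ofMul ((traceSystem hq).elt γ (τ j)))),
    Modular.Residue.sum_cosetsIn_smul hle γ.2 (fun j => ψ (Additive.ofMul (u j))),
    add_sub_cancel_right]
  exact (Finset.sum_nbij τ (fun i _ => Finset.mem_univ _) hbij.injOn
    (by simpa using hbij.surjOn) fun i _ => rfl).symm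

omit [NeZero L] [Fact (q : ℕ).Prime] in
/-- The two Atkin–Lehner automorphisms differ by an inner one. -/
theorem atkinSystem_elt_apply (hq : ¬ (q : ℕ) ∣ L) {W : Type} [AddCommGroup W] [Module A W]
    (ψ : Additive (Gamma0 (L * (q : ℕ))) →+ W) (γ : Gamma0 (L * (q : ℕ))) :
    ψ (Additive.ofMul ((atkinSystem hq).elt γ ())) =
      Modular.Degeneracy.alOp L (q : ℕ) A W ψ (Additive.ofMul γ) := by
  set x := bezoutX hq
  set y := bezoutY hq
  set c := Modular.Degeneracy.alC L (q : ℕ)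
  set d := Modular.Degeneracy.alD L (q : ℕ)
  have hxy : ((q : ℕ) : ℤ) * x - (L : ℤ) * y = 1 := bezout_level hq
  have hcd : ((q : ℕ) : ℤ) * d - (L : ℤ) * c = 1 := Modular.Degeneracy.al_eq L (q : ℕ)
  let w : Gamma0 (L * (q : ℕ)) :=
    ⟨⟨!![((q : ℕ) : ℤ) * x * d - (L : ℤ) * c * y, y - x;
      ((L * (q : ℕ) : ℕ) : ℤ) * (d - c), ((q : ℕ) : ℤ) - (L : ℤ)], by
      rw [Matrix.det_fin_two_of]
      push_cast
      linear_combination (((q : ℕ) : ℤ) * d - (L : ℤ) * c) * hxy + hcd⟩,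
      Modular.mem_Gamma0_iff_dvd.2 (by simp)⟩
  have hw : ((w : SL(2, ℤ)) : Matrix (Fin 2) (Fin 2) ℤ) * Modular.Degeneracy.alMat L (q : ℕ) =
      atkinMatrix hq := by
    ext i j
    fin_cases i <;> fin_cases j <;>
      simp [w, atkinMatrix, Modular.Degeneracy.alMat, Matrix.mul_apply, Fin.sum_univ_two, x, y, c, d]
    · linear_combination (((q : ℕ) : ℤ) * x) * hcd
    · linear_combination y * hcd
    · linear_combination ((L : ℤ) * q) * hcd
    · linear_combination ((q : ℕ) : ℤ) * hcd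
  have h : (atkinSystem hq).elt γ () =
      w * Modular.Degeneracy.alHom L (q : ℕ) γ * w⁻¹ := by
    refine ((atkinSystem hq).next_elt_eq_of_eq (j := ()) ?_).2
    show atkinMatrix hq * _ = _ * atkinMatrix hq
    rw [← hw, Matrix.mul_assoc, Modular.Degeneracy.alHom_spec, ← Matrix.mul_assoc,
      ← Matrix.mul_assoc, ← Matrix.SpecialLinearGroup.coe_mul,
      ← Matrix.SpecialLinearGroup.coe_mul, ← Subgroup.coe_mul, ← Subgroup.coe_mul,
      inv_mul_cancel_right]
  rw [h, Modular.Degeneracy.apply_conj_eq]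
  rfl

end compare

variable {W : Type} [AddCommGroup W] [Module A W]

/-- Cuspidal classes are stable under the Hecke polynomials. -/
theorem exists_cuspidal_smul (hV : ∀ u (v : W), (χ u : A) • v = v) (P : BettiHeckeAlg A)
    (c : bettiCocycles (Gamma0 L) (nebenChar χ) W)
    (hc : Modular.IsCuspidalHom (cocycleHom hV c)) :
    ∃ d, BettiMod.mk d = P • BettiMod.mk c ∧ Modular.IsCuspidalHom (cocycleHom hV d) := by
  induction P using MvPolynomial.induction_on generalizing c with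
  | C a =>
    refine ⟨a • c, ?_, fun γ hγ => ?_⟩
    · rw [map_smul, ← MvPolynomial.algebraMap_eq, algebraMap_smul]
    · rw [cocycleHom_apply, Submodule.coe_smul, Pi.smul_apply, ← cocycleHom_apply hV, hc γ hγ,
        smul_zero]
  | add P Q hP hQ =>
    obtain ⟨d, hd, hd'⟩ := hP c hc
    obtain ⟨e, he, he'⟩ := hQ c hc
    refine ⟨d + e, by rw [map_add, hd, he, add_smul], fun γ hγ => ?_⟩
    rw [cocycleHom_apply, Submodule.coe_add, Pi.add_apply, ← cocycleHom_apply hV,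
      ← cocycleHom_apply hV, hd' γ hγ, he' γ hγ, add_zero]
  | mul_X P l hP =>
    obtain ⟨d, hd, hd'⟩ := hP ((bettiHeckeSystem L l).transferCocycles W
      (isWeight_heckeWeight χ l) c) fun γ hγ => by
        rw [cocycleHom_apply, hecke_cocycle_apply_of_trivial hV]
        exact Modular.op_mem_cuspidalHoms (R := A) _ hc γ hγ
    exact ⟨d, by rw [hd, mul_smul, BettiMod.X_smul_mk], hd'⟩

theorem exists_levelDownMod_eq [NeZero L] (hq : ¬ (q : ℕ) ∣ L)
    (hV : ∀ u (v : K), (χ u : A) • v = v) {k : Type} [Field k] {Pr : Set Nat.Primes}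
    (θ : BettiHeckeAlg A →+* k) (hell : EllipticHarmless L Pr θ) {l : Nat.Primes}
    (hl : ((l : ℕ) : ZMod (Modular.Ihara.iharaLevel L q)) = 1) (hlPr : l ∈ Pr)
    (hne : θ (X l) ≠ θ (C (((l : ℕ) : A) + 1))) (y : Fin 2 → BettiMod L χ K) :
    ∃ s ∈ bettiResidualSubmonoid Pr θ, ∃ x, levelDownMod χ K hq x = s • y := by
  classical
  have : NeZero (q : ℕ) := ⟨q.2.ne_zero⟩
  have : Fact (q : ℕ).Prime := ⟨q.2⟩
  have : Fact (Nat.Coprime (q : ℕ) L) := ⟨q.2.coprime_iff_not_dvd.2 hq⟩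
  have hlL1 := cast_eq_one_of_iharaLevel hl
  have hV' : ∀ u (v : K), (raiseChar q χ u : A) • v = v := fun u v => hV _ v
  obtain ⟨s₀, hs₀, c₀, hc₀, hcusp₀⟩ := exists_smul_cuspidal hV θ hell hlL1 hlPr hne (y 0)
  obtain ⟨s₁, hs₁, c₁, hc₁, hcusp₁⟩ := exists_smul_cuspidal hV θ hell hlL1 hlPr hne (s₀ • y 1)
  obtain ⟨d₀, hd₀, hd₀'⟩ := exists_cuspidal_smul hV s₁ c₀ hcusp₀
  have hd₁' : Modular.IsCuspidalHom (cocycleHom hV c₁) := hcusp₁
  set E : BettiHeckeAlg A := X l - C (((l : ℕ) : A) + 1)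
  have hE : E ∈ bettiResidualSubmonoid Pr θ := ⟨Subalgebra.sub_mem _ (X_mem_supported_set hlPr)
    (C_mem_supported_set Pr _), by rwa [map_sub, sub_ne_zero]⟩
  obtain ⟨w, hw⟩ := Modular.LevelRaising.hecke_sub_mem_range_degBeta (K := K) (N := L) (q := (q : ℕ))
    l (not_dvd_of_cast_eq_one l hlL1) hl (⟨cocycleHom hV d₀, hd₀'⟩, ⟨cocycleHom hV c₁, hd₁'⟩)
  have hneg : ∀ γ : Gamma0 (L * (q : ℕ)), (γ : SL(2, ℤ)) = -1 →
      w.1 (Additive.ofMul γ) = 0 := fun γ hγ => w.2 γ (by rw [hγ]; simp)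
  set x := homCocycle hV' w.1 hneg
  set z := (atkinSystem hq).transferCocycles K (isWeight_atkin hq χ) x
  have hTz : ∀ (c : bettiCocycles (Gamma0 (L * (q : ℕ))) (nebenChar (raiseChar q χ)) K)
      (ψ : Additive (Gamma0 (L * (q : ℕ))) →+ K),
      (∀ γ, (c : Gamma0 (L * (q : ℕ)) → K) γ = ψ (Additive.ofMul γ)) → ∀ γ : Gamma0 L,
      ((traceSystem hq).transferCocycles K (isWeight_trace hq χ) c : Gamma0 L → K) γ =
        Modular.Degeneracy.degCores L (q : ℕ) K K ψ (Additive.ofMul γ) := fun c ψ h γ => by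
    rw [CosetSystem.transferCocycles_apply, Modular.Degeneracy.degCores_apply,
      ← Modular.Degeneracy.degCores_apply L (q : ℕ) A K ψ, ← sum_traceSystem_elt hq ψ γ]
    exact Finset.sum_congr rfl fun j _ => by rw [hV, h]
  have hz : ∀ γ, (z : Gamma0 (L * (q : ℕ)) → K) γ =
      Modular.Degeneracy.alOp L (q : ℕ) K K w.1 (Additive.ofMul γ) := fun γ => by
    rw [CosetSystem.transferCocycles_apply, Fintype.sum_unique, one_smul]
    exact atkinSystem_elt_apply (A := A) hq w.1 γ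
  have key : ∀ (d : bettiCocycles (Gamma0 L) (nebenChar χ) K)
      (hd : Modular.IsCuspidalHom (cocycleHom hV d))
      (c : bettiCocycles (Gamma0 (L * (q : ℕ))) (nebenChar (raiseChar q χ)) K),
      (∀ γ : Gamma0 L,
        ((traceSystem hq).transferCocycles K (isWeight_trace hq χ) c : Gamma0 L → K) γ =
          ((Modular.heckeCuspOp K K L l ⟨cocycleHom hV d, hd⟩ -
            (((l : ℕ) : K) + 1) • ⟨cocycleHom hV d, hd⟩ : Modular.cuspidalHoms K (Gamma0 L) K) :
              Additive (Gamma0 L) →+ K) (Additive.ofMul γ)) →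
      levelTrace hq χ K (BettiMod.mk c) = E • BettiMod.mk d := fun d hd c hc => by
    rw [sub_smul, BettiMod.X_smul_mk, ← MvPolynomial.algebraMap_eq, algebraMap_smul, ← map_smul,
      ← map_sub]
    refine congrArg BettiMod.mk (Subtype.ext (funext fun γ => ?_))
    rw [hc γ]
    simp [hecke_cocycle_apply_of_trivial hV, Modular.heckeHomOp_apply, Algebra.smul_def,
      cocycleHom_apply]
  refine ⟨E * (s₁ * s₀), Submonoid.mul_mem _ hE (Submonoid.mul_mem _ hs₁ hs₀), BettiMod.mk x,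
    funext fun a => ?_⟩
  have h0 := congrArg (fun p => (p.1 : Additive (Gamma0 L) →+ K)) hw
  have h1 := congrArg (fun p => (p.2 : Additive (Gamma0 L) →+ K)) hw
  simp only [Prod.fst_sub, Prod.snd_sub, Prod.smul_fst, Prod.smul_snd] at h0 h1
  fin_cases a
  · show levelTrace hq χ K (BettiMod.mk x) = (E * (s₁ * s₀)) • y 0
    rw [mul_smul, mul_smul, ← hc₀, ← hd₀]
    refine key d₀ hd₀' x fun γ => ?_
    rw [hTz x w.1 (fun _ => rfl) γ, ← h0]
    rfl
  · show levelTrace hq χ K (levelAtkin hq χ K (BettiMod.mk x)) = (E * (s₁ * s₀)) • y 1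
    rw [mul_smul, mul_smul, ← hc₁]
    refine key c₁ hd₁' z fun γ => ?_
    rw [hTz z _ hz γ, ← h1]
    rfl

theorem levelDownLoc_surjective [NeZero L] (hq : ¬ (q : ℕ) ∣ L)
    (hV : ∀ u (v : K), (χ u : A) • v = v) {k : Type} [Field k] {Pr : Set Nat.Primes}
    (θ : BettiHeckeAlg A →+* k) (hqPr : q ∉ Pr) (hell : EllipticHarmless L Pr θ) {l : Nat.Primes}
    (hl : ((l : ℕ) : ZMod (Modular.Ihara.iharaLevel L q)) = 1) (hlPr : l ∈ Pr)
    (hne : θ (X l) ≠ θ (C (((l : ℕ) : A) + 1))) :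
    Function.Surjective (levelDownLoc χ K hq (awayFrom_residual hqPr θ)) := by
  intro v
  obtain ⟨w, s, rfl⟩ := exists_common_denom v
  obtain ⟨t, ht, x, hx⟩ := exists_levelDownMod_eq hq hV θ hell hl hlPr hne w
  refine ⟨LocalizedModule.mk x (⟨t, ht⟩ * s), funext fun a => ?_⟩
  have hdown : levelDownLoc χ K hq (awayFrom_residual hqPr θ)
      (LocalizedModule.mk x (⟨t, ht⟩ * s)) a =
      LocalizedModule.mk (levelDownMod χ K hq x a) (⟨t, ht⟩ * s) := by
    fin_cases a <;> simp [levelDownLoc, levelDownMod, awayLocMap_mk]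
  rw [hdown, hx]
  exact LocalizedModule.mk_cancel_common_left ⟨t, ht⟩ s (w a)

end FermatLib.MLT

end
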