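import Fermat.Agent.MLT.BettiResidual
import Fermat.Prelude.Thm_IsLocalRing_isAdicComplete_of_module_finite
import Mathlib.RingTheory.Henselian

/-!
# Inverses and simple roots on a module localised at a residual character

Over a complete local ring the operators on a finite module localised at a residual character
form a complete local ring, so residual inverses and simple residual roots lift.
-/

set_option autoImplicit false

noncomputable section

namespace FermatLib.MLT

variable {A : Type} [CommRing A] [IsLocalRing A] [IsNoetherianRing A]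
  [IsAdicComplete (IsLocalRing.maximalIdeal A) A] {R : Type} [CommRing R] [Algebra A R]
  {k : Type} [Field k] (R₀ : Subalgebra A R) (θ : R →+* k)
  (hθ : ∀ a ∈ IsLocalRing.maximalIdeal A, θ (algebraMap A R a) = 0)
  (hsurj : Function.Surjective (θ.comp (algebraMap A R)))
  (M : Type) [AddCommGroup M] [Module A M] [Module R M] [IsScalarTower A R M] [Module.Finite A M]

/-- The action of `R₀` on the localisation. -/
def residualAct : R₀ →ₐ[A] Module.End A (LocalizedModule (charSubmonoid R₀ θ) M) :=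
  (Algebra.lsmul A A (LocalizedModule (charSubmonoid R₀ θ) M)).comp R₀.val

theorem residualAct_apply (r : R₀) (x : LocalizedModule (charSubmonoid R₀ θ) M) :
    residualAct R₀ θ M r x = (r : R) • x := rfl

theorem residualAct_eq_zero_iff (r : R₀) :
    residualAct R₀ θ M r = 0 ↔ ∀ m : M, ∃ u ∈ charSubmonoid R₀ θ, u • (r : R) • m = 0 := by
  constructor
  · intro h m
    have h1 := LinearMap.congr_fun h (LocalizedModule.mk m 1)
    rw [residualAct_apply, LocalizedModule.smul'_mk, LinearMap.zero_apply,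
      ← LocalizedModule.zero_mk 1, LocalizedModule.mk_eq] at h1
    obtain ⟨⟨u, hu⟩, h1⟩ := h1
    exact ⟨u, hu, by simpa [Submonoid.smul_def] using h1⟩
  · intro h
    refine LinearMap.ext fun x => ?_
    induction x using LocalizedModule.induction_on with
    | h m s =>
      obtain ⟨u, hu, hm⟩ := h m
      rw [residualAct_apply, LocalizedModule.smul'_mk, LinearMap.zero_apply,
        ← LocalizedModule.zero_mk s, LocalizedModule.mk_eq]
      refine ⟨⟨u, hu⟩, ?_⟩
      simp only [Submonoid.smul_def, smul_zero]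
      rw [smul_comm u (s : R), hm, smul_zero]

theorem residualAct_injective_of_mem {r : R₀} (hr : θ r ≠ 0) :
    Function.Injective (residualAct R₀ θ M r) := by
  have h := (Module.End.isUnit_iff _).1 (IsLocalizedModule.map_units
    (LocalizedModule.mkLinearMap (charSubmonoid R₀ θ) M) ⟨(r : R), mem_charSubmonoid.2 ⟨r.2, hr⟩⟩)
  exact h.1

include hθ in
theorem residualAct_quotient_finite :
    Module.Finite A (R₀ ⧸ RingHom.ker (residualAct R₀ θ M)) := by
  classical
  set N := LocalizedModule (charSubmonoid R₀ θ) M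
  haveI : Module.Finite A N := localizedModule_charSubmonoid_finite R₀ θ hθ M
  haveI : IsNoetherian A N := isNoetherian_of_isNoetherianRing_of_finite A N
  obtain ⟨n, g, hg⟩ := Module.Finite.exists_fin' A N
  let ev : R₀ →ₗ[A] (Fin n → N) :=
    { toFun := fun r i => residualAct R₀ θ M r (g (Pi.single i 1))
      map_add' := fun r r' => by funext i; simp [map_add]
      map_smul' := fun a r => by funext i; simp [map_smul] }
  have hker : ((RingHom.ker (residualAct R₀ θ M)).restrictScalars A) = LinearMap.ker ev := by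
    ext r
    simp only [Submodule.restrictScalars_mem, LinearMap.mem_ker, RingHom.mem_ker]
    constructor
    · intro h
      funext i
      show residualAct R₀ θ M r _ = 0
      rw [h]
      rfl
    · intro h
      refine LinearMap.ext fun x => ?_
      obtain ⟨v, rfl⟩ := hg x
      rw [pi_eq_sum_univ' v, map_sum, map_sum, map_sum]
      refine Finset.sum_congr rfl fun i _ => ?_
      rw [map_smul, map_smul, map_smul,
        show residualAct R₀ θ M r (g (Pi.single i 1)) = 0 from congrFun h i]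
      rfl
  let e : (R₀ ⧸ RingHom.ker (residualAct R₀ θ M)) ≃ₗ[A] LinearMap.range ev :=
    (Submodule.Quotient.restrictScalarsEquiv A (RingHom.ker (residualAct R₀ θ M))).symm.trans
      ((Submodule.quotEquivOfEq _ _ hker).trans ev.quotKerEquivRange)
  exact Module.Finite.equiv e.symm

include hθ hsurj in
/-- Residual simple roots lift to the localisation. -/
theorem exists_residual_root (b c : R₀) (α : k) (hroot : α ^ 2 - θ b * α + θ c = 0)
    (hsimple : 2 * α ≠ θ b) :
    ∃ a : R₀, θ a = α ∧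
      ∀ m : M, ∃ u ∈ charSubmonoid R₀ θ, u • ((a ^ 2 - b * a + c : R₀) : R) • m = 0 := by
  classical
  obtain ⟨a₀, ha₀⟩ := hsurj α
  set J := RingHom.ker (residualAct R₀ θ M)
  let θ₀ : R₀ →+* k := θ.comp R₀.val.toRingHom
  by_cases htriv : ∃ r ∈ J, θ₀ r ≠ 0
  · -- the localisation is zero
    obtain ⟨r, hr, hr0⟩ := htriv
    have hN : ∀ x : LocalizedModule (charSubmonoid R₀ θ) M, x = 0 := fun x =>
      residualAct_injective_of_mem R₀ θ M hr0 (by rw [RingHom.mem_ker.1 hr]; rfl)
    refine ⟨algebraMap A R₀ a₀, ha₀, (residualAct_eq_zero_iff R₀ θ M _).1 ?_⟩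
    exact LinearMap.ext fun x => hN _
  push Not at htriv
  haveI hfin : Module.Finite A (R₀ ⧸ J) := residualAct_quotient_finite R₀ θ hθ M
  let θT : (R₀ ⧸ J) →+* k := Ideal.Quotient.lift J θ₀ htriv
  haveI : Nontrivial (R₀ ⧸ J) := θT.domain_nontrivial
  have hθT : ∀ a ∈ IsLocalRing.maximalIdeal A, θT (algebraMap A (R₀ ⧸ J) a) = 0 := fun a ha =>
    hθ a ha
  have hunit : ∀ x : R₀ ⧸ J, θT x ≠ 0 → IsUnit x := by
    intro x hx
    obtain ⟨t, u, hu, he⟩ := exists_partial_inverse (R₀ ⧸ J) θT hθT x hx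
    obtain ⟨u₀, rfl⟩ := Ideal.Quotient.mk_surjective u
    obtain ⟨t₀, rfl⟩ := Ideal.Quotient.mk_surjective t
    obtain ⟨x₀, rfl⟩ := Ideal.Quotient.mk_surjective x
    refine .of_mul_eq_one_right (Ideal.Quotient.mk J t₀) ?_
    rw [← map_mul, ← map_one (Ideal.Quotient.mk J), Ideal.Quotient.eq, RingHom.mem_ker]
    rw [← map_mul, ← map_mul, Ideal.Quotient.eq, RingHom.mem_ker, map_sub, map_mul, sub_eq_zero] at he
    refine LinearMap.ext fun y => residualAct_injective_of_mem R₀ θ M (r := u₀) hu ?_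
    rw [LinearMap.zero_apply, map_zero, map_sub, map_one, LinearMap.sub_apply, map_sub, sub_eq_zero]
    have := LinearMap.congr_fun he y
    simpa using this
  haveI : IsLocalRing (R₀ ⧸ J) := by
    refine IsLocalRing.of_isUnit_or_isUnit_one_sub_self fun x => ?_
    by_cases hx : θT x = 0
    · exact Or.inr (hunit _ (by simp [hx]))
    · exact Or.inl (hunit _ hx)
  have hmax : ∀ x : R₀ ⧸ J, θT x = 0 → x ∈ IsLocalRing.maximalIdeal (R₀ ⧸ J) := fun x hx => by
    rw [IsLocalRing.mem_maximalIdeal, mem_nonunits_iff]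
    intro h
    exact (h.map θT).ne_zero hx
  haveI : IsLocalHom (algebraMap A (R₀ ⧸ J)) := ⟨fun a ha => by
    by_contra h
    exact (ha.map θT).ne_zero (hθT a ((IsLocalRing.mem_maximalIdeal a).2 h))⟩
  haveI := IsLocalRing.isAdicComplete_of_module_finite (𝒪 := A) (T := R₀ ⧸ J)
  let f : Polynomial (R₀ ⧸ J) :=
    Polynomial.X ^ 2 - Polynomial.C (Ideal.Quotient.mk J b) * Polynomial.X +
      Polynomial.C (Ideal.Quotient.mk J c)
  have hf : f.Monic := by simp only [f]; monicity!
  let x₀ : R₀ ⧸ J := algebraMap A (R₀ ⧸ J) a₀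
  have hx₀ : θT x₀ = α := ha₀
  have heval : θT (f.eval x₀) = 0 := by
    simp only [f, Polynomial.eval_add, Polynomial.eval_sub, Polynomial.eval_pow,
      Polynomial.eval_mul, Polynomial.eval_X, Polynomial.eval_C, map_add, map_sub, map_pow,
      map_mul, hx₀]
    exact hroot
  have hder : θT (f.derivative.eval x₀) ≠ 0 := by
    have h2 : f.derivative.eval x₀ = 2 * x₀ - Ideal.Quotient.mk J b := by
      simp [f, one_add_one_eq_two]
    rw [h2, map_sub, map_mul, map_ofNat, hx₀]
    exact sub_ne_zero.2 hsimple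
  obtain ⟨x, hx, hxx₀⟩ := HenselianRing.is_henselian (I := IsLocalRing.maximalIdeal (R₀ ⧸ J))
    f hf x₀ (hmax _ heval) ((hunit _ hder).map _)
  have hxα : θT x = α := by
    rw [← hx₀, ← sub_eq_zero, ← map_sub]
    by_contra h
    exact (IsLocalRing.mem_maximalIdeal _).1 hxx₀ (hunit _ h)
  obtain ⟨a, rfl⟩ := Ideal.Quotient.mk_surjective x
  refine ⟨a, hxα, (residualAct_eq_zero_iff R₀ θ M _).1 ?_⟩
  have : Ideal.Quotient.mk J (a ^ 2 - b * a + c) = 0 := by
    have h := hx.eq_zero
    simpa [f] using h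
  exact RingHom.mem_ker.1 (Ideal.Quotient.eq_zero_iff_mem.1 this)

include hθ hsurj in
/-- Residual inverses lift to the localisation. -/
theorem exists_residual_inverse (r : R₀) (hr : θ r ≠ 0) :
    ∃ t : R₀, θ t * θ r = 1 ∧
      ∀ m : M, ∃ u ∈ charSubmonoid R₀ θ, u • ((t * r - 1 : R₀) : R) • m = 0 := by
  classical
  set J := RingHom.ker (residualAct R₀ θ M)
  let θ₀ : R₀ →+* k := θ.comp R₀.val.toRingHom
  by_cases htriv : ∃ r ∈ J, θ₀ r ≠ 0
  · obtain ⟨r', hr', hr0⟩ := htriv
    have hN : ∀ x : LocalizedModule (charSubmonoid R₀ θ) M, x = 0 := fun x =>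
      residualAct_injective_of_mem R₀ θ M hr0 (by rw [RingHom.mem_ker.1 hr']; rfl)
    obtain ⟨t₀, ht₀⟩ := hsurj (θ r)⁻¹
    refine ⟨algebraMap A R₀ t₀, ?_, (residualAct_eq_zero_iff R₀ θ M _).1 ?_⟩
    · rw [show θ (algebraMap A R₀ t₀ : R₀) = (θ r)⁻¹ from ht₀, inv_mul_cancel₀ hr]
    · exact LinearMap.ext fun x => hN _
  push Not at htriv
  haveI hfin : Module.Finite A (R₀ ⧸ J) := residualAct_quotient_finite R₀ θ hθ M
  let θT : (R₀ ⧸ J) →+* k := Ideal.Quotient.lift J θ₀ htriv
  obtain ⟨t, u, hu, he⟩ := exists_partial_inverse (R₀ ⧸ J) θT (fun a ha => hθ a ha)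
    (Ideal.Quotient.mk J r) hr
  obtain ⟨u₀, rfl⟩ := Ideal.Quotient.mk_surjective u
  obtain ⟨t₀, rfl⟩ := Ideal.Quotient.mk_surjective t
  rw [← map_mul, ← map_mul, Ideal.Quotient.eq, RingHom.mem_ker, map_sub, map_mul, sub_eq_zero] at he
  have h0 : residualAct R₀ θ M (t₀ * r - 1) = 0 := by
    refine LinearMap.ext fun y => residualAct_injective_of_mem R₀ θ M (r := u₀) hu ?_
    rw [LinearMap.zero_apply, map_zero, map_sub, map_one, LinearMap.sub_apply, map_sub, sub_eq_zero]
    have := LinearMap.congr_fun he y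
    simpa using this
  refine ⟨t₀, ?_, (residualAct_eq_zero_iff R₀ θ M _).1 h0⟩
  have h1 : θ₀ (t₀ * r - 1) = 0 := htriv _ (RingHom.mem_ker.2 h0)
  rw [map_sub, map_mul, map_one, sub_eq_zero] at h1
  exact h1

end FermatLib.MLT

end
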