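import Fermat.Agent.MLT.Hecke.LevelChangeSubst
import Fermat.Agent.MLT.Hecke.LevelChangeHensel

/-!
# Level change at a Taylor–Wiles prime, residual form

For a residual character `θ` at level `L`, a prime `q ∤ L` among the operators defining the
localisation and a root `α` of `X² - θ(T q) X + q χ(q)` different from the other root and with
`α² ≠ χ(q)`, the localised classes of level `L` are those of level `L q` at the character with
`U q = α`.
-/

set_option autoImplicit false

noncomputable section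

open scoped MatrixGroups
open CongruenceSubgroup MvPolynomial

namespace FermatLib.MLT

variable {A : Type} [CommRing A] {k : Type} [Field k]

/-- The residual character with the value at `X q` replaced by `α`. -/
def residualRaise (θ : BettiHeckeAlg A →+* k) (q : Nat.Primes) (α : k) :
    BettiHeckeAlg A →+* k :=
  eval₂Hom (θ.comp C) fun p => if p = q then α else θ (X p)

@[simp] theorem residualRaise_X_self (θ : BettiHeckeAlg A →+* k) (q : Nat.Primes) (α : k) :
    residualRaise θ q α (X q) = α := by simp [residualRaise]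

theorem residualRaise_X_of_ne (θ : BettiHeckeAlg A →+* k) {q l : Nat.Primes} (α : k) (hl : l ≠ q) :
    residualRaise θ q α (X l) = θ (X l) := by simp [residualRaise, hl]

@[simp] theorem residualRaise_C (θ : BettiHeckeAlg A →+* k) (q : Nat.Primes) (α : k) (r : A) :
    residualRaise θ q α (C r) = θ (C r) := by simp [residualRaise]

theorem substPrime_mem_supported {Pr : Set Nat.Primes} {q : Nat.Primes} {a : BettiHeckeAlg A}
    (ha : a ∈ supported A Pr) {P : BettiHeckeAlg A} (hP : P ∈ supported A Pr) :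
    substPrime q a P ∈ supported A Pr := by
  induction hP using Algebra.adjoin_induction with
  | mem x hx =>
    obtain ⟨l, hl, rfl⟩ := hx
    by_cases h : l = q
    · subst h
      rwa [substPrime_X_self]
    · rw [substPrime_X_of_ne _ h]
      exact X_mem_supported_set hl
  | algebraMap r =>
    rw [AlgHom.commutes]
    exact Subalgebra.algebraMap_mem _ r
  | add x y _ _ hx hy => rw [map_add]; exact add_mem hx hy
  | mul x y _ _ hx hy => rw [map_mul]; exact mul_mem hx hy

theorem residual_substPrime {θ θ' : BettiHeckeAlg A →+* k} {q : Nat.Primes}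
    {a : BettiHeckeAlg A} (hC : ∀ r : A, θ (C r) = θ' (C r))
    (hX : ∀ l, l ≠ q → θ (X l) = θ' (X l)) (ha : θ a = θ' (X q)) (P : BettiHeckeAlg A) :
    θ (substPrime q a P) = θ' P := by
  refine RingHom.congr_fun (f := θ.comp (substPrime q a).toRingHom) (g := θ')
    (ringHom_ext (fun r => ?_) fun l => ?_) P
  · simp [hC]
  · by_cases h : l = q
    · subst h
      simp [ha]
    · simp [substPrime_X_of_ne _ h, hX l h]

variable [IsLocalRing A] [IsNoetherianRing A] [IsAdicComplete (IsLocalRing.maximalIdeal A) A]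
  {L : ℕ} [NeZero L] {χ : (ZMod L)ˣ →* Aˣ} {V : Type} [AddCommGroup V] [Module A V]
  [Module.Finite A V] {q : Nat.Primes}

/-- The level change at a residual character. -/
theorem exists_isLevelRoot (hq : ¬ (q : ℕ) ∣ L) (Pr : Set Nat.Primes) (hqPr : q ∈ Pr)
    (θ : BettiHeckeAlg A →+* k)
    (hθ : ∀ r ∈ IsLocalRing.maximalIdeal A, θ (C r) = 0)
    (hsurj : Function.Surjective (θ.comp C)) (α : k)
    (hroot : α ^ 2 - θ (X q) * α + θ (C (((q : ℕ) : A) * (χ (levelUnit hq) : A))) = 0)
    (hα0 : α ≠ 0) (hsimple : 2 * α ≠ θ (X q)) :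
    ∃ a τ : BettiHeckeAlg A, a ∈ supported A Pr ∧ θ a = α ∧
      IsLevelRoot χ V hq (bettiResidualSubmonoid Pr θ)
        (bettiResidualSubmonoid Pr (residualRaise θ q α)) a τ := by
  haveI : NeZero (L * (q : ℕ)) := ⟨mul_ne_zero (NeZero.ne L) q.2.ne_zero⟩
  set κ : A := ((q : ℕ) : A) * (χ (levelUnit hq) : A)
  set θ' := residualRaise θ q α
  obtain ⟨a, ha, hakill⟩ := exists_residual_root (supported A Pr) θ hθ hsurj (BettiMod L χ V)
    ⟨X q, X_mem_supported_set hqPr⟩ ⟨C κ, C_mem_supported_set Pr κ⟩ α hroot hsimple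
  obtain ⟨w, hw, hwkill⟩ := exists_residual_inverse (supported A Pr) θ'
    (fun r hr => by rw [MvPolynomial.algebraMap_eq, residualRaise_C]; exact hθ r hr)
    (fun x => by
      obtain ⟨r, hr⟩ := hsurj x
      exact ⟨r, by simpa [MvPolynomial.algebraMap_eq, θ'] using hr⟩)
    (BettiMod (L * (q : ℕ)) (raiseChar q χ) V)
    ⟨X q, X_mem_supported_set hqPr⟩ (by simpa [θ'] using hα0)
  set τ : BettiHeckeAlg A := X q + C κ * (w : BettiHeckeAlg A) with hτ
  have hτmem : τ ∈ supported A Pr :=
    add_mem (X_mem_supported_set hqPr) (mul_mem (C_mem_supported_set Pr κ) w.2)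
  have hθτ : θ' τ = θ (X q) := by
    have hw' : θ' (w : BettiHeckeAlg A) * α = 1 := by simpa [θ'] using hw
    rw [hτ, map_add, map_mul, residualRaise_X_self, residualRaise_C]
    linear_combination θ (X q) * hw' + θ' (w : BettiHeckeAlg A) * hroot - α * hw'
  have hψ : ∀ P, θ' (substPrime q τ P) = θ P := residual_substPrime (fun r => by simp [θ'])
    (fun l hl => residualRaise_X_of_ne θ α hl) hθτ
  have hφ : ∀ P, θ (substPrime q (a : BettiHeckeAlg A) P) = θ' P :=
    residual_substPrime (fun r => by simp [θ']) (fun l hl => (residualRaise_X_of_ne θ α hl).symm)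
      (by simpa [θ'] using ha)
  refine ⟨a, τ, a.2, ha, fun P hP => ⟨substPrime_mem_supported hτmem hP.1, ?_⟩,
    fun P hP => ⟨substPrime_mem_supported a.2 hP.1, ?_⟩, hakill, fun m => ?_, ?_, ?_⟩
  · rw [hψ]
    exact hP.2
  · rw [hφ]
    exact hP.2
  · obtain ⟨v, hv, hvm⟩ := hwkill m
    refine ⟨v, hv, ?_⟩
    have e : (X q ^ 2 - τ * X q + C κ : BettiHeckeAlg A)
        = -(C κ) * ((w * ⟨X q, X_mem_supported_set hqPr⟩ - 1 : supported A Pr) :
            BettiHeckeAlg A) := by
      push_cast
      rw [hτ]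
      ring
    rw [e, mul_smul, smul_comm v (-(C κ) : BettiHeckeAlg A), hvm, smul_zero]
  · exact ⟨X_mem_supported_set hqPr, by simpa [θ'] using hα0⟩
  · refine ⟨sub_mem (add_mem (X_mem_supported_set hqPr) (substPrime_mem_supported hτmem a.2))
      hτmem, ?_⟩
    rw [map_sub, map_add, hψ, hθτ, ha, residualRaise_X_self, sub_ne_zero, ← two_mul]
    exact hsimple

/-- Level change at a Taylor–Wiles prime. -/
theorem exists_bettiLevelEquiv (hq : ¬ (q : ℕ) ∣ L) (Pr : Set Nat.Primes) (hqPr : q ∈ Pr)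
    (θ : BettiHeckeAlg A →+* k)
    (hθ : ∀ r ∈ IsLocalRing.maximalIdeal A, θ (C r) = 0)
    (hsurj : Function.Surjective (θ.comp C)) (α : k)
    (hroot : α ^ 2 - θ (X q) * α + θ (C (((q : ℕ) : A) * (χ (levelUnit hq) : A))) = 0)
    (hα0 : α ≠ 0) (hsimple : 2 * α ≠ θ (X q))
    (hnew : α ^ 2 ≠ θ (C (χ (levelUnit hq) : A))) :
    ∃ (a : BettiHeckeAlg A) (e : BettiLoc L χ V (bettiResidualSubmonoid Pr θ) ≃ₗ[A]
        BettiLoc (L * (q : ℕ)) (raiseChar q χ) V
          (bettiResidualSubmonoid Pr (residualRaise θ q α))),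
      a ∈ supported A Pr ∧ θ a = α ∧
      (∀ P x, e (substPrime q a P • x) = P • e x) ∧
      ∀ m, e (LocalizedModule.mk m 1) = LocalizedModule.mk (levelDegen₁ q χ V m) 1 := by
  obtain ⟨a, τ, ha, hθa, h⟩ :=
    exists_isLevelRoot (V := V) hq Pr hqPr θ hθ hsurj α hroot hα0 hsimple
  have hS : (X q ^ 2 - C (χ (levelUnit hq) : A) : BettiHeckeAlg A) ∈
      bettiResidualSubmonoid Pr (residualRaise θ q α) :=
    ⟨sub_mem (pow_mem (X_mem_supported_set hqPr) 2) (C_mem_supported_set Pr _),
      by simpa [sub_ne_zero] using hnew⟩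
  exact ⟨a, h.raiseEquiv hS, ha, hθa, h.raiseEquiv_smul hS, h.raiseEquiv_mk_one hS⟩

end FermatLib.MLT

end
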