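import Fermat.Agent.MLT.Hecke.LevelChangeComm

/-!
# Level change at a Taylor–Wiles prime

`q` is a prime not dividing `L`.  If the Hecke polynomial at `q` has a root `a` on a localisation
of the classes of level `L`, separated from the other root and with square different from `χ q`,
then that localisation is the localisation at level `L q` in which `U q` is `a`.
-/

set_option autoImplicit false

noncomputable section

open scoped MatrixGroups
open CongruenceSubgroup MvPolynomial

namespace FermatLib.MLT

variable {A : Type} [CommRing A] {L : ℕ} {q : Nat.Primes}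

/-- Substituting `a` for `X q`. -/
def substPrime (q : Nat.Primes) (a : BettiHeckeAlg A) : BettiHeckeAlg A →ₐ[A] BettiHeckeAlg A :=
  aeval fun p => if p = q then a else X p

@[simp] theorem substPrime_X_self (a : BettiHeckeAlg A) :
    substPrime q a (X q) = a := by simp [substPrime]

theorem substPrime_X_of_ne (a : BettiHeckeAlg A) {l : Nat.Primes} (hl : l ≠ q) :
    substPrime q a (X l) = X l := by simp [substPrime, hl]

@[simp] theorem substPrime_C (a : BettiHeckeAlg A) (r : A) : substPrime q a (C r) = C r := by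
  simp [substPrime, MvPolynomial.algebraMap_eq]

/-- `X² - T q X + q χ(q)` at the point `a`, as an operator at level `L`. -/
def heckeRootPoly (hq : ¬ (q : ℕ) ∣ L) (χ : (ZMod L)ˣ →* Aˣ) (a : BettiHeckeAlg A) :
    BettiHeckeAlg A :=
  a ^ 2 - X q * a + C (((q : ℕ) : A) * (χ (levelUnit hq) : A))

variable {χ : (ZMod L)ˣ →* Aˣ} {V : Type} [AddCommGroup V] [Module A V]

theorem BettiMod.C_smul (r : A) (m : BettiMod L χ V) : (C r : BettiHeckeAlg A) • m = r • m := by
  rw [← MvPolynomial.algebraMap_eq, algebraMap_smul]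

variable (χ V) in
/-- The hypotheses of the level change: `a` is a root of the Hecke polynomial on the classes
localised at `S₁`, `τ` is `U q + q χ(q) / U q` on the classes localised at `S`. -/
structure IsLevelRoot (hq : ¬ (q : ℕ) ∣ L) (S₁ S : Submonoid (BettiHeckeAlg A))
    (a τ : BettiHeckeAlg A) : Prop where
  psi_mem : ∀ P ∈ S₁, substPrime q τ P ∈ S
  phi_mem : ∀ P ∈ S, substPrime q a P ∈ S₁
  root : ∀ m : BettiMod L χ V, ∃ u ∈ S₁, u • heckeRootPoly hq χ a • m = 0
  tau : ∀ m : BettiMod (L * (q : ℕ)) (raiseChar q χ) V, ∃ v ∈ S,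
    v • (X q ^ 2 - τ * X q + C (((q : ℕ) : A) * (χ (levelUnit hq) : A)) : BettiHeckeAlg A) • m = 0
  X_mem : (X q : BettiHeckeAlg A) ∈ S
  sep_mem : (X q + substPrime q τ a - τ : BettiHeckeAlg A) ∈ S

variable (χ V) in
/-- A class of level `L`, raised and localised. -/
def raiseLoc (q : Nat.Primes) (S : Submonoid (BettiHeckeAlg A)) (m : BettiMod L χ V) :
    BettiLoc (L * (q : ℕ)) (raiseChar q χ) V S :=
  LocalizedModule.mk (levelDegen₁ q χ V m) 1

theorem BettiLoc.smul_cancel {S : Submonoid (BettiHeckeAlg A)} {v : BettiHeckeAlg A} (hv : v ∈ S)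
    {x y : BettiLoc L χ V S} (h : v • x = v • y) : x = y :=
  ((Module.End.isUnit_iff _).1 (IsLocalizedModule.map_units
    (LocalizedModule.mkLinearMap S (BettiMod L χ V)) ⟨v, hv⟩)).1 (by simpa using h)

theorem raiseLoc_smul_X_sq (hq : ¬ (q : ℕ) ∣ L) {S : Submonoid (BettiHeckeAlg A)}
    (m : BettiMod L χ V) :
    (X q ^ 2 : BettiHeckeAlg A) • raiseLoc χ V q S m +
        (C (((q : ℕ) : A) * (χ (levelUnit hq) : A)) : BettiHeckeAlg A) • raiseLoc χ V q S m =
      (X q : BettiHeckeAlg A) • raiseLoc χ V q S ((X q : BettiHeckeAlg A) • m) := by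
  simp only [raiseLoc, LocalizedModule.smul'_mk, LocalizedModule.mk_add_mk, one_smul, mul_one]
  congr 1
  rw [BettiMod.C_smul, pow_two, mul_smul, X_smul_levelDegen₁ hq, smul_sub, X_smul_levelDegen₂ hq,
    sub_add_cancel]

/-- Every Hecke polynomial moves an old class to an old class, with known `a`-component. -/
theorem exists_old_component (hq : ¬ (q : ℕ) ∣ L) (a : BettiHeckeAlg A) (P : BettiHeckeAlg A)
    (m : BettiMod L χ V) :
    ∃ x y z : BettiMod L χ V,
      P • levelDegen₁ q χ V m = levelDegen₁ q χ V x + levelDegen₂ hq χ V y ∧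
        x + (X q - a) • y - substPrime q a P • m = heckeRootPoly hq χ a • z := by
  induction P using MvPolynomial.induction_on generalizing m with
  | C r =>
    refine ⟨r • m, 0, 0, ?_, ?_⟩
    · rw [BettiMod.C_smul, map_smul, map_zero, add_zero]
    · rw [smul_zero, add_zero, substPrime_C, BettiMod.C_smul, sub_self, smul_zero]
  | add P Q hP hQ =>
    obtain ⟨x, y, z, h1, h2⟩ := hP m
    obtain ⟨x', y', z', h1', h2'⟩ := hQ m
    refine ⟨x + x', y + y', z + z', ?_, ?_⟩
    · rw [add_smul, h1, h1', map_add, map_add]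
      abel
    · rw [map_add, add_smul, smul_add, smul_add, ← h2, ← h2']
      abel
  | mul_X P p hP =>
    obtain ⟨x, y, z, h1, h2⟩ := hP m
    rw [mul_comm P, mul_smul, h1, smul_add]
    by_cases hp : p = q
    · subst hp
      refine ⟨(X p : BettiHeckeAlg A) • x + (((p : ℕ) : A) * (χ (levelUnit hq) : A)) • y, -x,
        y + a • z, ?_, ?_⟩
      · rw [X_smul_levelDegen₁ hq, X_smul_levelDegen₂ hq, map_add, map_neg,
          LinearMap.map_smul (levelDegen₁ p χ V) (((p : ℕ) : A) * (χ (levelUnit hq) : A))]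
        abel
      · rw [map_mul, substPrime_X_self, mul_smul a,
          show substPrime p a P • m = x + (X p - a) • y - heckeRootPoly hq χ a • z by
            rw [← h2]; abel, ← BettiMod.C_smul (((p : ℕ) : A) * (χ (levelUnit hq) : A)) y]
        unfold heckeRootPoly
        module
    · refine ⟨(X p : BettiHeckeAlg A) • x, (X p : BettiHeckeAlg A) • y,
        (X p : BettiHeckeAlg A) • z, ?_, ?_⟩
      · rw [levelDegen₁_X_smul hp, levelDegen₂_X_smul hq hp]
      · rw [map_mul, substPrime_X_of_ne _ hp, mul_smul, smul_comm (X q - a), ← smul_add, ← smul_sub,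
          h2, smul_comm]

namespace IsLevelRoot

variable {hq : ¬ (q : ℕ) ∣ L} {S₁ S : Submonoid (BettiHeckeAlg A)} {a τ : BettiHeckeAlg A}
  (h : IsLevelRoot χ V hq S₁ S a τ)

include h

theorem tau_loc (x : BettiLoc (L * (q : ℕ)) (raiseChar q χ) V S) :
    (X q ^ 2 - τ * X q + C (((q : ℕ) : A) * (χ (levelUnit hq) : A)) : BettiHeckeAlg A) • x = 0 := by
  induction x using LocalizedModule.induction_on with
  | h m s =>
    obtain ⟨v, hv, hm⟩ := h.tau m
    rw [LocalizedModule.smul'_mk, ← LocalizedModule.zero_mk s, LocalizedModule.mk_eq]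
    refine ⟨⟨v, hv⟩, ?_⟩
    simp only [Submonoid.smul_def, smul_zero]
    rw [smul_comm v (s : BettiHeckeAlg A), hm, smul_zero]

/-- `T q` becomes `τ` after raising. -/
theorem raiseLoc_X_smul (m : BettiMod L χ V) :
    raiseLoc χ V q S ((X q : BettiHeckeAlg A) • m) = τ • raiseLoc χ V q S m := by
  refine BettiLoc.smul_cancel h.X_mem ?_
  rw [← raiseLoc_smul_X_sq hq]
  have := h.tau_loc (raiseLoc χ V q S m)
  rw [add_smul, sub_smul, sub_add_eq_add_sub, sub_eq_zero] at this
  rw [this, mul_comm τ (X q), mul_smul]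

theorem raiseLoc_smul (P : BettiHeckeAlg A) (m : BettiMod L χ V) :
    raiseLoc χ V q S (P • m) = substPrime q τ P • raiseLoc χ V q S m := by
  induction P using MvPolynomial.induction_on generalizing m with
  | C r =>
    rw [substPrime_C, BettiMod.C_smul, raiseLoc, raiseLoc, LocalizedModule.smul'_mk, map_smul,
      BettiMod.C_smul]
  | add P Q hP hQ =>
    rw [add_smul, map_add, add_smul, ← hP, ← hQ]
    simp only [raiseLoc, map_add, LocalizedModule.mk_add_mk, one_smul, mul_one]
  | mul_X P p hP =>
    rw [mul_smul, hP, map_mul, mul_smul]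
    congr 1
    by_cases hp : p = q
    · subst hp
      rw [substPrime_X_self, h.raiseLoc_X_smul]
    · rw [substPrime_X_of_ne _ hp, raiseLoc, raiseLoc, LocalizedModule.smul'_mk,
        levelDegen₁_X_smul hp]

theorem raiseLoc_eq_zero_of_smul {u : BettiHeckeAlg A} (hu : u ∈ S₁) {m : BettiMod L χ V}
    (hm : u • m = 0) : raiseLoc χ V q S m = 0 := by
  refine BettiLoc.smul_cancel (h.psi_mem u hu) ?_
  rw [← h.raiseLoc_smul, hm, smul_zero, raiseLoc, map_zero, LocalizedModule.zero_mk]

/-- `U q` is `a` on the raised classes. -/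
theorem substPrime_smul_raiseLoc (m : BettiMod L χ V) :
    substPrime q τ a • raiseLoc χ V q S m = (X q : BettiHeckeAlg A) • raiseLoc χ V q S m := by
  refine BettiLoc.smul_cancel h.sep_mem ?_
  obtain ⟨u, hu, hum⟩ := h.root m
  have h1 := h.raiseLoc_eq_zero_of_smul hu hum
  rw [h.raiseLoc_smul] at h1
  have h2 := h.tau_loc (raiseLoc χ V q S m)
  rw [heckeRootPoly, map_add, map_sub, map_pow, map_mul, substPrime_X_self, substPrime_C] at h1
  rw [← mul_smul, ← mul_smul, ← sub_eq_zero, ← sub_smul,
    show (X q + substPrime q τ a - τ) * substPrime q τ a - (X q + substPrime q τ a - τ) * X q =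
      ((substPrime q τ a) ^ 2 - τ * substPrime q τ a + C (((q : ℕ) : A) * (χ (levelUnit hq) : A))) -
        (X q ^ 2 - τ * X q + C (((q : ℕ) : A) * (χ (levelUnit hq) : A))) by ring,
    sub_smul, h1, h2, sub_zero]

theorem raiseLoc_phi_smul (P : BettiHeckeAlg A) (m : BettiMod L χ V) :
    raiseLoc χ V q S (substPrime q a P • m) = P • raiseLoc χ V q S m := by
  induction P using MvPolynomial.induction_on generalizing m with
  | C r => rw [substPrime_C, h.raiseLoc_smul, substPrime_C]
  | add P Q hP hQ =>
    rw [map_add, add_smul, add_smul, ← hP, ← hQ]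
    simp only [raiseLoc, map_add, LocalizedModule.mk_add_mk, one_smul, mul_one]
  | mul_X P p hP =>
    rw [map_mul, mul_smul, hP, mul_smul]
    congr 1
    by_cases hp : p = q
    · subst hp
      rw [substPrime_X_self, h.raiseLoc_smul, h.substPrime_smul_raiseLoc]
    · rw [substPrime_X_of_ne _ hp, raiseLoc, raiseLoc, LocalizedModule.smul'_mk,
        levelDegen₁_X_smul hp]

theorem raise_wd (p p' : BettiMod L χ V × S₁) (e : p ≈ p') :
    (LocalizedModule.mk (levelDegen₁ q χ V p.1) ⟨_, h.psi_mem _ p.2.2⟩ :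
        BettiLoc (L * (q : ℕ)) (raiseChar q χ) V S) =
      LocalizedModule.mk (levelDegen₁ q χ V p'.1) ⟨_, h.psi_mem _ p'.2.2⟩ := by
  obtain ⟨u, hu⟩ := e
  simp only [Submonoid.smul_def] at hu
  have h1 := congrArg (raiseLoc χ V q S) hu
  rw [h.raiseLoc_smul, h.raiseLoc_smul, h.raiseLoc_smul, h.raiseLoc_smul] at h1
  have h2 := BettiLoc.smul_cancel (h.psi_mem _ u.2) h1
  simp only [raiseLoc, LocalizedModule.smul'_mk, LocalizedModule.mk_eq, one_smul] at h2
  rw [LocalizedModule.mk_eq]
  exact h2

/-- The level raising map on localised classes. -/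
def raise : BettiLoc L χ V S₁ →ₗ[A] BettiLoc (L * (q : ℕ)) (raiseChar q χ) V S where
  toFun x := LocalizedModule.liftOn x
    (fun p => LocalizedModule.mk (levelDegen₁ q χ V p.1) ⟨_, h.psi_mem _ p.2.2⟩) h.raise_wd
  map_add' x y := by
    induction x using LocalizedModule.induction_on with
    | h m s =>
      induction y using LocalizedModule.induction_on with
      | h m' s' =>
        rw [LocalizedModule.mk_add_mk, LocalizedModule.liftOn_mk, LocalizedModule.liftOn_mk,
          LocalizedModule.liftOn_mk, LocalizedModule.mk_add_mk]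
        simp only [Submonoid.smul_def, map_add, Submonoid.coe_mul, map_mul]
        have e : ∀ (t : S₁) (k : BettiMod L χ V),
            (LocalizedModule.mk (levelDegen₁ q χ V ((t : BettiHeckeAlg A) • k)) 1 :
              BettiLoc (L * (q : ℕ)) (raiseChar q χ) V S) =
              LocalizedModule.mk (substPrime q τ t • levelDegen₁ q χ V k) 1 := fun t k => by
          rw [← LocalizedModule.smul'_mk]
          exact h.raiseLoc_smul t k
        have e' : ∀ (z w : BettiMod (L * (q : ℕ)) (raiseChar q χ) V) (t : S),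
            (LocalizedModule.mk z 1 : BettiLoc (L * (q : ℕ)) (raiseChar q χ) V S) =
              LocalizedModule.mk w 1 → (LocalizedModule.mk z t :
                BettiLoc (L * (q : ℕ)) (raiseChar q χ) V S) = LocalizedModule.mk w t := by
          intro z w t hzw
          rw [LocalizedModule.mk_eq] at hzw ⊢
          obtain ⟨v, hv⟩ := hzw
          refine ⟨v, ?_⟩
          simp only [one_smul] at hv
          rw [smul_comm v t, hv, smul_comm t v]
        refine e' _ _ _ ?_
        have hl : ∀ z w : BettiMod (L * (q : ℕ)) (raiseChar q χ) V,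
            (LocalizedModule.mk (z + w) 1 : BettiLoc (L * (q : ℕ)) (raiseChar q χ) V S) =
              LocalizedModule.mk z 1 + LocalizedModule.mk w 1 := fun z w => by
          rw [LocalizedModule.mk_add_mk, one_smul, one_smul, mul_one]
        rw [hl, e s' m, e s m', ← hl]
  map_smul' r x := by
    induction x using LocalizedModule.induction_on with
    | h m s =>
      rw [RingHom.id_apply, LocalizedModule.smul'_mk, LocalizedModule.liftOn_mk,
        LocalizedModule.liftOn_mk, map_smul, LocalizedModule.smul'_mk]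

theorem raise_mk (m : BettiMod L χ V) (s : S₁) :
    h.raise (LocalizedModule.mk m s) =
      LocalizedModule.mk (levelDegen₁ q χ V m) ⟨_, h.psi_mem _ s.2⟩ := rfl

theorem psi_smul_raise (m : BettiMod L χ V) (s : S₁) :
    substPrime q τ (s : BettiHeckeAlg A) • h.raise (LocalizedModule.mk m s) =
      raiseLoc χ V q S m := by
  rw [h.raise_mk, LocalizedModule.smul'_mk, raiseLoc, LocalizedModule.mk_eq]
  exact ⟨1, by simp [Submonoid.smul_def]⟩

/-- The map is semilinear for the substitution of `a` for `X q`. -/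
theorem raise_smul (P : BettiHeckeAlg A) (x : BettiLoc L χ V S₁) :
    h.raise (substPrime q a P • x) = P • h.raise x := by
  induction x using LocalizedModule.induction_on with
  | h m s =>
    refine BettiLoc.smul_cancel (h.psi_mem _ s.2) ?_
    rw [LocalizedModule.smul'_mk, h.psi_smul_raise, smul_comm, h.psi_smul_raise,
      h.raiseLoc_phi_smul]

theorem raise_injective (hnew : (X q ^ 2 - C (χ (levelUnit hq) : A) : BettiHeckeAlg A) ∈ S) :
    Function.Injective h.raise := by
  rw [injective_iff_map_eq_zero]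
  intro x hx
  induction x using LocalizedModule.induction_on with
  | h m s =>
    have h0 : raiseLoc χ V q S m = 0 := by rw [← h.psi_smul_raise m s, hx, smul_zero]
    rw [raiseLoc, ← LocalizedModule.zero_mk 1, LocalizedModule.mk_eq] at h0
    obtain ⟨v, hv⟩ := h0
    simp only [one_smul, smul_zero, Submonoid.smul_def] at hv
    obtain ⟨x, y, z, h1, h2⟩ := exists_old_component hq a (v : BettiHeckeAlg A) m
    rw [hv] at h1
    have e1 := congrArg (levelTrace hq χ V) h1
    have e2 := congrArg (fun t => levelTrace hq χ V (levelAtkin hq χ V t)) h1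
    simp only [map_zero, map_add, levelTrace_levelDegen₁, levelTrace_levelDegen₂,
      levelTrace_levelAtkin_levelDegen₁, levelTrace_levelAtkin_levelDegen₂] at e1 e2
    rw [← BettiMod.C_smul] at e1
    rw [← BettiMod.C_smul (((χ (levelUnit hq) : A)) * _)] at e2
    obtain ⟨u, hu, hkill⟩ := h.root ((C (χ (levelUnit hq) : A) - a ^ 2) • z + x - a • y)
    rw [← LocalizedModule.zero_mk s, LocalizedModule.mk_eq]
    have key : (a ^ 2 - C (χ (levelUnit hq) : A) : BettiHeckeAlg A) • substPrime q a v • m
        = heckeRootPoly hq χ a •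
          ((C (χ (levelUnit hq) : A) - a ^ 2) • z + x - a • y) := by
      rw [show substPrime q a v • m = x + (X q - a) • y - heckeRootPoly hq χ a • z by
        rw [← h2]; abel]
      have e3 : (C (χ (levelUnit hq) : A) : BettiHeckeAlg A) • (((C (((q : ℕ) : A) + 1)) : BettiHeckeAlg A) • x +
          (X q : BettiHeckeAlg A) • y) - a • ((X q : BettiHeckeAlg A) • x +
            (C ((χ (levelUnit hq) : A) * (((q : ℕ) : A) + 1)) : BettiHeckeAlg A) • y) = 0 := by
        rw [← e1, ← e2, smul_zero, smul_zero, sub_zero]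
      rw [← sub_eq_zero, ← neg_eq_zero, ← e3]
      simp only [heckeRootPoly, map_add, map_mul, map_one]
      module
    refine ⟨⟨_, h.phi_mem _ hnew⟩ * ⟨_, h.phi_mem _ v.2⟩ * ⟨u, hu⟩, ?_⟩
    simp only [smul_zero, Submonoid.smul_def, Submonoid.coe_mul, map_sub, map_pow,
      substPrime_X_self, substPrime_C]
    rw [mul_comm _ u, mul_smul u, mul_smul, smul_comm (substPrime q a v) (s : BettiHeckeAlg A),
      smul_comm _ (s : BettiHeckeAlg A), smul_comm u (s : BettiHeckeAlg A), key, hkill, smul_zero]

theorem raise_surjective (hnew : (X q ^ 2 - C (χ (levelUnit hq) : A) : BettiHeckeAlg A) ∈ S) :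
    Function.Surjective h.raise := by
  set R : Submodule A (BettiLoc (L * (q : ℕ)) (raiseChar q χ) V S) := LinearMap.range h.raise
  have hsmul : ∀ (P : BettiHeckeAlg A), ∀ x ∈ R, P • x ∈ R := by
    rintro P _ ⟨x, rfl⟩
    exact ⟨_, h.raise_smul P x⟩
  have hdiv : ∀ v ∈ S, ∀ x, v • x ∈ R → x ∈ R := by
    rintro v hv x ⟨y, hy⟩
    induction y using LocalizedModule.induction_on with
    | h m s =>
      refine ⟨LocalizedModule.mk m (s * ⟨_, h.phi_mem v hv⟩), BettiLoc.smul_cancel hv ?_⟩
      rw [← h.raise_smul, ← hy, LocalizedModule.smul'_mk]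
      congr 1
      rw [LocalizedModule.mk_eq]
      refine ⟨1, ?_⟩
      simp only [one_smul, Submonoid.smul_def, Submonoid.coe_mul]
      rw [← mul_smul]
  have hone : ∀ m : BettiMod L χ V, raiseLoc χ V q S m ∈ R := fun m => by
    refine ⟨LocalizedModule.mk m 1, ?_⟩
    rw [← h.psi_smul_raise m 1, OneMemClass.coe_one, map_one, one_smul]
  have hold : ∀ m : BettiMod L χ V,
      (LocalizedModule.mk (levelDegen₂ hq χ V m) 1 :
        BettiLoc (L * (q : ℕ)) (raiseChar q χ) V S) ∈ R := fun m => by
    have he : (LocalizedModule.mk (levelDegen₂ hq χ V m) 1 :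
        BettiLoc (L * (q : ℕ)) (raiseChar q χ) V S) =
        raiseLoc χ V q S ((X q : BettiHeckeAlg A) • m) -
          (X q : BettiHeckeAlg A) • raiseLoc χ V q S m := by
      rw [eq_sub_iff_add_eq, raiseLoc, raiseLoc, LocalizedModule.smul'_mk,
        LocalizedModule.mk_add_mk, X_smul_levelDegen₁ hq, one_smul, one_smul, one_mul,
        add_sub_cancel]
    rw [he]
    exact sub_mem (hone _) (hsmul _ _ (hone m))
  intro x
  induction x using LocalizedModule.induction_on with
  | h m t =>
    refine hdiv _ t.2 _ (hdiv _ hnew _ ?_)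
    have ht : (t : BettiHeckeAlg A) • LocalizedModule.mk m t =
        (LocalizedModule.mk m 1 : BettiLoc (L * (q : ℕ)) (raiseChar q χ) V S) := by
      rw [LocalizedModule.smul'_mk, LocalizedModule.mk_eq]
      exact ⟨1, by simp [Submonoid.smul_def]⟩
    rw [ht, LocalizedModule.smul'_mk, sub_smul, BettiMod.C_smul, X_sq_sub_smul hq]
    have hsub : ∀ z w : BettiMod (L * (q : ℕ)) (raiseChar q χ) V,
        (LocalizedModule.mk (z - w) 1 : BettiLoc (L * (q : ℕ)) (raiseChar q χ) V S) =
          LocalizedModule.mk z 1 - LocalizedModule.mk w 1 := fun z w => by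
      rw [eq_sub_iff_add_eq, LocalizedModule.mk_add_mk, one_smul, one_smul, one_mul,
        sub_add_cancel]
    rw [hsub]
    exact sub_mem (hone _) (hold _)

/-- The level change isomorphism. -/
def raiseEquiv (hnew : (X q ^ 2 - C (χ (levelUnit hq) : A) : BettiHeckeAlg A) ∈ S) :
    BettiLoc L χ V S₁ ≃ₗ[A] BettiLoc (L * (q : ℕ)) (raiseChar q χ) V S :=
  LinearEquiv.ofBijective h.raise ⟨h.raise_injective hnew, h.raise_surjective hnew⟩

theorem raiseEquiv_smul (hnew : (X q ^ 2 - C (χ (levelUnit hq) : A) : BettiHeckeAlg A) ∈ S)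
    (P : BettiHeckeAlg A) (x : BettiLoc L χ V S₁) :
    h.raiseEquiv hnew (substPrime q a P • x) = P • h.raiseEquiv hnew x :=
  h.raise_smul P x

theorem raiseEquiv_mk_one (hnew : (X q ^ 2 - C (χ (levelUnit hq) : A) : BettiHeckeAlg A) ∈ S)
    (m : BettiMod L χ V) :
    h.raiseEquiv hnew (LocalizedModule.mk m 1) = raiseLoc χ V q S m := by
  rw [← h.psi_smul_raise m 1, OneMemClass.coe_one, map_one, one_smul]
  rfl

end IsLevelRoot

end FermatLib.MLT

end
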