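import Fermat.Agent.Basic.EigenChar
import Mathlib.RingTheory.Ideal.GoingUp
import Mathlib.RingTheory.Ideal.MinimalPrime.Localization
import Mathlib.RingTheory.Flat.Basic
import Mathlib.RingTheory.TensorProduct.Finite
import Mathlib.LinearAlgebra.Matrix.Charpoly.LinearMap
import Mathlib.RingTheory.Finiteness.Basic
import Mathlib.FieldTheory.IsAlgClosed.Basic

/-!
# Killing a torsion-free cokernel by its eigen systems

`M` is a finite flat module over a domain `O`, `T` a reduced algebra acting on it, `u` an
endomorphism commuting with `T`, and `N` a submodule stable under both with torsion-free quotient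
on which `u ^ 2 = c`.  An element of `T` vanishing at every eigen system of `M` whose `u`-eigenvalue
has square `c` maps `M` into `N`.
-/

set_option autoImplicit false
set_option linter.style.haveILetI false

noncomputable section

open Polynomial
open scoped TensorProduct

namespace FermatLib.MLT

section Algebra

variable {O : Type*} [CommRing O] {T : Type*} [CommRing T] [Algebra O T] [IsReduced T]

/-- An integral element of a reduced algebra is regular up to a nonzero scalar. -/
theorem exists_smul_eq_sq_mul [IsDomain O] {z : T} (hz : IsIntegral O z) :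
    ∃ (d : O) (w : T), d ≠ 0 ∧ d • z = z ^ 2 * w := by
  obtain ⟨p, hp, hpz⟩ := hz
  have hpz' : aeval z p = 0 := hpz
  obtain ⟨q, hpq, hq⟩ := p.exists_eq_pow_rootMultiplicity_mul_and_not_dvd hp.ne_zero 0
  rw [map_zero, sub_zero] at hpq hq
  have hq0 : q.coeff 0 ≠ 0 := fun h => hq (X_dvd_iff.2 h)
  set k := p.rootMultiplicity 0
  have h1 : z * aeval z q = 0 := by
    refine IsReduced.eq_zero _ ⟨k + 1, ?_⟩
    have h0 : z ^ k * aeval z q = 0 := by
      rw [← hpz']
      conv_rhs => rw [hpq, map_mul, map_pow, aeval_X]
    rw [mul_pow]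
    calc z ^ (k + 1) * aeval z q ^ (k + 1) = z * aeval z q ^ k * (z ^ k * aeval z q) := by ring
      _ = 0 := by rw [h0, mul_zero]
  refine ⟨q.coeff 0, -aeval z q.divX, hq0, ?_⟩
  rw [← q.X_mul_divX_add, map_add, map_mul, aeval_X, aeval_C] at h1
  rw [Algebra.smul_def]
  linear_combination h1

/-- An element some power of which kills a torsion-free module kills it. -/
theorem smul_eq_zero_of_pow_smul_eq_zero [IsDomain O] {C : Type*} [AddCommGroup C] [Module O C]
    [Module T C] [IsScalarTower O T C] (htf : ∀ (d : O), d ≠ 0 → ∀ x : C, d • x = 0 → x = 0)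
    {z : T} (hz : IsIntegral O z) {n : ℕ} (hn : ∀ x : C, z ^ n • x = 0) (x : C) : z • x = 0 := by
  obtain ⟨d, w, hd, hdw⟩ := exists_smul_eq_sq_mul hz
  induction n generalizing x with
  | zero => rw [← smul_zero z, ← hn x, pow_zero, one_smul]
  | succ n ih =>
    rcases n with _ | n
    · simpa using hn x
    · refine ih (fun y => htf d hd _ ?_) x
      have h : d • z ^ (n + 1) = w * z ^ (n + 2) := by
        rw [pow_succ, ← mul_smul_comm, hdw]
        ring
      rw [← smul_assoc, h, mul_smul, hn, smul_zero]

end Algebra

variable {O : Type} [CommRing O] [IsDomain O] {T : Type} [CommRing T] [Algebra O T] [IsReduced T]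
  {M : Type} [AddCommGroup M] [Module O M] [Module T M] [IsScalarTower O T M]
  [Module.Finite O M] [Module.Flat O M]

/-- The action of `T[X]` on `M`, `X` acting as `u`. -/
def polyAct (u : Module.End T M) : T[X] →+* Module.End O M where
  toFun b := (aeval u b).restrictScalars O
  map_one' := by rw [map_one]; rfl
  map_mul' b c := by rw [map_mul]; rfl
  map_zero' := by rw [map_zero]; rfl
  map_add' b c := by rw [map_add]; rfl

omit [IsDomain O] [IsReduced T] [Module.Finite O M] [Module.Flat O M] in
theorem polyAct_apply (u : Module.End T M) (b : T[X]) (x : M) :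
    polyAct (O := O) u b x = aeval u b x := rfl

omit [IsDomain O] [IsReduced T] [Module.Finite O M] [Module.Flat O M] in
theorem polyAct_C_algebraMap (u : Module.End T M) (d : O) (x : M) :
    polyAct (O := O) u (C (algebraMap O T d)) x = d • x := by
  rw [polyAct_apply, aeval_C, Module.algebraMap_end_apply, algebraMap_smul]

/-- **The cokernel lemma.** -/
theorem smul_mem_of_forall_eigen (N : Submodule T M)
    (htf : ∀ (d : O), d ≠ 0 → ∀ x : M, d • x ∈ N → x ∈ N) (u : Module.End T M)
    (hu : ∀ x ∈ N, u x ∈ N) (c : O) (hsq : ∀ x, u (u x) - c • x ∈ N) {z : T}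
    (hz : IsIntegral O z)
    (h : ∀ (F : Type) [Field F] [IsAlgClosed F] [Algebra O F]
      [Module.IsTorsionFree O F] (χ : T →+* F) (α : F) (v : F ⊗[O] M),
      v ≠ 0 → (∀ d : O, χ (algebraMap O T d) = algebraMap O F d) →
      (∀ t : T, ((LinearMap.lsmul T M t).restrictScalars O).baseChange F v = χ t • v) →
      (u.restrictScalars O).baseChange F v = α • v → α ^ 2 = algebraMap O F c → χ z = 0) (x : M) :
    z • x ∈ N := by
  -- the stable submodule over `T[X]`
  have hstab : ∀ (b : T[X]), ∀ y ∈ N, aeval u b y ∈ N := by
    intro b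
    induction b using Polynomial.induction_on' with
    | add f g hf hg => intro y hy; rw [map_add, LinearMap.add_apply]; exact add_mem (hf y hy) (hg y hy)
    | monomial n a =>
      intro y hy
      rw [aeval_monomial, Module.End.mul_apply, Module.algebraMap_end_apply]
      refine N.smul_mem a ?_
      clear a
      induction n generalizing y with
      | zero => simpa using hy
      | succ n ih => rw [pow_succ, Module.End.mul_apply]; exact ih _ (hu y hy)
  let J : Ideal T[X] :=
    { carrier := {b | ∀ y, aeval u b y ∈ N}
      add_mem' := fun {a b} ha hb y => by rw [map_add, LinearMap.add_apply]; exact add_mem (ha y) (hb y)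
      zero_mem' := fun y => by rw [map_zero, LinearMap.zero_apply]; exact zero_mem N
      smul_mem' := fun a b hb y => by
        rw [smul_eq_mul, map_mul, Module.End.mul_apply]; exact hstab a _ (hb y) }
  suffices hrad : C z ∈ J.radical by
    obtain ⟨n, hn⟩ := hrad
    have hn' : ∀ y : M ⧸ N, z ^ n • y = 0 := by
      intro y
      obtain ⟨y, rfl⟩ := Submodule.Quotient.mk_surjective N y
      rw [← Submodule.Quotient.mk_smul, Submodule.Quotient.mk_eq_zero]
      have h' : aeval u (C z ^ n) y ∈ N := hn y
      rwa [← map_pow, aeval_C, Module.algebraMap_end_apply] at h'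
    rw [← Submodule.Quotient.mk_eq_zero, Submodule.Quotient.mk_smul]
    refine smul_eq_zero_of_pow_smul_eq_zero (O := O) ?_ hz hn' _
    intro d hd y hy
    obtain ⟨y, rfl⟩ := Submodule.Quotient.mk_surjective N y
    rw [← Submodule.Quotient.mk_smul, Submodule.Quotient.mk_eq_zero] at hy
    exact (Submodule.Quotient.mk_eq_zero _).2 (htf d hd y hy)
  rw [← Ideal.sInf_minimalPrimes, Ideal.mem_sInf]
  intro P hP
  haveI := hP.isPrime
  have hPbot : ∀ d : O, C (algebraMap O T d) ∈ P → d = 0 := by
    intro d hd
    by_contra hd0
    obtain ⟨y, hy, hdy⟩ := Ideal.exists_mul_mem_of_mem_minimalPrimes hP hd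
    refine hy fun m => htf d hd0 _ ?_
    have h' : aeval u (C (algebraMap O T d) * y) m ∈ N := hdy m
    rwa [map_mul, aeval_C, Module.End.mul_apply, Module.algebraMap_end_apply,
      algebraMap_smul] at h'
  -- an eigen system of `M` at `P`
  let F := AlgebraicClosure (FractionRing O)
  haveI : FaithfulSMul O F := (faithfulSMul_iff_algebraMap_injective O F).2 (by
    rw [IsScalarTower.algebraMap_eq O (FractionRing O) F]
    exact (algebraMap (FractionRing O) F).injective.comp (IsFractionRing.injective O _))
  haveI : Module.IsTorsionFree O F :=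
    Module.isTorsionFree_iff_algebraMap_injective.2 (FaithfulSMul.algebraMap_injective O F)
  have hinj : ∀ f : Module.End O M, f.baseChange F = 0 → f = 0 := by
    intro f hf
    refine LinearMap.ext fun y => ?_
    have h' := LinearMap.congr_fun hf ((1 : F) ⊗ₜ[O] y)
    rw [LinearMap.baseChange_tmul, LinearMap.zero_apply] at h'
    have hmk : Function.Injective fun y : M => (1 : F) ⊗ₜ[O] y := by
      have hi := Module.Flat.rTensor_preserves_injective_linearMap (M := M) (Algebra.linearMap O F)
        (FaithfulSMul.algebraMap_injective O F)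
      have e : (fun y : M => (1 : F) ⊗ₜ[O] y) =
          (Algebra.linearMap O F).rTensor M ∘ (TensorProduct.lid O M).symm := by
        funext y
        simp
      rw [e]
      exact hi.comp (LinearEquiv.injective _)
    exact hmk (by simpa using h')
  let ρ : T[X] →+* Module.End F (F ⊗[O] M) :=
    (Module.End.baseChangeHom O F M).toRingHom.comp (polyAct u)
  obtain ⟨v, χ, hv, heig, hker⟩ := Basic.exists_eigenchar_ker_le ρ P fun b hb => hP.le fun y => by
    have h' : polyAct (O := O) u b = 0 := hinj _ hb
    rw [← polyAct_apply (O := O), h', LinearMap.zero_apply]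
    exact zero_mem N
  have hχd : ∀ d : O, χ (C (algebraMap O T d)) = algebraMap O F d := by
    intro d
    have e : polyAct (O := O) u (C (algebraMap O T d)) = d • LinearMap.id :=
      LinearMap.ext fun y => polyAct_C_algebraMap u d y
    have h' := heig (C (algebraMap O T d))
    simp only [ρ, RingHom.comp_apply] at h'
    rw [e] at h'
    change (d • LinearMap.id).baseChange F v = _ at h'
    rw [LinearMap.baseChange_smul, LinearMap.smul_apply, LinearMap.baseChange_id,
      LinearMap.id_apply, ← algebraMap_smul F d v] at h'
    exact smul_left_injective F hv h'.symm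
  haveI : (RingHom.ker χ).IsPrime := RingHom.ker_isPrime χ
  have hkerP : RingHom.ker χ = P := by
    refine le_antisymm hker fun b hb => ?_
    by_contra hbker
    obtain ⟨q, hq, hqb⟩ := LinearMap.exists_monic_and_aeval_eq_zero O (polyAct (O := O) u b)
    set f : O →+* T[X] := C.comp (algebraMap O T)
    have hq' : q.eval₂ f b ∈ RingHom.ker χ := by
      have hzero : polyAct (O := O) u (q.eval₂ f b) = 0 := by
        rw [Polynomial.hom_eval₂, ← hqb, Polynomial.aeval_def]
        exact congrArg (fun r => q.eval₂ r (polyAct (O := O) u b))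
          (RingHom.ext fun d => LinearMap.ext fun y =>
            (polyAct_C_algebraMap u d y).trans (Module.algebraMap_end_apply O O M d y).symm)
      have h' := heig (q.eval₂ f b)
      simp only [ρ, RingHom.comp_apply] at h'
      rw [hzero, map_zero, LinearMap.zero_apply] at h'
      exact RingHom.mem_ker.2 ((smul_eq_zero.1 h'.symm).resolve_right hv)
    have hlt := Ideal.comap_lt_comap_of_root_mem_sdiff (f := f) hker ⟨hb, hbker⟩
      (Polynomial.map_monic_ne_zero hq) hq'
    obtain ⟨d, hd, hd'⟩ := SetLike.exists_of_lt hlt
    exact hd' (hPbot d hd ▸ zero_mem _)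
  have hX : X ^ 2 - C (algebraMap O T c) ∈ RingHom.ker χ := by
    refine hkerP.ge (hP.le fun y => ?_)
    rw [map_sub, map_pow, aeval_X, aeval_C, LinearMap.sub_apply, sq, Module.End.mul_apply,
      Module.algebraMap_end_apply, algebraMap_smul]
    exact hsq y
  rw [RingHom.mem_ker, map_sub, map_pow, sub_eq_zero, hχd] at hX
  rw [← hkerP, RingHom.mem_ker]
  refine h F (χ.comp C) (χ X) v hv hχd (fun t => ?_) ?_ hX
  · refine Eq.trans ?_ (heig (C t))
    show ((LinearMap.lsmul T M t).restrictScalars O).baseChange F v =
      (polyAct (O := O) u (C t)).baseChange F v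
    congr 2
    exact LinearMap.ext fun y => by
      rw [polyAct_apply, aeval_C, Module.algebraMap_end_apply]; rfl
  · refine Eq.trans ?_ (heig X)
    show (u.restrictScalars O).baseChange F v = (polyAct (O := O) u X).baseChange F v
    congr 2
    exact LinearMap.ext fun y => by rw [polyAct_apply, aeval_X]; rfl

end FermatLib.MLT
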