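import Fermat.Agent.MLT.Hecke.GammaHHecke
import Fermat.Agent.MLT.BettiLevelOps
import Mathlib.LinearAlgebra.Dimension.RankNullity
import Mathlib.LinearAlgebra.Dimension.StrongRankCondition

/-!
# The data of level raising at one prime

`RaiseMaps` records what level raising at `q` uses about localised classes of a level `L` and a
level `M` divisible by one more `q`: the old part `up`, its adjoint `down`, the matrix of
`down ∘ up`, and Ihara's properties.
-/

set_option autoImplicit false

noncomputable section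

open scoped MatrixGroups
open CongruenceSubgroup MvPolynomial IsLocalRing

namespace FermatLib.MLT

variable {A : Type} [CommRing A] [IsLocalRing A] {L M : ℕ} {k : Type} [Field k]

/-- Level raising data at `q` for `κ` copies of the module of level `L` in the module of level
`M`.  `c` is the value of the character at `q`. -/
structure RaiseMaps (q : Nat.Primes) (κ : Type) [Fintype κ] (χ : (ZMod L)ˣ →* Aˣ)
    (χM : (ZMod M)ˣ →* Aˣ) (Pr : Set Nat.Primes) (θ θM : BettiHeckeAlg A →+* k) (c : A) :
    Type where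
  up : (κ → BettiResLoc χ Pr θ) →ₗ[A] BettiResLoc χM Pr θM
  down : BettiResLoc χM Pr θM →ₗ[A] (κ → BettiResLoc χ Pr θ)
  G : Matrix κ κ (BettiHeckeAlg A)
  up_smul : ∀ P ∈ supported A {l : Nat.Primes | l ≠ q}, ∀ v, up (P • v) = P • up v
  down_smul : ∀ P ∈ supported A {l : Nat.Primes | l ≠ q}, ∀ x, down (P • x) = P • down x
  down_up : ∀ v a, down (up v) a = ∑ b, G a b • v b
  X_smul_mem : ∀ v, (X q : BettiHeckeAlg A) • up v ∈ LinearMap.range up
  sq_sub_mem : ∀ x, (X q ^ 2 - C c : BettiHeckeAlg A) • x ∈ LinearMap.range up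
  up_injective : Function.Injective up
  up_injective_mod : ∀ v, up v ∈ maximalIdeal A • (⊤ : Submodule A (BettiResLoc χM Pr θM)) →
    ∀ a, v a ∈ maximalIdeal A • (⊤ : Submodule A (BettiResLoc χ Pr θ))
  down_surjective : Function.Surjective down
  free_coker : Module.Free A (BettiResLoc χM Pr θM ⧸ LinearMap.range up)

namespace RaiseMaps

variable {q : Nat.Primes} {κ : Type} [Fintype κ] {χ : (ZMod L)ˣ →* Aˣ} {χM : (ZMod M)ˣ →* Aˣ}
  {Pr : Set Nat.Primes} {θ θM : BettiHeckeAlg A →+* k} {c : A}
  (D : RaiseMaps q κ χ χM Pr θ θM c)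

/-- The old part is stable under all Hecke polynomials. -/
theorem smul_mem_range (P : BettiHeckeAlg A) {x : BettiResLoc χM Pr θM}
    (hx : x ∈ LinearMap.range D.up) : P • x ∈ LinearMap.range D.up := by
  induction P using MvPolynomial.induction_on generalizing x with
  | C r =>
    rw [← MvPolynomial.algebraMap_eq, algebraMap_smul]
    exact Submodule.smul_mem _ r hx
  | add P Q hP hQ => rw [add_smul]; exact add_mem (hP hx) (hQ hx)
  | mul_X P l hP =>
    rw [mul_smul]
    refine hP ?_
    obtain ⟨v, rfl⟩ := hx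
    by_cases hl : l = q
    · subst hl; exact D.X_smul_mem v
    · exact ⟨_, D.up_smul _ (Algebra.subset_adjoin ⟨l, hl, rfl⟩) v⟩

/-- If all the entries of `down ∘ up` are residually zero, the old part is not everything. -/
theorem range_up_ne_top [Module.Finite A (BettiResLoc χ Pr θ)]
    [Nontrivial (BettiResLoc χ Pr θ)] [Nonempty κ]
    (hG : ∀ a b, D.G a b ∈ supported A Pr ∧ θ (D.G a b) = 0) :
    LinearMap.range D.up ≠ ⊤ := by
  intro h
  set R₀ := supported A Pr
  set J : Ideal R₀ := RingHom.ker (θ.comp R₀.val.toRingHom)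
  have htop : (⊤ : Submodule R₀ (BettiResLoc χ Pr θ)) ≤ J • ⊤ := by
    intro y _
    obtain ⟨a⟩ := ‹Nonempty κ›
    obtain ⟨x, hx⟩ := D.down_surjective fun _ => y
    obtain ⟨v, rfl⟩ := LinearMap.range_eq_top.1 h x
    rw [← show D.down (D.up v) a = y from congrFun hx a, D.down_up]
    refine Submodule.sum_mem _ fun b _ => ?_
    exact (Subalgebra.smul_def (⟨D.G a b, (hG a b).1⟩ : R₀) (v b)).symm ▸
      Submodule.smul_mem_smul (I := J) (N := (⊤ : Submodule R₀ (BettiResLoc χ Pr θ)))
        (hG a b).2 Submodule.mem_top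
  haveI : Module.Finite R₀ (BettiResLoc χ Pr θ) := Module.Finite.of_restrictScalars_finite A R₀ _
  obtain ⟨r, hr1, hr0⟩ := Submodule.exists_sub_one_mem_and_smul_eq_zero_of_fg_of_le_smul J ⊤
    Module.Finite.fg_top htop
  have hθr : θ (r : BettiHeckeAlg A) = 1 := by
    rw [← sub_eq_zero, ← map_one θ, ← map_sub]
    exact hr1
  have hu := ((Module.End.isUnit_iff _).1 (IsLocalizedModule.map_units
    (LocalizedModule.mkLinearMap (bettiResidualSubmonoid Pr θ) (BettiMod L χ A))
    ⟨(r : BettiHeckeAlg A), mem_bettiResidualSubmonoid.2 ⟨r.2, by rw [hθr]; exact one_ne_zero⟩⟩)).1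
  obtain ⟨y, hy⟩ := exists_ne (0 : BettiResLoc χ Pr θ)
  refine hy (hu ?_)
  rw [map_zero]
  exact hr0 y Submodule.mem_top

/-- The rank of the old part is less than that of the level. -/
theorem card_mul_finrank_lt [Module.Finite A (BettiResLoc χ Pr θ)]
    [Module.Free A (BettiResLoc χ Pr θ)] [Module.Finite A (BettiResLoc χM Pr θM)]
    [Module.Free A (BettiResLoc χM Pr θM)] [Nontrivial (BettiResLoc χM Pr θM)] [Nonempty κ]
    (hG : ∀ a b, D.G a b ∈ supported A Pr ∧ θ (D.G a b) = 0) :
    Fintype.card κ * Module.finrank A (BettiResLoc χ Pr θ) <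
      Module.finrank A (BettiResLoc χM Pr θM) := by
  have := D.free_coker
  obtain ⟨s, hs⟩ := Module.projective_lifting_property (LinearMap.range D.up).mkQ LinearMap.id
    (Submodule.mkQ_surjective _)
  have e := ((LinearMap.exact_map_mkQ_range D.up).splitSurjectiveEquiv D.up_injective ⟨s, hs⟩).1
  rcases subsingleton_or_nontrivial (BettiResLoc χ Pr θ) with h | h
  · rw [Module.finrank_zero_of_subsingleton, mul_zero]
    exact (Module.finrank_pos_iff_of_free _ _).2 ‹_›
  · have hne : Nontrivial (BettiResLoc χM Pr θM ⧸ LinearMap.range D.up) :=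
      Submodule.Quotient.nontrivial_iff.2 (D.range_up_ne_top hG)
    rw [e.finrank_eq, Module.finrank_prod, Module.finrank_pi_fintype, Finset.sum_const,
      Finset.card_univ, smul_eq_mul]
    exact Nat.lt_add_of_pos_right ((Module.finrank_pos_iff_of_free _ _).2 hne)

end RaiseMaps

end FermatLib.MLT

end
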