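import Fermat.Agent.MLT.Hecke.IharaSplit
import Fermat.Agent.MLT.Hecke.RaiseMaps

/-!
# Level raising data with two old copies

`U q` is not localised: the old part is the pair of degeneracy maps.
-/

set_option autoImplicit false

noncomputable section

open scoped MatrixGroups
open CongruenceSubgroup MvPolynomial IsLocalRing

namespace FermatLib.MLT

variable {A : Type} [CommRing A] {L : ℕ} {q : Nat.Primes} {χ : (ZMod L)ˣ →* Aˣ}
  {S : Submonoid (BettiHeckeAlg A)} {V : Type} [AddCommGroup V] [Module A V]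

/-- A map away from `q` on localised classes commutes with the polynomials away from `q`. -/
theorem awayLocMap_smul {L' : ℕ} {χ' : (ZMod L')ˣ →* Aˣ} (hS : AwayFrom q S)
    (f : BettiMod L χ V →ₗ[A] BettiMod L' χ' V)
    (hf : ∀ l ≠ q, ∀ m, f ((X l : BettiHeckeAlg A) • m) = (X l : BettiHeckeAlg A) • f m)
    {P : BettiHeckeAlg A} (hP : P ∈ supported A {l : Nat.Primes | l ≠ q})
    (x : BettiLoc L χ V S) : awayLocMap hS f hf (P • x) = P • awayLocMap hS f hf x := by
  induction x using LocalizedModule.induction_on with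
  | h m s =>
    rw [LocalizedModule.smul'_mk, awayLocMap_mk, awayLocMap_mk, LocalizedModule.smul'_mk,
      map_supported_smul f hf hP]

theorem levelUpLoc_smul (hq : ¬ (q : ℕ) ∣ L) (hS : AwayFrom q S) {P : BettiHeckeAlg A}
    (hP : P ∈ supported A {l : Nat.Primes | l ≠ q}) (v : Fin 2 → BettiLoc L χ V S) :
    levelUpLoc χ V hq hS (P • v) = P • levelUpLoc χ V hq hS v := by
  simp only [levelUpLoc, LinearMap.add_apply, LinearMap.comp_apply, LinearMap.proj_apply,
    Pi.smul_apply, awayLocMap_smul hS _ _ hP, smul_add]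

theorem levelDownLoc_smul (hq : ¬ (q : ℕ) ∣ L) (hS : AwayFrom q S) {P : BettiHeckeAlg A}
    (hP : P ∈ supported A {l : Nat.Primes | l ≠ q})
    (x : BettiLoc (L * (q : ℕ)) (raiseChar q χ) V S) :
    levelDownLoc χ V hq hS (P • x) = P • levelDownLoc χ V hq hS x := by
  funext a
  fin_cases a <;>
    simp [levelDownLoc, awayLocMap_smul hS _ _ hP]

theorem levelUpLoc_mk (hq : ¬ (q : ℕ) ∣ L) (hS : AwayFrom q S) (w : Fin 2 → BettiMod L χ V)
    (s : S) : levelUpLoc χ V hq hS (fun b => LocalizedModule.mk (w b) s) =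
      LocalizedModule.mk (levelUpMod χ V hq w) s := by
  simp only [levelUpLoc, LinearMap.add_apply, LinearMap.comp_apply, LinearMap.proj_apply,
    awayLocMap_mk, LocalizedModule.mk_add_mk, ← smul_add, LocalizedModule.mk_cancel_common_left]
  rfl

/-- The old part is stable under `U q`. -/
theorem X_smul_mem_range_levelUpLoc (hq : ¬ (q : ℕ) ∣ L) (hS : AwayFrom q S)
    (v : Fin 2 → BettiLoc L χ V S) :
    (X q : BettiHeckeAlg A) • levelUpLoc χ V hq hS v ∈ LinearMap.range (levelUpLoc χ V hq hS) := by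
  obtain ⟨w, s, rfl⟩ := exists_common_denom v
  refine ⟨fun b => LocalizedModule.mk (![(X q : BettiHeckeAlg A) • w 0 +
      (((q : ℕ) : A) * (χ (levelUnit hq) : A)) • w 1, -w 0] b) s, ?_⟩
  rw [levelUpLoc_mk, levelUpLoc_mk, LocalizedModule.smul'_mk]
  congr 1
  simp only [levelUpMod, LinearMap.add_apply, LinearMap.comp_apply, LinearMap.proj_apply,
    Matrix.cons_val_zero, Matrix.cons_val_one, Matrix.cons_val_fin_one, smul_add,
    X_smul_levelDegen₁ hq, X_smul_levelDegen₂ hq, map_add, map_neg, LinearMap.map_smul]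
  abel

variable [IsLocalRing A] [IsNoetherianRing A] [IsAdicComplete (maximalIdeal A) A]
  {k : Type} [Field k] {Pr : Set Nat.Primes} {θ : BettiHeckeAlg A →+* k}

/-- **Level raising with two old copies.** -/
theorem exists_raiseMaps_two [NeZero L] (hq : ¬ (q : ℕ) ∣ L) {M : ℕ} (hM : M = L * (q : ℕ))
    (hLM : L ∣ M) (hχ : χ (-1) = 1) (hχ1 : ∀ u, (χ u : A) - 1 ∈ maximalIdeal A)
    (hθ : ∀ a ∈ maximalIdeal A, θ (C a) = 0) (hqPr : q ∉ Pr)
    (hell : EllipticHarmless L Pr θ) {l : Nat.Primes}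
    (hl : ((l : ℕ) : ZMod (Modular.Ihara.iharaLevel L q)) = 1) (hlPr : l ∈ Pr)
    (hne : θ (X l) ≠ θ (C (((l : ℕ) : A) + 1))) :
    ∃ D : RaiseMaps q (Fin 2) χ (χ.comp (ZMod.unitsMap hLM)) Pr θ θ (χ (levelUnit hq) : A),
      D.G = levelGram χ hq := by
  subst hM
  have : NeZero (L * (q : ℕ)) := ⟨mul_ne_zero (NeZero.ne L) q.2.ne_zero⟩
  obtain ⟨g, hg⟩ := exists_levelUpLoc_leftInverse hq hχ hχ1 hθ hqPr hell hl hlPr hne
  exact ⟨{
    up := levelUpLoc χ A hq (awayFrom_residual hqPr θ)
    down := levelDownLoc χ A hq (awayFrom_residual hqPr θ)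
    G := levelGram χ hq
    up_smul := fun P hP v => levelUpLoc_smul hq _ hP v
    down_smul := fun P hP x => levelDownLoc_smul hq _ hP x
    down_up := levelDownLoc_levelUpLoc χ A hq _
    X_smul_mem := X_smul_mem_range_levelUpLoc hq _
    sq_sub_mem := X_sq_sub_mem_range_levelUpLoc χ A hq _
    up_injective := Function.LeftInverse.injective (LinearMap.congr_fun hg)
    up_injective_mod := levelUpLoc_injective_mod hq hχ hχ1 hqPr hell hl hlPr hne
    down_surjective := levelDownLoc_residual_surjective hq hχ hχ1 hθ hqPr hell hl hlPr hne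
    free_coker := free_coker_levelUpLoc hq hχ hχ1 hθ hqPr hell hl hlPr hne }, rfl⟩

end FermatLib.MLT

end
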