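import Fermat.Agent.MLT.Hecke.IharaSplit
import Fermat.Agent.MLT.Hecke.LevelChangeResidual
import Fermat.Agent.MLT.Hecke.RaiseTwo

/-!
# Level raising data with one old copy

`U q` is localised at a simple residual root `α ≠ 0` of the Hecke polynomial, with `α ^ 2 = χ q`
allowed: the old part is the level change map, its adjoint is `a tr W - χ q tr`, and their
composite is `a ^ 2 - χ q`.
-/

set_option autoImplicit false

noncomputable section

open scoped MatrixGroups
open CongruenceSubgroup MvPolynomial IsLocalRing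

namespace FermatLib.MLT

variable {A : Type} [CommRing A] {L : ℕ} {q : Nat.Primes} {χ : (ZMod L)ˣ →* Aˣ}
  {V : Type} [AddCommGroup V] [Module A V]

/-- A substitution at `q` fixes the polynomials away from `q`. -/
theorem substPrime_of_supported (a : BettiHeckeAlg A) {P : BettiHeckeAlg A}
    (hP : P ∈ supported A {l : Nat.Primes | l ≠ q}) : substPrime q a P = P := by
  induction hP using Algebra.adjoin_induction with
  | mem x hx => obtain ⟨l, hl, rfl⟩ := hx; exact substPrime_X_of_ne a hl
  | algebraMap r => exact AlgHom.commutes _ r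
  | add x y _ _ hx hy => rw [map_add, hx, hy]
  | mul x y _ _ hx hy => rw [map_mul, hx, hy]

/-- A prime `≡ 1` modulo the auxiliary modulus is not `q`. -/
theorem ne_of_cast_eq_one_iharaLevel (hq : ¬ (q : ℕ) ∣ L) {l : Nat.Primes}
    (hl : ((l : ℕ) : ZMod (Modular.Ihara.iharaLevel L q)) = 1) : l ≠ q := by
  intro h
  have hL : 0 < L := Nat.pos_of_ne_zero fun h => hq (h ▸ dvd_zero _)
  have h2 : ((q : ℕ) : ZMod (Modular.Ihara.iharaLevel L q)) = 1 := h ▸ hl
  have hdvd := (ZMod.natCast_eq_natCast_iff _ 1 _).1 (by rw [h2, Nat.cast_one])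
  have hlt := self_lt_iharaLevel hL q.2
  have := Nat.ModEq.eq_of_lt_of_lt hdvd hlt (lt_of_le_of_lt q.2.one_le hlt)
  exact q.2.one_lt.ne' this

/-- Harmlessness passes to more operators and to another character agreeing on them. -/
theorem EllipticHarmless.of_agree {k : Type} [Field k] {Pr Pr' : Set Nat.Primes}
    {θ θ' : BettiHeckeAlg A →+* k} (h : EllipticHarmless L Pr θ) (hPr : Pr ⊆ Pr')
    (hθ : ∀ l ∈ Pr, θ' (X l) = θ (X l)) : EllipticHarmless L Pr' θ' := by
  rcases h with h | ⟨a, l, hl, hl', hne⟩ | ⟨a, l, hl, hl', hne⟩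
  · exact Or.inl h
  · exact Or.inr (Or.inl ⟨a, l, hPr hl, hl', by rwa [hθ l hl]⟩)
  · exact Or.inr (Or.inr ⟨a, l, hPr hl, hl', by rwa [hθ l hl]⟩)

namespace IsLevelRoot

variable {hq : ¬ (q : ℕ) ∣ L} {S₁ S : Submonoid (BettiHeckeAlg A)} {a τ : BettiHeckeAlg A}

/-- The Hecke polynomial at `a` is zero on the localisation. -/
theorem heckeRootPoly_smul (h : IsLevelRoot χ V hq S₁ S a τ) (x : BettiLoc L χ V S₁) :
    heckeRootPoly hq χ a • x = 0 := by
  induction x using LocalizedModule.induction_on with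
  | h m s =>
    obtain ⟨u, hu, hm⟩ := h.root m
    rw [LocalizedModule.smul'_mk, ← LocalizedModule.zero_mk s, LocalizedModule.mk_eq]
    refine ⟨⟨u, hu⟩, ?_⟩
    simp only [Submonoid.smul_def, smul_zero]
    rw [smul_comm u (s : BettiHeckeAlg A), hm, smul_zero]

end IsLevelRoot

variable (χ V) in
/-- The adjoint of the old part, before localising the source. -/
def oneDownFun (hq : ¬ (q : ℕ) ∣ L) (S₁ : Submonoid (BettiHeckeAlg A)) (a : BettiHeckeAlg A) :
    BettiMod (L * (q : ℕ)) (raiseChar q χ) V →ₗ[A] BettiLoc L χ V S₁ where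
  toFun m := LocalizedModule.mk (a • levelTrace hq χ V (levelAtkin hq χ V m) -
    (χ (levelUnit hq) : A) • levelTrace hq χ V m) 1
  map_add' m m' := by
    rw [LocalizedModule.mk_add_mk, one_smul, one_smul, one_mul, map_add, map_add, map_add,
      smul_add, smul_add]
    congr 1
    abel
  map_smul' r m := by
    rw [RingHom.id_apply, LocalizedModule.smul'_mk, map_smul, map_smul, map_smul, smul_sub,
      smul_comm r a, smul_comm r (χ (levelUnit hq) : A)]

theorem oneDownFun_smul {hq : ¬ (q : ℕ) ∣ L} {S₁ S : Submonoid (BettiHeckeAlg A)}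
    {a τ : BettiHeckeAlg A} (h : IsLevelRoot χ V hq S₁ S a τ) (P : BettiHeckeAlg A)
    (m : BettiMod (L * (q : ℕ)) (raiseChar q χ) V) :
    oneDownFun χ V hq S₁ a (P • m) = substPrime q a P • oneDownFun χ V hq S₁ a m := by
  induction P using MvPolynomial.induction_on generalizing m with
  | C r =>
    rw [substPrime_C, BettiMod.C_smul, map_smul, ← MvPolynomial.algebraMap_eq, algebraMap_smul]
  | add P Q hP hQ => rw [add_smul, map_add, map_add, add_smul, hP, hQ]
  | mul_X P l hP =>
    rw [mul_smul, hP, map_mul, mul_smul]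
    congr 1
    by_cases hl : l = q
    · subst hl
      rw [substPrime_X_self]
      set c : A := (χ (levelUnit hq) : A) with hc
      set s := levelTrace hq χ V m
      set t := levelTrace hq χ V (levelAtkin hq χ V m)
      have hUm : (X l : BettiHeckeAlg A) • m = levelDegen₁ l χ V t - levelAtkin hq χ V m := by
        refine ((Units.isUnit (χ (levelUnit hq))).smul_left_cancel).1 ?_
        have h1 := X_smul_levelAtkin hq (levelAtkin hq χ V m)
        rwa [levelAtkin_levelAtkin, smul_comm (X l : BettiHeckeAlg A)] at h1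
      have e1 : levelTrace hq χ V ((X l : BettiHeckeAlg A) • m) = (((l : ℕ) : A) + 1) • t - t := by
        rw [hUm, map_sub, levelTrace_levelDegen₁]
      have e2 : levelTrace hq χ V (levelAtkin hq χ V ((X l : BettiHeckeAlg A) • m)) =
          (X l : BettiHeckeAlg A) • t - c • s := by
        rw [hUm, map_sub, map_sub, levelTrace_levelAtkin_levelDegen₁, levelAtkin_levelAtkin,
          map_smul]
      show LocalizedModule.mk (a • _ - c • _) 1 = a • LocalizedModule.mk (a • t - c • s) 1
      rw [e1, e2, LocalizedModule.smul'_mk]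
      have h0 := h.heckeRootPoly_smul (LocalizedModule.mk t 1)
      rw [LocalizedModule.smul'_mk] at h0
      rw [show a • ((X l : BettiHeckeAlg A) • t - c • s) - c • ((((l : ℕ) : A) + 1) • t - t) =
          (a • (a • t - c • s)) + (-1 : BettiHeckeAlg A) • (heckeRootPoly hq χ a • t) from ?_]
      · have e : ∀ y z : BettiMod L χ V, (LocalizedModule.mk (y + z) 1 : BettiLoc L χ V S₁) =
            LocalizedModule.mk y 1 + LocalizedModule.mk z 1 := fun y z => by
          rw [LocalizedModule.mk_add_mk, one_smul, one_smul, one_mul]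
        rw [e, ← LocalizedModule.smul'_mk (-1 : BettiHeckeAlg A), h0, smul_zero, add_zero]
      · rw [← BettiMod.C_smul c s, ← BettiMod.C_smul (((l : ℕ) : A) + 1) t,
          ← BettiMod.C_smul c ((C (((l : ℕ) : A) + 1) : BettiHeckeAlg A) • t - t)] at *
        simp only [heckeRootPoly, map_mul, map_add, map_one, hc]
        module
    · rw [substPrime_X_of_ne _ hl]
      show LocalizedModule.mk _ 1 = (X l : BettiHeckeAlg A) • LocalizedModule.mk _ 1
      rw [LocalizedModule.smul'_mk, levelAtkin_X_smul hq hl, levelTrace_X_smul hq hl,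
        levelTrace_X_smul hq hl, smul_sub, smul_comm (X l : BettiHeckeAlg A) a,
        smul_comm (X l : BettiHeckeAlg A) (χ (levelUnit hq) : A)]

theorem oneDownFun_levelDegen₁ {hq : ¬ (q : ℕ) ∣ L} {S₁ S : Submonoid (BettiHeckeAlg A)}
    {a τ : BettiHeckeAlg A} (h : IsLevelRoot χ V hq S₁ S a τ) (m : BettiMod L χ V) :
    oneDownFun χ V hq S₁ a (levelDegen₁ q χ V m) =
      (a ^ 2 - C (χ (levelUnit hq) : A)) • LocalizedModule.mk m 1 := by
  show LocalizedModule.mk _ 1 = _
  rw [levelTrace_levelAtkin_levelDegen₁, levelTrace_levelDegen₁, LocalizedModule.smul'_mk]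
  have h0 := h.heckeRootPoly_smul (LocalizedModule.mk m 1)
  rw [LocalizedModule.smul'_mk] at h0
  rw [show a • ((X q : BettiHeckeAlg A) • m) -
      (χ (levelUnit hq) : A) • ((((q : ℕ) : A) + 1) • m) =
      (a ^ 2 - C (χ (levelUnit hq) : A)) • m + (-1 : BettiHeckeAlg A) • (heckeRootPoly hq χ a • m)
      from ?_]
  · have e : ∀ y z : BettiMod L χ V, (LocalizedModule.mk (y + z) 1 : BettiLoc L χ V S₁) =
        LocalizedModule.mk y 1 + LocalizedModule.mk z 1 := fun y z => by
      rw [LocalizedModule.mk_add_mk, one_smul, one_smul, one_mul]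
    rw [e, ← LocalizedModule.smul'_mk (-1 : BettiHeckeAlg A), h0, smul_zero, add_zero]
  · rw [← BettiMod.C_smul (((q : ℕ) : A) + 1) m, ← BettiMod.C_smul (χ (levelUnit hq) : A)]
    simp only [heckeRootPoly, map_mul, map_add, map_one]
    module

variable [IsLocalRing A] [IsNoetherianRing A] [IsAdicComplete (maximalIdeal A) A]
  {k : Type} [Field k] {Pr : Set Nat.Primes} {θ : BettiHeckeAlg A →+* k}

/-- **Level raising with one old copy.** -/
theorem exists_raiseMaps_one [NeZero L] (hq : ¬ (q : ℕ) ∣ L) {M : ℕ} (hM : M = L * (q : ℕ))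
    (hLM : L ∣ M) (hχ : χ (-1) = 1) (hχ1 : ∀ u, (χ u : A) - 1 ∈ maximalIdeal A)
    (hθ : ∀ r ∈ maximalIdeal A, θ (C r) = 0) (hsurj : Function.Surjective (θ.comp C))
    (hqPr : q ∈ Pr) (α : k)
    (hroot : α ^ 2 - θ (X q) * α + θ (C (((q : ℕ) : A) * (χ (levelUnit hq) : A))) = 0)
    (hα0 : α ≠ 0) (hsimple : 2 * α ≠ θ (X q))
    (hell : EllipticHarmless L (Pr \ {q}) θ) {l : Nat.Primes}
    (hl : ((l : ℕ) : ZMod (Modular.Ihara.iharaLevel L q)) = 1) (hlPr : l ∈ Pr)
    (hne : θ (X l) ≠ θ (C (((l : ℕ) : A) + 1))) :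
    ∃ (a : BettiHeckeAlg A) (D : RaiseMaps q (Fin 1) χ (χ.comp (ZMod.unitsMap hLM)) Pr θ
        (residualRaise θ q α) (χ (levelUnit hq) : A)),
      a ∈ supported A Pr ∧ θ a = α ∧
      (∀ y : BettiResLoc χ Pr θ, heckeRootPoly hq χ a • y = 0) ∧
      D.G = Matrix.of fun _ _ => a ^ 2 - C (χ (levelUnit hq) : A) := by
  subst hM
  have : NeZero (L * (q : ℕ)) := ⟨mul_ne_zero (NeZero.ne L) q.2.ne_zero⟩
  obtain ⟨a, τ, ha, hθa, h⟩ :=
    exists_isLevelRoot (V := A) hq Pr hqPr θ hθ hsurj α hroot hα0 hsimple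
  set θ' := residualRaise θ q α with hθ'
  set S₁ := bettiResidualSubmonoid Pr θ with hS₁
  set S := bettiResidualSubmonoid Pr θ' with hS
  have hlq : l ≠ q := ne_of_cast_eq_one_iharaLevel hq hl
  have hne' : θ' (X l) ≠ θ' (C (((l : ℕ) : A) + 1)) := by
    rwa [hθ', residualRaise_X_of_ne _ _ hlq, residualRaise_C]
  have hθ'0 : ∀ r ∈ maximalIdeal A, θ' (C r) = 0 := fun r hr => by
    rw [hθ', residualRaise_C]; exact hθ r hr
  have hellL : EllipticHarmless L Pr θ := hell.of_agree Set.sdiff_subset fun _ _ => rfl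
  have hellM : EllipticHarmless (L * (q : ℕ)) Pr θ' :=
    (hell.of_agree Set.sdiff_subset fun l hl =>
      residualRaise_X_of_ne θ α fun e => hl.2 e).mul_right _
  have hRL := bettiRightExact_residual χ hχ θ hellL
  have hRM := bettiRightExact_residual (raiseChar q χ) (raiseChar_neg_one hχ) θ' hellM
  -- every localised class is the image of a class
  have hsL : ∀ y : BettiResLoc χ Pr θ, ∃ m, LocalizedModule.mk m 1 = y := fun y => by
    obtain ⟨m, hm⟩ := mkLinearMap_charSubmonoid_surjective (supported A Pr) θ hθ (BettiMod L χ A) y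
    exact ⟨m, hm⟩
  have hsM : ∀ y : BettiResLoc (raiseChar q χ) Pr θ', ∃ m, LocalizedModule.mk m 1 = y := fun y => by
    obtain ⟨m, hm⟩ := mkLinearMap_charSubmonoid_surjective (supported A Pr) θ' hθ'0
      (BettiMod (L * (q : ℕ)) (raiseChar q χ) A) y
    exact ⟨m, hm⟩
  -- the adjoint
  let π : BettiMod (L * (q : ℕ)) (raiseChar q χ) A →ₗ[A] BettiResLoc (raiseChar q χ) Pr θ' :=
    (LocalizedModule.mkLinearMap S _).restrictScalars A
  have hπ : ∀ m, π m = LocalizedModule.mk m 1 := fun m => rfl
  have hπs : Function.Surjective π := hsM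
  set f := oneDownFun χ A hq S₁ a with hf
  have hker : LinearMap.ker π ≤ LinearMap.ker f := fun m hm => by
    rw [LinearMap.mem_ker, hπ, ← LocalizedModule.zero_mk 1, LocalizedModule.mk_eq] at hm
    obtain ⟨u, hu⟩ := hm
    simp only [one_smul, smul_zero, Submonoid.smul_def] at hu
    refine LinearMap.mem_ker.2 (BettiLoc.smul_cancel (h.phi_mem _ u.2) ?_)
    rw [hf, ← oneDownFun_smul h, hu, map_zero, smul_zero]
  let dn : BettiResLoc (raiseChar q χ) Pr θ' →ₗ[A] BettiResLoc χ Pr θ :=
    ((LinearMap.ker π).liftQ f hker).comp (π.quotKerEquivOfSurjective hπs).symm.toLinearMap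
  have hdn : ∀ m, dn (LocalizedModule.mk m 1) = f m := fun m => by
    show (LinearMap.ker π).liftQ f hker ((π.quotKerEquivOfSurjective hπs).symm _) = _
    rw [show (π.quotKerEquivOfSurjective hπs).symm (LocalizedModule.mk m 1) =
      Submodule.Quotient.mk m from by rw [LinearEquiv.symm_apply_eq]; rfl]
    rfl
  have hraise : ∀ m, h.raise (LocalizedModule.mk m 1) = raiseLoc χ A q S m := fun m => by
    rw [← h.psi_smul_raise m 1, OneMemClass.coe_one, map_one, one_smul]
  -- injectivity modulo the maximal ideal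
  have hmod : ∀ y, h.raise y ∈ maximalIdeal A • (⊤ : Submodule A _) →
      y ∈ maximalIdeal A • (⊤ : Submodule A (BettiResLoc χ Pr θ)) := fun y hy => by
    obtain ⟨m, rfl⟩ := hsL y
    set r := Algebra.linearMap A (ResidueField A) with hr
    rw [← mem_maximalIdeal_smul_top hχ hRL, BettiLoc.map_mk]
    set m' := BettiMod.map r m with hm'
    rw [hraise, raiseLoc] at hy
    have h0 := map_residue_eq_zero_of_mem _ hy
    rw [BettiLoc.map_mk, show BettiMod.map r (levelDegen₁ q χ A m) =
      levelDegen₁ q χ (ResidueField A) m' from CosetSystem.transfer_map _ _ r m,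
      ← LocalizedModule.zero_mk 1, LocalizedModule.mk_eq] at h0
    obtain ⟨u, hu⟩ := h0
    simp only [one_smul, smul_zero, Submonoid.smul_def] at hu
    obtain ⟨x, y, z, h1, h2⟩ := exists_old_component hq a (u : BettiHeckeAlg A) m'
    rw [hu] at h1
    have h3 := fun b => levelUpMod_eq_zero hq (smul_residueField_eq hχ1) (x := ![x, y])
      (by simpa [levelUpMod] using h1.symm) l hl b
    have hlS : (X l - C (((l : ℕ) : A) + 1) : BettiHeckeAlg A) ∈ S₁ :=
      ⟨sub_mem (X_mem_supported_set hlPr) (C_mem_supported_set Pr _),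
        by rwa [map_sub, sub_ne_zero]⟩
    have hz : heckeRootPoly hq χ a • (LocalizedModule.mk z 1 : BettiLoc L χ _ S₁) = 0 := by
      obtain ⟨z₀, hz₀⟩ := BettiLoc.map_surjective hRL (f := r) residue_surjective
        (LocalizedModule.mk z 1)
      rw [← hz₀]
      induction z₀ using LocalizedModule.induction_on with
      | h z₁ t =>
        rw [BettiLoc.map_mk, LocalizedModule.smul'_mk, ← map_smul, ← BettiLoc.map_mk,
          ← LocalizedModule.smul'_mk, h.heckeRootPoly_smul, map_zero]
    refine BettiLoc.smul_cancel (h.phi_mem _ u.2) ?_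
    have hx : ∀ b : Fin 2, (LocalizedModule.mk (![x, y] b) 1 : BettiLoc L χ _ S₁) = 0 := fun b =>
      BettiLoc.smul_cancel hlS (by rw [LocalizedModule.smul'_mk, h3 b, LocalizedModule.zero_mk,
        smul_zero])
    have e : ∀ u v : BettiMod L χ (ResidueField A),
        (LocalizedModule.mk (u + v) 1 : BettiLoc L χ _ S₁) =
          LocalizedModule.mk u 1 + LocalizedModule.mk v 1 := fun u v => by
      rw [LocalizedModule.mk_add_mk, one_smul, one_smul, one_mul]
    rw [smul_zero, LocalizedModule.smul'_mk, show substPrime q a u • m' =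
      x + (X q - a) • y + (-1 : BettiHeckeAlg A) • (heckeRootPoly hq χ a • z) by
        rw [← h2]; module, e, e, ← LocalizedModule.smul'_mk (X q - a),
      ← LocalizedModule.smul'_mk (-1 : BettiHeckeAlg A), ← LocalizedModule.smul'_mk
        (heckeRootPoly hq χ a), hz, smul_zero, add_zero]
    have hx0 := hx 0
    have hx1 := hx 1
    simp only [Matrix.cons_val_zero, Matrix.cons_val_one, Matrix.cons_val_fin_one] at hx0 hx1
    rw [hx0, hx1, smul_zero, add_zero]
  -- finiteness and freeness
  have : Module.Finite A (BettiResLoc χ Pr θ) := bettiLoc_finite χ A Pr θ hθ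
  have : Module.Finite A (BettiResLoc (raiseChar q χ) Pr θ') := bettiLoc_finite _ A Pr θ' hθ'0
  have : Module.Free A (BettiResLoc (raiseChar q χ) Pr θ') :=
    bettiLoc_free (raiseChar_neg_one hχ)
      (bettiNonEisenstein_raise hq (iharaNonEisenstein_residual θ' l hlPr hl hne')) hRM
  let up : (Fin 1 → BettiResLoc χ Pr θ) →ₗ[A] BettiResLoc (raiseChar q χ) Pr θ' :=
    h.raise.comp (LinearMap.proj 0)
  have hupmod : ∀ v, up v ∈ maximalIdeal A • (⊤ : Submodule A _) →
      v ∈ maximalIdeal A • (⊤ : Submodule A (Fin 1 → BettiResLoc χ Pr θ)) := fun v hv => by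
    have h0 := hmod _ hv
    rw [show v = LinearMap.single A (fun _ : Fin 1 => BettiResLoc χ Pr θ) 0 (v 0) from
      funext fun b => by rw [Subsingleton.elim b 0]; simp]
    have h1 := Submodule.mem_map_of_mem
      (f := LinearMap.single A (fun _ : Fin 1 => BettiResLoc χ Pr θ) 0) h0
    rw [Submodule.map_smul''] at h1
    exact Submodule.smul_mono le_rfl le_top h1
  have hten := lTensor_injective_of_injective_mod up hupmod
  obtain ⟨g, hg⟩ := (IsLocalRing.split_injective_iff_lTensor_residueField_injective up).2 hten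
  refine ⟨a, {
    up := up
    down := LinearMap.pi fun _ => dn
    G := Matrix.of fun _ _ => a ^ 2 - C (χ (levelUnit hq) : A)
    up_smul := fun P hP v => ?_
    down_smul := fun P hP x => ?_
    down_up := fun v b => ?_
    X_smul_mem := fun v => ?_
    sq_sub_mem := fun x => ?_
    up_injective := Function.LeftInverse.injective (LinearMap.congr_fun hg)
    up_injective_mod := fun v hv b => by rw [Subsingleton.elim b 0]; exact hmod _ hv
    down_surjective := fun y => ?_
    free_coker := Module.free_of_lTensor_residueField_injective up (LinearMap.range up).mkQ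
      (Submodule.mkQ_surjective _) (LinearMap.exact_map_mkQ_range _) hten },
    ha, hθa, fun y => h.heckeRootPoly_smul y, rfl⟩
  · show h.raise (P • v 0) = P • h.raise (v 0)
    rw [← h.raise_smul, substPrime_of_supported a hP]
  · funext b
    obtain ⟨m, rfl⟩ := hsM x
    show dn (P • LocalizedModule.mk m 1) = P • dn (LocalizedModule.mk m 1)
    rw [LocalizedModule.smul'_mk, hdn, hdn, hf, oneDownFun_smul h, substPrime_of_supported a hP]
  · obtain ⟨m, hm⟩ := hsL (v 0)
    show dn (h.raise (v 0)) = _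
    rw [Fin.sum_univ_one, Matrix.of_apply, ← hm, hraise, raiseLoc, hdn, hf,
      oneDownFun_levelDegen₁ h]
  · exact ⟨fun _ => substPrime q a (X q) • v 0, h.raise_smul (X q) (v 0)⟩
  · obtain ⟨m, rfl⟩ := hsM x
    set t := levelTrace hq χ A (levelAtkin hq χ A m)
    refine ⟨fun _ => LocalizedModule.mk ((X q : BettiHeckeAlg A) • t -
      (χ (levelUnit hq) : A) • levelTrace hq χ A m) 1 -
      (LocalizedModule.mk ((X q : BettiHeckeAlg A) • t) 1 -
        substPrime q a (X q) • LocalizedModule.mk t 1), ?_⟩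
    show h.raise (_ - (_ - _)) = _
    rw [map_sub, map_sub, h.raise_smul, hraise, hraise, hraise, raiseLoc, raiseLoc, raiseLoc,
      LocalizedModule.smul'_mk, LocalizedModule.smul'_mk, sub_smul, BettiMod.C_smul,
      X_sq_sub_smul hq]
    have e : ∀ u v : BettiMod (L * (q : ℕ)) (raiseChar q χ) A,
        (LocalizedModule.mk (u - v) 1 : BettiResLoc (raiseChar q χ) Pr θ') =
          LocalizedModule.mk u 1 - LocalizedModule.mk v 1 := fun u v => by
      rw [eq_sub_iff_add_eq, LocalizedModule.mk_add_mk, one_smul, one_smul, one_mul, sub_add_cancel]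
    rw [e]
    congr 1
    rw [← e, X_smul_levelDegen₁ hq, sub_sub_cancel]
  · have hau : a ∈ S₁ := ⟨ha, hθa.symm ▸ hα0⟩
    obtain ⟨y', hy'⟩ := ((Module.End.isUnit_iff _).1 (IsLocalizedModule.map_units
      (LocalizedModule.mkLinearMap S₁ (BettiMod L χ A)) ⟨a, hau⟩)).2 (y 0)
    obtain ⟨m, rfl⟩ := hsL y'
    have hqPr₀ : q ∉ Pr \ {q} := fun h => h.2 rfl
    have hS₀ : AwayFrom q (bettiResidualSubmonoid (Pr \ {q}) θ) := awayFrom_residual hqPr₀ θ
    obtain ⟨x₀, hx₀⟩ := levelDownLoc_residual_surjective hq hχ hχ1 hθ hqPr₀ hell hl ⟨hlPr, hlq⟩ hne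
      ![0, LocalizedModule.mk m 1]
    obtain ⟨x, hx⟩ := mkLinearMap_charSubmonoid_surjective (supported A (Pr \ {q})) θ hθ
      (BettiMod (L * (q : ℕ)) (raiseChar q χ) A) x₀
    rw [LocalizedModule.mkLinearMap_apply] at hx
    subst hx
    have hsub : ∀ u ∈ bettiResidualSubmonoid (Pr \ {q}) θ, u ∈ S₁ := fun u hu =>
      ⟨supported_mono Set.sdiff_subset hu.1, hu.2⟩
    have hconv : ∀ u v : BettiMod L χ A,
        (LocalizedModule.mk u 1 : BettiLoc L χ A (bettiResidualSubmonoid (Pr \ {q}) θ)) =
          LocalizedModule.mk v 1 →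
        (LocalizedModule.mk u 1 : BettiLoc L χ A S₁) = LocalizedModule.mk v 1 := fun u v e => by
      rw [LocalizedModule.mk_eq] at e ⊢
      obtain ⟨w, hw⟩ := e
      simp only [one_smul] at hw ⊢
      exact ⟨⟨_, hsub _ w.2⟩, hw⟩
    have e0 := congrFun hx₀ 0
    have e1 := congrFun hx₀ 1
    simp only [levelDownLoc, LinearMap.pi_apply, Matrix.cons_val_zero, Matrix.cons_val_one,
      Matrix.cons_val_fin_one] at e0 e1
    replace e0 : (LocalizedModule.mk (levelTrace hq χ A x) 1 : BettiLoc L χ A
        (bettiResidualSubmonoid (Pr \ {q}) θ)) = LocalizedModule.mk 0 1 :=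
      e0.trans (LocalizedModule.zero_mk _).symm
    replace e1 : (LocalizedModule.mk (levelTrace hq χ A (levelAtkin hq χ A x)) 1 : BettiLoc L χ A
        (bettiResidualSubmonoid (Pr \ {q}) θ)) = LocalizedModule.mk m 1 := e1
    refine ⟨LocalizedModule.mk x 1, funext fun b => ?_⟩
    rw [Subsingleton.elim b 0]
    refine Eq.trans ?_ hy'
    show dn (LocalizedModule.mk x 1) = a • LocalizedModule.mk m 1
    rw [hdn]
    show LocalizedModule.mk (a • levelTrace hq χ A (levelAtkin hq χ A x) -
      (χ (levelUnit hq) : A) • levelTrace hq χ A x) 1 = _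
    rw [sub_eq_add_neg, ← neg_smul, show ∀ u v : BettiMod L χ A,
        (LocalizedModule.mk (u + v) 1 : BettiLoc L χ A S₁) =
          LocalizedModule.mk u 1 + LocalizedModule.mk v 1 from fun u v => by
      rw [LocalizedModule.mk_add_mk, one_smul, one_smul, one_mul],
      ← LocalizedModule.smul'_mk, ← LocalizedModule.smul'_mk, hconv _ _ e0, hconv _ _ e1,
      LocalizedModule.zero_mk, smul_zero, add_zero]

end FermatLib.MLT

end
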